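import Mathlib
import Fermat.Agent.S15.A.HeckeRedC

/-!
# PROJECT P (S44), brick [EIS], part 1 (helper16): the Hecke correspondence `T_r` on the divisors of
the reduction `κ = k(X₀(M))`, `k` the residue field of a place `A` of `ℚ̄` over `p ∤ M`, `r ∤ M` a prime

* `zetaA A r`, `zetaK A π r` : a FIXED primitive `r`-th root of unity of `A`, and its image in `k`;
* `exists_normI_zeta` : `S15.A.HeckeRedA.exists_normI` for that fixed root (so that the same series
  `normSeries (zetaK A π r) r` serves at every level);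
* `normBeta_mem_Ow`, `coe_redw_normBeta` : `N_α (β f)` of a Gauss unit is a Gauss unit, and its reduction
  is the series `normSeries ζ r (redw f)`;
* `heckeDivK` : the reduction of `T_r` (level `M`, good reduction), as an additive map on `Div κ`:
  `heckeDivK (r_* D) = r_* (T_r D)` (`heckeDivK_mapDomain`);
* `ord_normSeries` : `div (normSeries ζ r w) = heckeDivK (div w)` for `w ∈ κ`.
-/

set_option autoImplicit false
set_option linter.unusedSectionVars false
set_option linter.style.haveILetI false
set_option synthInstance.maxHeartbeats 400000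

noncomputable section

namespace Fermat.Agent.S44.Eis.HeckeK

open ModularCurve HahnSeries AlgebraicCurve
open Fermat.Agent.S28.LaurentRescale Fermat.Agent.S18.GaussFromH
open Fermat.Agent.S37.ES.NormAlpha Fermat.Agent.S37.ES.NormRed
open Fermat.Agent.S37.Hecke.Principal Fermat.Agent.S37.Hecke.Integral
open Fermat.Agent.S15.A.HeckeRedA Fermat.Agent.S15.A.HeckeRedB

local notation "Kb" => AlgebraicClosure ℚ

/-! ### series -/

section Series

variable {R : Type*} [CommRing R]

theorem conjProd_mul (ζ : Rˣ) (ℓ : ℕ) (x y : LaurentSeries R) :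
    conjProd ζ ℓ (x * y) = conjProd ζ ℓ x * conjProd ζ ℓ y := by
  unfold conjProd
  rw [← Finset.prod_mul_distrib]
  exact Finset.prod_congr rfl fun b _ => map_mul _ _ _

theorem normSeries_mul [IsDomain R] {ℓ : ℕ} [NeZero ℓ] {ζ : Rˣ} (hζ : orderOf ζ = ℓ)
    (x y : LaurentSeries R) :
    normSeries ζ ℓ (x * y) = normSeries ζ ℓ x * normSeries ζ ℓ y := by
  apply qExpand_injective ℓ
  rw [map_mul, qExpand_normSeries hζ, qExpand_normSeries hζ, qExpand_normSeries hζ, map_mul,
    map_mul, conjProd_mul]
  ring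

end Series

/-! ### a fixed primitive root of unity -/

section Roots

variable (A : ValuationSubring Kb) {k : Type*} [Field k] (π : ↥A →+* k) (r : ℕ) [NeZero r]

theorem natCast_ne_zero_Kb : ((r : ℕ) : Kb) ≠ 0 := Nat.cast_ne_zero.mpr (NeZero.ne r)

/-- a fixed primitive `r`-th root of unity of `ℚ̄` -/
def zetaKb : Kbˣ :=
  Classical.choose (Fermat.Agent.S28.StepDeg.exists_isPrimitiveRoot_units (k := Kb) (p := r)
    (natCast_ne_zero_Kb r))

theorem isPrimitiveRoot_zetaKb : IsPrimitiveRoot (zetaKb r) r :=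
  Classical.choose_spec (Fermat.Agent.S28.StepDeg.exists_isPrimitiveRoot_units (k := Kb) (p := r)
    (natCast_ne_zero_Kb r))

/-- the same root, as a unit of `A` -/
def zetaA : (↥A)ˣ :=
  Classical.choose (exists_unit_of_isPrimitiveRoot A (Nat.pos_of_ne_zero (NeZero.ne r))
    (isPrimitiveRoot_zetaKb r))

theorem map_zetaA :
    Units.map (A.subtype : ↥A →+* Kb).toMonoidHom (zetaA A r) = zetaKb r :=
  (Classical.choose_spec (exists_unit_of_isPrimitiveRoot A (Nat.pos_of_ne_zero (NeZero.ne r))
    (isPrimitiveRoot_zetaKb r))).1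

theorem orderOf_zetaA : orderOf (zetaA A r) = r :=
  (Classical.choose_spec (exists_unit_of_isPrimitiveRoot A (Nat.pos_of_ne_zero (NeZero.ne r))
    (isPrimitiveRoot_zetaKb r))).2

theorem zetaA_pow : zetaA A r ^ r = 1 := by
  have h := pow_orderOf_eq_one (zetaA A r)
  rwa [orderOf_zetaA] at h

/-- its image in the residue field -/
def zetaK : kˣ := Units.map (π : ↥A →+* k).toMonoidHom (zetaA A r)

theorem orderOf_zetaK (hr : r.Prime) (hrk : ((r : ℕ) : k) ≠ 0) : orderOf (zetaK A π r) = r := by
  have hpow : zetaK A π r ^ r = 1 := by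
    rw [zetaK, ← map_pow, zetaA_pow, map_one]
  have hdvd : orderOf (zetaK A π r) ∣ r := orderOf_dvd_of_pow_eq_one hpow
  rcases (Nat.dvd_prime hr).mp hdvd with h1 | h1
  · exfalso
    have hone : zetaK A π r = 1 := orderOf_eq_one_iff.mp h1
    -- `∑_{i < r} ζ^i = 0` in `A`
    have hζne : ((zetaA A r : (↥A)ˣ) : ↥A) ≠ 1 := by
      intro h
      have h2 : zetaA A r = 1 := Units.ext h
      have h3 := orderOf_zetaA A r
      rw [h2, orderOf_one] at h3
      exact hr.one_lt.ne h3
    have hgeom := geom_sum_mul ((zetaA A r : (↥A)ˣ) : ↥A) r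
    have hpowA : ((zetaA A r : (↥A)ˣ) : ↥A) ^ r = 1 := by
      rw [← Units.val_pow_eq_pow_val, zetaA_pow, Units.val_one]
    rw [hpowA, sub_self] at hgeom
    have hsum : ∑ i ∈ Finset.range r, ((zetaA A r : (↥A)ˣ) : ↥A) ^ i = 0 := by
      rcases mul_eq_zero.mp hgeom with h | h
      · exact h
      · exact absurd (sub_eq_zero.mp h) hζne
    have hk := congrArg π hsum
    rw [map_sum, map_zero] at hk
    have hπζ : π ((zetaA A r : (↥A)ˣ) : ↥A) = 1 := by
      have := congrArg (fun u : kˣ => (u : k)) hone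
      simpa [zetaK] using this
    simp only [map_pow, hπζ, one_pow, Finset.sum_const, Finset.card_range, nsmul_eq_mul,
      mul_one] at hk
    exact hrk hk
  · exact h1

end Roots

/-! ### the norm of an integral element, for the fixed root -/

section Norm

variable {N : ℕ} [NeZero N] {A : ValuationSubring Kb} {k : Type*} [Field k] {π : ↥A →+* k}
variable {r : ℕ} [NeZero r]

/-- **Integrality and reduction of the norm, for the fixed root `zetaA A r`**
(`S15.A.HeckeRedA.exists_normI` with the root of unity made explicit). -/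
theorem exists_normI_zeta (hr : r.Prime) (hrN : ¬ r ∣ N) (hrep : HasRep A π N)
    (hπ : ∀ a : ↥A, ¬ IsUnit a → π a = 0) (a : ↥(intRing A π N)) :
    ∃ a' : ↥(intRing A π N),
      toFL A π N a' = normBeta N r (toFL A π N a) ∧
      coeffMap π a'.1 = normSeries (zetaK A π r) r (coeffMap π a.1) ∧
      (red A π N a ≠ 0 → red A π N a' ≠ 0) := by
  letI := algebraAlong (heckeAlphaBar Kb N r)
  have hρ : HasRho N r :=
    hasRho_of_algHom N r (Fermat.Agent.S37.ES.HeckeRho.exists_rho hr hrN)
  have hζ := isPrimitiveRoot_zetaKb r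
  have hζA := map_zetaA A r
  have hord := orderOf_zetaA A r
  set ζA := zetaA A r with hζAdef
  set y : LaurentSeries ↥A := a.1 with hy
  set s : LaurentSeries ↥A := normSeries ζA r y with hs
  set nm : ↥(laurentBaseChange Kb (modularFunctionFieldFull N)) :=
    normBeta N r (toFL A π N a) with hnm
  have hL : coeffMap A.subtype s = (nm : LaurentSeries Kb) := by
    apply qExpand_injective r
    have h1 := qExpand_norm_beta hr hrN hρ hζ (toFL A π N a)
    rw [← coeffMap_qExpand, hs, qExpand_normSeries hord, map_mul, coeffMap_qExpand,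
      coeffMap_qExpand, coeffMap_conjProd, hζA]
    rw [coe_toFL] at h1
    exact h1.symm
  have hmemL : coeffMap A.subtype s ∈ laurentBaseChange Kb (modularFunctionFieldFull N) := by
    rw [hL]
    exact nm.2
  have hmemk : coeffMap π s ∈ modularFunctionFieldFullC k N := coeffMap_mem_fullC hrep hπ hmemL
  have hk : coeffMap π s = normSeries (zetaK A π r) r (coeffMap π y) := by
    rw [hs, coeffMap_normSeries]
    rfl
  refine ⟨⟨s, hmemL, hmemk⟩, Subtype.ext ?_, hk, ?_⟩
  · rw [coe_toFL]
    exact hL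
  · intro ha h0
    have hyk : coeffMap π y ≠ 0 := fun h => ha (Subtype.ext h)
    have h1 : coeffMap π s = 0 := congrArg Subtype.val h0
    have h2 : qExpand k r (coeffMap π s) =
        qExpand k r (qExpand k r (coeffMap π y)) *
          conjProd (Units.map (π : ↥A →+* k).toMonoidHom ζA) r (coeffMap π y) := by
      rw [← coeffMap_qExpand, hs, qExpand_normSeries hord, map_mul, coeffMap_qExpand,
        coeffMap_qExpand, coeffMap_conjProd]
    rw [h1, map_zero] at h2
    have h3 : qExpand k r (qExpand k r (coeffMap π y)) ≠ 0 :=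
      (map_ne_zero_iff _ (qExpand_injective r)).mpr
        ((map_ne_zero_iff _ (qExpand_injective r)).mpr hyk)
    exact mul_ne_zero h3 (conjProd_ne_zero _ r hyk) h2.symm

/-- **`N_α (β f)` of a Gauss unit `f` is a Gauss unit, and its reduction is the series
`normSeries ζ r (redw f)`.** -/
theorem exists_redw_normBeta (hr : r.Prime) (hrN : ¬ r ∣ N) (hrep : HasRep A π N)
    (hπ : ∀ a : ↥A, ¬ IsUnit a → π a = 0) (hrk : ((r : ℕ) : k) ≠ 0)
    (f : ↥(Ow A π N)) (hf : redw A π N f ≠ 0) :
    ∃ hmem : normBeta N r (f : ↥(laurentBaseChange Kb (modularFunctionFieldFull N))) ∈ Ow A π N,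
      ((redw A π N ⟨_, hmem⟩ : ↥(modularFunctionFieldFullC k N)) : LaurentSeries k) =
        normSeries (zetaK A π r) r
          ((redw A π N f : ↥(modularFunctionFieldFullC k N)) : LaurentSeries k) ∧
      redw A π N ⟨_, hmem⟩ ≠ 0 := by
  have hordk := orderOf_zetaK A π r hr hrk
  obtain ⟨a, b, ha, hb, hab⟩ := exists_rep_of_redw_ne_zero f hf
  obtain ⟨a', ha', hra', hnea⟩ := exists_normI_zeta (r := r) hr hrN hrep hπ a
  obtain ⟨b', hb', hrb', hneb⟩ := exists_normI_zeta (r := r) hr hrN hrep hπ b
  have h' : normBeta N r (f : ↥(laurentBaseChange Kb (modularFunctionFieldFull N))) *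
      toFL A π N b' = toFL A π N a' := by
    rw [ha', hb', ← normBeta_mul, hab]
  have hb'0 : red A π N b' ≠ 0 := hneb hb
  have ha'0 : red A π N a' ≠ 0 := hnea ha
  have hmem : normBeta N r (f : ↥(laurentBaseChange Kb (modularFunctionFieldFull N))) ∈
      Ow A π N := ⟨a', b', hb'0, h'⟩
  have hred' := redw_eq ⟨_, hmem⟩ hb'0 h'
  have hred := redw_eq f hb hab
  refine ⟨hmem, ?_, ?_⟩
  · -- `ā = ū b̄` as series
    have hser : coeffMap π a.1 =
        ((redw A π N f : ↥(modularFunctionFieldFullC k N)) : LaurentSeries k) *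
          coeffMap π b.1 := by
      have h1 : red A π N a = redw A π N f * red A π N b := by
        rw [hred]
        field_simp
      rw [← coe_red a, ← coe_red b, h1]
      rfl
    have hbk : coeffMap π b'.1 ≠ 0 := fun h0 => hb'0 (Subtype.ext h0)
    have h3 : red A π N a' = redw A π N ⟨_, hmem⟩ * red A π N b' := by
      rw [hred']
      field_simp
    have h5 : coeffMap π a'.1 =
        ((redw A π N ⟨_, hmem⟩ : ↥(modularFunctionFieldFullC k N)) : LaurentSeries k) *
          coeffMap π b'.1 := by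
      rw [← coe_red a', ← coe_red b', h3]
      rfl
    rw [hra', hser, normSeries_mul hordk, ← hrb'] at h5
    exact (mul_right_cancel₀ hbk h5).symm
  · rw [hred']
    exact div_ne_zero ha'0 hb'0

end Norm

/-! ### the reduction of `T_r` at a level of good reduction -/

section Good

attribute [local instance] Fermat.Agent.S18.A.Instances.hasPrincipalDivisors_bar

variable (N : ℕ) [NeZero N] {l : ℕ} [hl : Fact l.Prime] (hlN : ¬ l ∣ N)
variable (A : ValuationSubring Kb) (hA : A.LiesOverPrime l) (r : ℕ) [NeZero r]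


/-- the reduction of places at level `N` (good reduction) -/
def rrK : Place Kb ↥(laurentBaseChange Kb (modularFunctionFieldFull N)) → Place (IsLocalRing.ResidueField ↥A) ↥(modularFunctionFieldFullC (IsLocalRing.ResidueField ↥A) N) :=
  placeReductionModL (Fermat.Agent.S37.Cusps.CuspCountFinal.reductionInputsModL N A hA hlN)

theorem isPlaceReduction_rrK :
    IsPlaceReductionAlong A (IsLocalRing.residue ↥A) N (rrK N hlN A hA) :=
  isPlaceReductionModL_placeReductionModL
    (Fermat.Agent.S37.Cusps.CuspCountFinal.reductionInputsModL N A hA hlN)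

include hA hlN in
theorem hasRep_good : HasRep A (IsLocalRing.residue ↥A) N :=
  Fermat.Agent.S18.GaussFromHBar.hasRepModL
    (Fermat.Agent.S37.Cusps.CuspCountFinal.reductionInputsModL N A hA hlN)

theorem rrK_surjective : Function.Surjective (rrK N hlN A hA) :=
  placeMap_surjective (isPlaceReduction_rrK N hlN A hA) IsLocalRing.residue_surjective

/-- a place over a given place of the reduction -/
def liftPlace (Q : Place (IsLocalRing.ResidueField ↥A) ↥(modularFunctionFieldFullC (IsLocalRing.ResidueField ↥A) N)) : Place Kb ↥(laurentBaseChange Kb (modularFunctionFieldFull N)) := Classical.choose (rrK_surjective N hlN A hA Q)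

theorem rrK_liftPlace (Q : Place (IsLocalRing.ResidueField ↥A) ↥(modularFunctionFieldFullC (IsLocalRing.ResidueField ↥A) N)) : rrK N hlN A hA (liftPlace N hlN A hA Q) = Q :=
  Classical.choose_spec (rrK_surjective N hlN A hA Q)

/-- **The reduction of `T_r`** on the divisors of `κ = k(X₀(N))`. -/
def heckeDivK : Divisor (IsLocalRing.ResidueField ↥A) ↥(modularFunctionFieldFullC (IsLocalRing.ResidueField ↥A) N) →+ Divisor (IsLocalRing.ResidueField ↥A) ↥(modularFunctionFieldFullC (IsLocalRing.ResidueField ↥A) N) :=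
  Finsupp.liftAddHom fun Q =>
    zmultiplesHom (Divisor (IsLocalRing.ResidueField ↥A) ↥(modularFunctionFieldFullC (IsLocalRing.ResidueField ↥A) N))
      (Psi N r (rrK N hlN A hA) (Finsupp.single (liftPlace N hlN A hA Q) 1))

theorem heckeDivK_single (Q : Place (IsLocalRing.ResidueField ↥A) ↥(modularFunctionFieldFullC (IsLocalRing.ResidueField ↥A) N)) (n : ℤ) :
    heckeDivK N hlN A hA r (Finsupp.single Q n) =
      n • Psi N r (rrK N hlN A hA) (Finsupp.single (liftPlace N hlN A hA Q) 1) := by
  rw [heckeDivK, Finsupp.liftAddHom_apply_single]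
  rfl

variable {N A r}

include hA hlN in
/-- `Ψ P` only depends on the reduction of `P` -/
theorem psi_single_eq (hr : r.Prime) (hrN : ¬ r ∣ N) {P₁ P₂ : Place Kb ↥(laurentBaseChange Kb (modularFunctionFieldFull N))}
    (hP : rrK N hlN A hA P₁ = rrK N hlN A hA P₂) :
    Psi N r (rrK N hlN A hA) (Finsupp.single P₁ 1) =
      Psi N r (rrK N hlN A hA) (Finsupp.single P₂ 1) := by
  haveI : IsAlgClosed (IsLocalRing.ResidueField ↥A) := Fermat.Agent.S18.ResidueBasics.isAlgClosed_residueField A
  obtain ⟨g, hR⟩ := Fermat.Agent.S18.A.RiemannFk.exists_riemannHyp_FL N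
  obtain ⟨gk, hRk⟩ := Fermat.Agent.S18.A.RiemannFk.exists_riemannHyp_Fk' (IsLocalRing.ResidueField ↥A) N
    (Fermat.Agent.S18.B.SeparableFk.isSeparable_jk (IsLocalRing.ResidueField ↥A) N)
  have hdegk : ∀ Q : Place (IsLocalRing.ResidueField ↥A) ↥(modularFunctionFieldFullC (IsLocalRing.ResidueField ↥A) N), Q.deg = 1 := fun Q =>
    Fermat.Agent.S18.A.Instances.deg_one (Fermat.Agent.S18.B.FkBasics.isFF (IsLocalRing.ResidueField ↥A) N) Q
  exact Psi_single_eq_of_eq (r := r) hr hrN (hasRep_good N hlN A hA)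
    (Fermat.Agent.S18.GaussFromHBar.residue_eq_zero_of_not_isUnit (A := A))
    IsLocalRing.residue_surjective (isPlaceReduction_rrK N hlN A hA) hR hRk.finite hdegk hP

include hA hlN in
/-- **`heckeDivK (r_* D) = r_* (T_r D)`.** -/
theorem heckeDivK_mapDomain (hr : r.Prime) (hrN : ¬ r ∣ N) (D : Divisor Kb ↥(laurentBaseChange Kb (modularFunctionFieldFull N))) :
    heckeDivK N hlN A hA r (Finsupp.mapDomain (rrK N hlN A hA) D) =
      Psi N r (rrK N hlN A hA) D := by
  induction D using Finsupp.induction_linear with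
  | zero => simp
  | add D₁ D₂ h₁ h₂ => rw [Finsupp.mapDomain_add, map_add, map_add, h₁, h₂]
  | single P n =>
    rw [Finsupp.mapDomain_single, heckeDivK_single,
      psi_single_eq hlN hA hr hrN (rrK_liftPlace N hlN A hA (rrK N hlN A hA P)), ← map_zsmul,
      Finsupp.smul_single, smul_eq_mul, mul_one]

include hA hlN in
/-- **`div (normSeries ζ r w) = heckeDivK (div w)`** for `w ∈ κ`: the element of `κ` whose series is
`normSeries ζ r w` has divisor `T_r (div w)`. -/
theorem ord_normSeries (hr : r.Prime) (hrN : ¬ r ∣ N) (hrl : r ≠ l)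
    (w w' : ↥(modularFunctionFieldFullC (IsLocalRing.ResidueField ↥A) N)) (hw : w ≠ 0)
    (hww' : (w' : LaurentSeries (IsLocalRing.ResidueField ↥A)) =
      normSeries (zetaK A (IsLocalRing.residue ↥A) r) r
        (w : LaurentSeries (IsLocalRing.ResidueField ↥A)))
    (Dw : Divisor (IsLocalRing.ResidueField ↥A)
      ↥(modularFunctionFieldFullC (IsLocalRing.ResidueField ↥A) N))
    (hDw : ∀ Q, Dw Q = Q.ord w)
    (Q : Place (IsLocalRing.ResidueField ↥A)
      ↥(modularFunctionFieldFullC (IsLocalRing.ResidueField ↥A) N)) :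
    Q.ord w' = heckeDivK N hlN A hA r Dw Q := by
  have hrk : ((r : ℕ) : IsLocalRing.ResidueField ↥A) ≠ 0 :=
    Fermat.Agent.S18.ResidueBasics.natCast_ne_zero_of_not_dvd A hA
      (fun h => hrl ((Nat.prime_dvd_prime_iff_eq hl.out hr).mp h).symm)
  have hrep := hasRep_good N hlN A hA
  have hπ := Fermat.Agent.S18.GaussFromHBar.residue_eq_zero_of_not_isUnit (A := A)
  have hrr := isPlaceReduction_rrK N hlN A hA
  obtain ⟨f, hf⟩ := redw_surjective (A := A) (N := N) IsLocalRing.residue_surjective w
  have hf0' : redw A (IsLocalRing.residue ↥A) N f ≠ 0 := hf ▸ hw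
  obtain ⟨hmem, hser, hne⟩ := exists_redw_normBeta (r := r) hr hrN hrep hπ hrk f hf0'
  have hw' : redw A (IsLocalRing.residue ↥A) N ⟨_, hmem⟩ = w' := by
    apply Subtype.ext
    rw [hser, hf, hww']
  obtain ⟨a, b, ha, hb, hab⟩ := exists_rep_of_redw_ne_zero f hf0'
  have hf0 : (f : ↥(laurentBaseChange Kb (modularFunctionFieldFull N))) ≠ 0 := by
    intro h0
    rw [h0, zero_mul] at hab
    exact toFL_ne_zero_of_red_ne_zero ha hab.symm
  obtain ⟨D, hD, -⟩ := HasPrincipalDivisors.exists_divisor (K := Kb)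
    (f : ↥(laurentBaseChange Kb (modularFunctionFieldFull N))) hf0
  have hmap : Finsupp.mapDomain (rrK N hlN A hA) D = Dw := by
    ext Q'
    rw [mapDomain_div_eq hrr f hf0' D hD Q', hf, hDw]
  rw [← hmap, heckeDivK_mapDomain hlN hA hr hrN D, Psi_apply,
    mapDomain_div_eq hrr ⟨_, hmem⟩ hne (heckeDiv N r D)
      (fun v => heckeDiv_principal N r hf0 hD v) Q, hw']

include hA hlN in
/-- `deg (heckeDivK D) = (r + 1) deg D` -/
theorem degree_heckeDivK (hr : r.Prime) (hrN : ¬ r ∣ N)
    (Dw : Divisor (IsLocalRing.ResidueField ↥A)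
      ↥(modularFunctionFieldFullC (IsLocalRing.ResidueField ↥A) N)) :
    Divisor.degree (heckeDivK N hlN A hA r Dw) = ((r : ℤ) + 1) * Divisor.degree Dw := by
  haveI : IsAlgClosed (IsLocalRing.ResidueField ↥A) :=
    Fermat.Agent.S18.ResidueBasics.isAlgClosed_residueField A
  have hdegk : ∀ Q : Place (IsLocalRing.ResidueField ↥A)
      ↥(modularFunctionFieldFullC (IsLocalRing.ResidueField ↥A) N), Q.deg = 1 := fun Q =>
    Fermat.Agent.S18.A.Instances.deg_one
      (Fermat.Agent.S18.B.FkBasics.isFF (IsLocalRing.ResidueField ↥A) N) Q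
  have hdegK : ∀ P : Place Kb ↥(laurentBaseChange Kb (modularFunctionFieldFull N)), P.deg = 1 :=
    fun P => Fermat.Agent.S18.A.Instances.deg_one_bar N P
  induction Dw using Finsupp.induction_linear with
  | zero => simp
  | add D₁ D₂ h₁ h₂ => rw [map_add, map_add, map_add, h₁, h₂]; ring
  | single Q n =>
    rw [heckeDivK_single, map_zsmul,
      degree_Psi hr hrN (fun P => by rw [hdegk, hdegK]), Divisor.degree_single,
      Divisor.degree_single, hdegk, hdegK]
    simp
    ring

/-- `heckeDivK` preserves effective divisors -/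
theorem heckeDivK_nonneg
    {Dw : Divisor (IsLocalRing.ResidueField ↥A)
      ↥(modularFunctionFieldFullC (IsLocalRing.ResidueField ↥A) N)} (hDw : 0 ≤ Dw) :
    0 ≤ heckeDivK N hlN A hA r Dw := by
  classical
  intro Q'
  rw [heckeDivK, Finsupp.liftAddHom_apply, Finsupp.sum, Finsupp.coe_finsetSum,
    Finset.sum_apply]
  refine Finset.sum_nonneg fun Q _ => ?_
  have h1 : (0 : ℤ) ≤ Dw Q := hDw Q
  have h2 : (0 : ℤ) ≤ Psi N r (rrK N hlN A hA) (Finsupp.single (liftPlace N hlN A hA Q) 1) Q' :=
    Psi_nonneg (N := N) (r := r) (rr := rrK N hlN A hA)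
      (D := Finsupp.single (liftPlace N hlN A hA Q) 1)
      (fun P => by
        rw [Finsupp.single_apply]
        split_ifs <;> simp) Q'
  rw [zmultiplesHom_apply, Finsupp.smul_apply, smul_eq_mul]
  exact mul_nonneg h1 h2

end Good

end Fermat.Agent.S44.Eis.HeckeK
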