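import Mathlib
import Fermat.Agent.S44.Eis.HeckeK
import Fermat.Agent.S36.JIntegral
import Fermat.Agent.S36.NormDiag
import Fermat.Agent.S18.B.FibreX0Id

/-!
# PROJECT P (S44), brick [EIS], part 3 (helper16): `T_r` preserves the cusps

* `exists_of_correspondence_ne_zero` : the support of a correspondence, in terms of places of the
  upper field;
* `beta_jgen_mem_chart` : `j(q^r)` is integral over `ℤ[j]` in `ℚ̄(X₀(N r))`;
* `ord_jgen_neg_of_heckeDiv` : characteristic `0`, `T_r` of a pole of `j` is supported on poles of `j`;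
* `heckeDivK_cusp` : the same for the reduction `heckeDivK` of `T_r` and the poles of `j̄`.
-/

set_option autoImplicit false
set_option linter.unusedSectionVars false
set_option linter.style.haveILetI false
set_option synthInstance.maxHeartbeats 400000

noncomputable section

namespace Fermat.Agent.S44.Eis.HeckeCusp

open ModularCurve AlgebraicCurve
open Fermat.Agent.S24.DegreeAlg (jgen)
open Fermat.Agent.S44.Eis.HeckeK

local notation "Kb" => AlgebraicClosure ℚ

/-! ### the support of a correspondence -/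

section Abstract

variable {K F F' : Type*} [Field K] [Field F] [Field F'] [Algebra K F] [Algebra K F']

theorem exists_of_pushforwardAlong_ne_zero (ψ : F →ₐ[K] F') (hψ : ψ.toRingHom.IsIntegral)
    (D' : Divisor K F') (v : Place K F) (h : Divisor.pushforwardAlong ψ hψ D' v ≠ 0) :
    ∃ w : Place K F', D' w ≠ 0 ∧ w.restrictAlong ψ hψ = v := by
  classical
  by_contra hcon
  push Not at hcon
  apply h
  have hsum : D' = ∑ w ∈ D'.support, Finsupp.single w (D' w) := (Finsupp.sum_single D').symm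
  have h1 : Divisor.pushforwardAlong ψ hψ D' =
      ∑ w ∈ D'.support, Divisor.pushforwardAlong ψ hψ (Finsupp.single w (D' w)) := by
    conv_lhs => rw [hsum]
    rw [map_sum]
  rw [h1, Finsupp.finsetSum_apply]
  refine Finset.sum_eq_zero fun w hw => ?_
  rw [Divisor.pushforwardAlong_single, Finsupp.single_apply, if_neg]
  exact fun heq => hcon w (Finsupp.mem_support_iff.mp hw) heq

theorem ramificationIndexAlong_pos (φ : F →ₐ[K] F') (hφ : φ.toRingHom.IsIntegral)
    (w : Place K F') : 0 < Place.ramificationIndexAlong φ w := by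
  letI := algebraAlong φ
  haveI := isScalarTower_along φ
  haveI := isIntegral_along φ hφ
  exact w.ramificationIndex_pos (F := F)

theorem exists_of_correspondence_ne_zero [HasPrincipalDivisors K F'] (φ ψ : F →ₐ[K] F')
    (hφ : φ.toRingHom.IsIntegral) (hψ : ψ.toRingHom.IsIntegral) (D : Divisor K F) (v : Place K F)
    (h : Divisor.correspondence φ ψ hφ hψ D v ≠ 0) :
    ∃ w : Place K F', D (w.restrictAlong φ hφ) ≠ 0 ∧ w.restrictAlong ψ hψ = v := by
  rw [Divisor.correspondence_apply] at h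
  obtain ⟨w, hw, hwv⟩ := exists_of_pushforwardAlong_ne_zero ψ hψ _ v h
  refine ⟨w, fun h0 => hw ?_, hwv⟩
  rw [Divisor.pullbackAlong_apply, h0, mul_zero]

end Abstract

/-! ### characteristic zero: `T_r` of a pole of `j` is supported on poles of `j` -/

section CharZero

open Fermat.Agent.S36.ChartRing Fermat.Agent.S36.CompNormal Fermat.Agent.S36.JIntegral
open Fermat.Agent.S36.PowerBasisK0 Fermat.Agent.S37.Hecke.Integral Fermat.Agent.S37.Hecke.Principal

variable (N r : ℕ) [NeZero N] [NeZero r]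

local instance instNeZeroMul : NeZero (N * r) :=
  ⟨Nat.mul_ne_zero (NeZero.ne N) (NeZero.ne r)⟩

/-- `j(q^r)` is integral over `ℤ[j]` in `ℚ̄(X₀(N r))` -/
theorem beta_jgen_mem_chart (hr : r.Prime) :
    heckeBetaBar Kb N r (jgen N) ∈ chart ℤ (heckeAlphaBar Kb N r (jgen N)) := by
  obtain ⟨Φ, hmonic, -, hΦ⟩ := Fermat.Agent.S28.ModPolyPrime.exists_PhiZ r hr
  have h1 := j1K_mem_chart_j0K (⊥ : Subgroup (Kb ≃ₐ[ℚ] Kb)) (N0 := N) (q := r) hmonic hΦ
  have h2 := map_mem_chart_int (tB (⊥ : Subgroup (Kb ≃ₐ[ℚ] Kb)) (N * r)) h1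
  rw [tB_j1K, tB_j0K] at h2
  rw [Fermat.Agent.S36.NormDiag.alpha_jgen]
  exact h2

/-- **`T_r` of a pole of `j` is supported on poles of `j`** (characteristic zero, level `N`). -/
theorem ord_jgen_neg_of_heckeDiv (hr : r.Prime) {P P' : Place Kb ↥(modularFunctionFieldBar N)}
    (hP : P.ord (jgen N) < 0) (hP' : heckeDiv N r (Finsupp.single P 1) P' ≠ 0) :
    P'.ord (jgen N) < 0 := by
  classical
  haveI := hasPrincipalDivisors_level N r
  have h0 : Divisor.correspondence (heckeBetaBar Kb N r) (heckeAlphaBar Kb N r)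
      (betaIntegral N r) (alphaIntegral N r) (Finsupp.single P 1) P' ≠ 0 := hP'
  obtain ⟨w, hw, hwv⟩ := exists_of_correspondence_ne_zero _ _ _ _ _ _ h0
  have hwP : w.restrictAlong (heckeBetaBar Kb N r) (betaIntegral N r) = P := by
    by_contra hne
    exact hw (Finsupp.single_eq_of_ne hne)
  have h1 := Place.ord_restrictAlong (heckeBetaBar Kb N r) (betaIntegral N r) w (jgen N)
  rw [hwP] at h1
  have h2 := Place.ord_restrictAlong (heckeAlphaBar Kb N r) (alphaIntegral N r) w (jgen N)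
  rw [hwv] at h2
  have hj0 : jgen N ≠ 0 := (Fermat.Agent.S18.A.Instances.isFF_jgen N).ne_zero
  have hαne : heckeAlphaBar Kb N r (jgen N) ≠ 0 :=
    (map_ne_zero_iff _ (heckeAlphaBar Kb N r).toRingHom.injective).mpr hj0
  have hβne : heckeBetaBar Kb N r (jgen N) ≠ 0 :=
    (map_ne_zero_iff _ (heckeBetaBar Kb N r).toRingHom.injective).mpr hj0
  by_contra hcon
  push Not at hcon
  have h3 : 0 ≤ w.ord (heckeAlphaBar Kb N r (jgen N)) := by
    rw [h2]
    exact mul_nonneg (Int.natCast_nonneg _) hcon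
  have hαmem : heckeAlphaBar Kb N r (jgen N) ∈ w.toValuationSubring :=
    (Fermat.Agent.S24.Ord.mem_iff w _).mpr ((Fermat.Agent.S24.Ord.ord_nonneg_iff w hαne).mp h3)
  have hβmem : heckeBetaBar Kb N r (jgen N) ∈ w.toValuationSubring :=
    mem_of_mem_chart' (O := ℤ) w.toValuationSubring
      (fun c => by rw [eq_intCast]; exact intCast_mem _ c) hαmem (beta_jgen_mem_chart N r hr)
  have h4 : 0 ≤ w.ord (heckeBetaBar Kb N r (jgen N)) :=
    (Fermat.Agent.S24.Ord.ord_nonneg_iff w hβne).mpr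
      ((Fermat.Agent.S24.Ord.mem_iff w _).mp hβmem)
  rw [h1] at h4
  have he : (0 : ℤ) < (Place.ramificationIndexAlong (heckeBetaBar Kb N r) w : ℤ) :=
    Int.natCast_pos.mpr (ramificationIndexAlong_pos _ (betaIntegral N r) w)
  nlinarith

end CharZero

/-! ### the reduction: `heckeDivK` of a pole of `j̄` is supported on poles of `j̄` -/

section Good

open Fermat.Agent.S18.A.FibreSep Fermat.Agent.S18.B.FibreX0Id Fermat.Agent.S15.A.HeckeRedB
open Fermat.Agent.S18.B.FkBasics (jk)

variable {N : ℕ} [NeZero N] {l : ℕ} [hl : Fact l.Prime] (hlN : ¬ l ∣ N)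
variable {A : ValuationSubring Kb} (hA : A.LiesOverPrime l) {r : ℕ} [NeZero r]

include hA hlN in
/-- **`heckeDivK` of a cusp is supported on cusps** (cusp = pole of `j̄`). -/
theorem heckeDivK_cusp (hr : r.Prime) (hrN : ¬ r ∣ N)
    {Q Q' : Place (IsLocalRing.ResidueField ↥A)
      ↥(modularFunctionFieldFullC (IsLocalRing.ResidueField ↥A) N)}
    (hQ : Q.ord (jk (IsLocalRing.ResidueField ↥A) N) < 0)
    (hQ' : heckeDivK N hlN A hA r (Finsupp.single Q 1) Q' ≠ 0) :
    Q'.ord (jk (IsLocalRing.ResidueField ↥A) N) < 0 := by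
  classical
  haveI : IsAlgClosed (IsLocalRing.ResidueField ↥A) :=
    Fermat.Agent.S18.ResidueBasics.isAlgClosed_residueField A
  have sk := Fermat.Agent.S18.B.SeparableFk.isSeparable_jk (IsLocalRing.ResidueField ↥A) N
  have hrr := isPlaceReduction_rrK N hlN A hA
  obtain ⟨P, hPp, hPQ⟩ := exists_mem_poles hrr sk hA hlN
    ((mem_poles_iff_ord_neg (hk A N) sk Q).mpr hQ)
  have hP : P.ord (jgen N) < 0 := (mem_poles_iff_ord_neg (hL N) (sL N) P).mp hPp
  have h1 : heckeDivK N hlN A hA r (Finsupp.single Q 1) =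
      Finsupp.mapDomain (rrK N hlN A hA)
        (Fermat.Agent.S37.Hecke.Principal.heckeDiv N r (Finsupp.single P 1)) := by
    rw [← hPQ, ← Finsupp.mapDomain_single, heckeDivK_mapDomain hlN hA hr hrN, Psi_apply]
  rw [h1] at hQ'
  have hmem : Q' ∈ (Finsupp.mapDomain (rrK N hlN A hA)
      (Fermat.Agent.S37.Hecke.Principal.heckeDiv N r (Finsupp.single P 1))).support :=
    Finsupp.mem_support_iff.mpr hQ'
  obtain ⟨P', hP', hP'Q⟩ := Finset.mem_image.mp (Finsupp.mapDomain_support hmem)
  have hP'pole : P'.ord (jgen N) < 0 :=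
    ord_jgen_neg_of_heckeDiv N r hr hP (Finsupp.mem_support_iff.mp hP')
  have := mem_poles_map hrr sk hA hlN ((mem_poles_iff_ord_neg (hL N) (sL N) P').mpr hP'pole)
  rw [hP'Q] at this
  exact (mem_poles_iff_ord_neg (hk A N) sk Q').mp this

include hA hlN in
/-- `heckeDivK` of a cusp-supported divisor vanishes off the cusps -/
theorem heckeDivK_apply_eq_zero_of_cuspidal (hr : r.Prime) (hrN : ¬ r ∣ N)
    {Δ : Divisor (IsLocalRing.ResidueField ↥A)
      ↥(modularFunctionFieldFullC (IsLocalRing.ResidueField ↥A) N)}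
    (hΔ : ∀ Q, Δ Q ≠ 0 → Q.ord (jk (IsLocalRing.ResidueField ↥A) N) < 0)
    {Q' : Place (IsLocalRing.ResidueField ↥A)
      ↥(modularFunctionFieldFullC (IsLocalRing.ResidueField ↥A) N)}
    (hQ' : 0 ≤ Q'.ord (jk (IsLocalRing.ResidueField ↥A) N)) :
    heckeDivK N hlN A hA r Δ Q' = 0 := by
  classical
  have hsum : Δ = ∑ Q ∈ Δ.support, Finsupp.single Q (Δ Q) := (Finsupp.sum_single Δ).symm
  have h1 : heckeDivK N hlN A hA r Δ =
      ∑ Q ∈ Δ.support, heckeDivK N hlN A hA r (Finsupp.single Q (Δ Q)) := by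
    conv_lhs => rw [hsum]
    rw [map_sum]
  rw [h1, Finsupp.finsetSum_apply]
  refine Finset.sum_eq_zero fun Q hQ => ?_
  have h2 : Finsupp.single Q (Δ Q) = (Δ Q) • Finsupp.single Q (1 : ℤ) := by
    rw [Finsupp.smul_single, smul_eq_mul, mul_one]
  rw [h2, map_zsmul, Finsupp.smul_apply, smul_eq_mul]
  by_contra hne
  have h3 : heckeDivK N hlN A hA r (Finsupp.single Q 1) Q' ≠ 0 := fun h0 => hne (by rw [h0, mul_zero])
  have := heckeDivK_cusp hlN hA hr hrN (hΔ Q (Finsupp.mem_support_iff.mp hQ)) h3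
  omega

/-- the part of a divisor of `κ` off the cusps -/
def offCusp (Δ : Divisor (IsLocalRing.ResidueField ↥A)
      ↥(modularFunctionFieldFullC (IsLocalRing.ResidueField ↥A) N)) :
    Divisor (IsLocalRing.ResidueField ↥A)
      ↥(modularFunctionFieldFullC (IsLocalRing.ResidueField ↥A) N) :=
  haveI : DecidablePred fun Q : Place (IsLocalRing.ResidueField ↥A)
      ↥(modularFunctionFieldFullC (IsLocalRing.ResidueField ↥A) N) =>
      0 ≤ Q.ord (jk (IsLocalRing.ResidueField ↥A) N) := Classical.decPred _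
  Δ.filter fun Q => 0 ≤ Q.ord (jk (IsLocalRing.ResidueField ↥A) N)

theorem offCusp_apply (Δ : Divisor (IsLocalRing.ResidueField ↥A)
      ↥(modularFunctionFieldFullC (IsLocalRing.ResidueField ↥A) N))
    (Q : Place (IsLocalRing.ResidueField ↥A)
      ↥(modularFunctionFieldFullC (IsLocalRing.ResidueField ↥A) N)) :
    offCusp Δ Q = if 0 ≤ Q.ord (jk (IsLocalRing.ResidueField ↥A) N) then Δ Q else 0 := by
  classical
  rw [offCusp, Finsupp.filter_apply]
  congr

include hA hlN in
/-- **off the cusps, `heckeDivK Δ` only depends on the part of `Δ` off the cusps** -/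
theorem heckeDivK_offCusp (hr : r.Prime) (hrN : ¬ r ∣ N)
    (Δ : Divisor (IsLocalRing.ResidueField ↥A)
      ↥(modularFunctionFieldFullC (IsLocalRing.ResidueField ↥A) N))
    {Q' : Place (IsLocalRing.ResidueField ↥A)
      ↥(modularFunctionFieldFullC (IsLocalRing.ResidueField ↥A) N)}
    (hQ' : 0 ≤ Q'.ord (jk (IsLocalRing.ResidueField ↥A) N)) :
    heckeDivK N hlN A hA r Δ Q' = heckeDivK N hlN A hA r (offCusp Δ) Q' := by
  have hdec : Δ = offCusp Δ + (Δ - offCusp Δ) := by abel
  have h0 : heckeDivK N hlN A hA r (Δ - offCusp Δ) Q' = 0 := by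
    refine heckeDivK_apply_eq_zero_of_cuspidal hlN hA hr hrN (fun Q hQ => ?_) hQ'
    by_contra hcon
    push Not at hcon
    apply hQ
    rw [Finsupp.sub_apply, offCusp_apply, if_pos hcon, sub_self]
  conv_lhs => rw [hdec]
  rw [map_add, Finsupp.add_apply, h0, add_zero]

end Good

end Fermat.Agent.S44.Eis.HeckeCusp
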