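import Mathlib
import Fermat.Agent.S44.Eis.HeckeK
import Fermat.Agent.S33.X0.Frame
import Fermat.Agent.S35.DegeneracyHecke

/-!
# PROJECT P (S44), brick [EIS], part 2 (helper16): `T_r` and the reduction of the first Gauss ring
of `E = ℚ̄(X₀(M p))`
-/

set_option autoImplicit false
set_option linter.unusedSectionVars false
set_option linter.style.haveILetI false
set_option synthInstance.maxHeartbeats 400000

noncomputable section

namespace Fermat.Agent.S44.Eis.HeckeNode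

open ModularCurve HahnSeries AlgebraicCurve IsLocalRing
open Fermat.Agent.S18.GaussFromH
open Fermat.Agent.S37.ES.NormRed
open Fermat.Agent.S37.Hecke.Principal
open Fermat.Agent.S34.GaussPairX0
open Fermat.Agent.S44.Eis.HeckeK

local notation "Kb" => AlgebraicClosure ℚ

attribute [local instance] Fermat.Agent.S18.A.Instances.hasPrincipalDivisors_bar

local instance instNeZeroMul (M q : ℕ) [NeZero M] [NeZero q] : NeZero (M * q) :=
  ⟨Nat.mul_ne_zero (NeZero.ne M) (NeZero.ne q)⟩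

attribute [local instance 2000] Fermat.Agent.S34.EulerX0.algResFk

local instance instPDFk (A : ValuationSubring Kb) (N : ℕ) [NeZero N] :
    HasPrincipalDivisors (ResidueField ↥A) ↥(modularFunctionFieldFullC (ResidueField ↥A) N) :=
  Fermat.Agent.S37.ReductionInputs.hasPrincipalDivisors_Fk A N

local instance instACk (A : ValuationSubring Kb) : IsAlgClosed (ResidueField ↥A) :=
  Fermat.Agent.S18.ResidueBasics.isAlgClosed_residueField A

local instance instInfk (A : ValuationSubring Kb) : Infinite (ResidueField ↥A) :=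
  Fermat.Agent.S37.ReductionInputs.infinite_residueField A

section Level

variable {p : ℕ} [hp : Fact p.Prime] {M : ℕ} [NeZero M] {A : ValuationSubring Kb} [NeZero p]
variable (hA : A.LiesOverPrime p) (hpM : ¬ p ∣ M) {r : ℕ} [NeZero r]

include hA hpM in
/-- **`N_α (β h)` of a unit `h` of the first Gauss ring `V₁` of `ℚ̄(X₀(M p))` is a unit of `V₁`,
and the divisor of its reduction is `T_r` of the divisor of the reduction of `h`.** -/
theorem exists_red₁_normBeta (hr : r.Prime) (hrp : r ≠ p) (hrM : ¬ r ∣ M)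
    (h : ↥(V₁ hA hpM)) (hh : red₁ hA hpM h ≠ 0) :
    ∃ hmem : normBeta (M * p) r (h : ↥(modularFunctionFieldBar (M * p))) ∈ V₁ hA hpM,
      red₁ hA hpM ⟨_, hmem⟩ ≠ 0 ∧
      ∀ Δ : Divisor (ResidueField ↥A) ↥(modularFunctionFieldFullC (ResidueField ↥A) M),
        (∀ Q, Δ Q = Q.ord (red₁ hA hpM h)) →
        ∀ Q, Q.ord (red₁ hA hpM ⟨_, hmem⟩) = heckeDivK M hpM A hA r Δ Q := by
  have hrMp : ¬ r ∣ M * p := fun hd => by
    rcases (Nat.Prime.dvd_mul hr).mp hd with h1 | h1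
    · exact hrM h1
    · exact hrp ((Nat.prime_dvd_prime_iff_eq hr hp.out).mp h1)
  have hrk : ((r : ℕ) : ResidueField ↥A) ≠ 0 :=
    Fermat.Agent.S18.ResidueBasics.natCast_ne_zero_of_not_dvd A hA
      (fun hd => hrp ((Nat.prime_dvd_prime_iff_eq hp.out hr).mp hd).symm)
  have hπ := Fermat.Agent.S18.GaussFromHBar.residue_eq_zero_of_not_isUnit (A := A)
  set f : ↥(Ow A (residue ↥A) (M * p)) := ⟨h.1, h.2⟩ with hf
  have hf0 : redw A (residue ↥A) (M * p) f ≠ 0 := fun h0 =>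
    hh ((rho_eq_zero_iff hA f).mpr h0)
  obtain ⟨hmem, hser, hne⟩ :=
    exists_redw_normBeta (N := M * p) (r := r) hr hrMp (hasRepMul hA hpM) hπ hrk f hf0
  refine ⟨hmem, fun h0 => hne ((rho_eq_zero_iff hA ⟨_, hmem⟩).mp h0), fun Δ hΔ Q => ?_⟩
  refine ord_normSeries (N := M) (A := A) (r := r) hpM hA hr hrM hrp (red₁ hA hpM h)
    (red₁ hA hpM ⟨_, hmem⟩) hh ?_ Δ hΔ Q
  rw [red₁_eq_rho, red₁_eq_rho, coe_rho, coe_rho]
  exact hser

end Level

/-! ### the chart frame -/

section Frame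

open Fermat.Agent.S33.X0.Frame Fermat.Agent.S34.CoreZX0Datum

variable {p : ℕ} [hp : Fact p.Prime] {M : ℕ} [NeZero M] {A : ValuationSubring Kb} [NeZero p]
variable {hA : A.LiesOverPrime p} {hpM : ¬ p ∣ M}

/-- the first reduction of the frame is the standard one (coefficientwise reduction of
`q`-expansions) -/
def RedStd (F : ChartFrame hA hpM) : Prop :=
  ∀ (y : ↥(modularFunctionFieldBar (M * p))) (h1 : y ∈ F.X.N.R1.O) (h2 : y ∈ V₁ hA hpM),
    F.X.N.R1.red ⟨y, h1⟩ = red₁ hA hpM ⟨y, h2⟩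

theorem mem_V₁_of_mem (F : ChartFrame hA hpM) {y : ↥(modularFunctionFieldBar (M * p))}
    (h1 : y ∈ F.X.N.R1.O) : y ∈ V₁ hA hpM := by
  rw [← Fermat.Agent.S34.GaussPairBridge.V1X0_eq, ← F.X.O1_eq]
  exact h1

theorem mem_of_mem_V₁ (F : ChartFrame hA hpM) {y : ↥(modularFunctionFieldBar (M * p))}
    (h2 : y ∈ V₁ hA hpM) : y ∈ F.X.N.R1.O := by
  rw [F.X.O1_eq, Fermat.Agent.S34.GaussPairBridge.V1X0_eq]
  exact h2

set_option maxHeartbeats 1600000 in
/-- **A chart frame with the standard first reduction exists** (the frame built by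
`S33.X0.Frame.nonempty_chartFrame`). -/
theorem exists_chartFrame_redStd (hA : A.LiesOverPrime p) (hpM : ¬ p ∣ M) :
    ∃ F : ChartFrame hA hpM, RedStd F := by
  haveI := Fermat.Agent.S18.ResidueBasics.charP_residueField A hA
  obtain ⟨gM, HM⟩ := Fermat.Agent.S18.A.RiemannFk.exists_riemannHyp_Fk' (ResidueField ↥A) M
    (Fermat.Agent.S18.B.SeparableFk.isSeparable_jk (ResidueField ↥A) M)
  have hgen : Fermat.Agent.S34.CoreZX0OfGeneric.GenericX0 hA hpM
      (Fermat.Agent.S34.CoreZX0OfGeneric.HX0 hA hpM HM) :=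
    Fermat.Agent.S34.CoreZX0.genericX0 hA hpM (Fermat.Agent.S34.CoreZX0OfGeneric.HX0 hA hpM HM)
  obtain ⟨Y, hY⟩ := exists_nodesX0_eq HM hgen
  refine ⟨{ X := Fermat.Agent.S34.CoreZX0Build.x0DatumOf
                (Fermat.Agent.S34.CoreZX0OfGeneric.inputsX0 hgen) Y
            genus_eq := hY
            x1_fixed := fun σ => smul_alpha_jgen σ
            x2_fixed := fun σ => smul_beta_jgen σ }, ?_⟩
  intro y h1 h2
  rfl

set_option maxHeartbeats 1600000 in
/-- **(E1) `T_r` and the first reduction.**  If `p • D = div u` with `u` a unit of the first Gauss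
ring, then `T_r [D] = [D']` with `p • D' = div u'`, `u'` a unit of the first Gauss ring, and
`div (red u') = heckeDivK (div (red u))` at EVERY place of the component. -/
theorem exists_hecke_red (F : ChartFrame hA hpM) (hF : RedStd F) (r : Nat.Primes)
    (hrp : (r : ℕ) ≠ p) (hrM : ¬ (r : ℕ) ∣ M)
    (D : Divisor.degZero (K := Kb) (F := ↥(modularFunctionFieldBar (M * p))))
    (u : (F.X.N.R1.O)ˣ)
    (hD : ∀ P : Place Kb ↥(modularFunctionFieldBar (M * p)),
      (p : ℤ) * (D : Divisor Kb ↥(modularFunctionFieldBar (M * p))) P =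
        P.ord (((u : F.X.N.R1.O)) : ↥(modularFunctionFieldBar (M * p)))) :
    haveI : NeZero (r : ℕ) := ⟨r.2.ne_zero⟩
    ∃ (D' : Divisor.degZero (K := Kb) (F := ↥(modularFunctionFieldBar (M * p))))
      (u' : (F.X.N.R1.O)ˣ),
      Pic0.mk D' = heckeOperatorBar (M * p) r (Pic0.mk D) ∧
      (∀ P : Place Kb ↥(modularFunctionFieldBar (M * p)),
        (p : ℤ) * (D' : Divisor Kb ↥(modularFunctionFieldBar (M * p))) P =
          P.ord (((u' : F.X.N.R1.O)) : ↥(modularFunctionFieldBar (M * p)))) ∧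
      ∀ Δ : Divisor (ResidueField ↥A) ↥(modularFunctionFieldFullC (ResidueField ↥A) M),
        (∀ Q, Δ Q = Q.ord (F.X.N.R1.red u)) →
        ∀ Q, Q.ord (F.X.N.R1.red u') = heckeDivK M hpM A hA r Δ Q := by
  haveI : NeZero (r : ℕ) := ⟨r.2.ne_zero⟩
  obtain ⟨D', hD', hcoe⟩ :=
    Fermat.Agent.S35.DegeneracyHecke.coe_degZero_of_hecke_mk (N := M * p) r D
  -- the unit, in `V₁`
  have hu2 : ((u : F.X.N.R1.O) : ↥(modularFunctionFieldBar (M * p))) ∈ V₁ hA hpM :=
    mem_V₁_of_mem F (u : F.X.N.R1.O).2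
  have hured : F.X.N.R1.red (u : F.X.N.R1.O) = red₁ hA hpM ⟨_, hu2⟩ := hF _ _ hu2
  have hu0 : F.X.N.R1.red (u : F.X.N.R1.O) ≠ 0 := by
    intro h0
    exact ((F.X.N.R1.red_eq_zero_iff _).mp h0) u.isUnit
  have hh : red₁ hA hpM ⟨_, hu2⟩ ≠ 0 := hured ▸ hu0
  obtain ⟨hmem, hne, hord⟩ := exists_red₁_normBeta hA hpM (r := (r : ℕ)) r.2 hrp hrM ⟨_, hu2⟩ hh
  have hmem1 : normBeta (M * p) r ((u : F.X.N.R1.O) : ↥(modularFunctionFieldBar (M * p))) ∈
      F.X.N.R1.O := mem_of_mem_V₁ F hmem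
  have hred' : F.X.N.R1.red ⟨_, hmem1⟩ = red₁ hA hpM ⟨_, hmem⟩ := hF _ _ hmem
  have hunit : IsUnit (⟨_, hmem1⟩ : F.X.N.R1.O) := by
    by_contra hnu
    exact hne (hred' ▸ (F.X.N.R1.red_eq_zero_iff _).mpr hnu)
  refine ⟨D', hunit.unit, hD'.symm, fun P => ?_, fun Δ hΔ Q => ?_⟩
  · have hune : ((u : F.X.N.R1.O) : ↥(modularFunctionFieldBar (M * p))) ≠ 0 := by
      intro h0
      apply hu0
      have : (u : F.X.N.R1.O) = 0 := Subtype.ext h0
      rw [this, map_zero]
    have hpD : ∀ v : Place Kb ↥(modularFunctionFieldBar (M * p)),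
        ((p : ℤ) • (D : Divisor Kb ↥(modularFunctionFieldBar (M * p)))) v =
          v.ord ((u : F.X.N.R1.O) : ↥(modularFunctionFieldBar (M * p))) := fun v => by
      rw [Finsupp.smul_apply, smul_eq_mul]
      exact hD v
    have h1 := heckeDiv_principal (M * p) (r : ℕ) hune hpD P
    have hcoe' : (D' : Divisor Kb ↥(modularFunctionFieldBar (M * p))) =
        Fermat.Agent.S37.Hecke.Principal.heckeDiv (M * p) (r : ℕ)
          (D : Divisor Kb ↥(modularFunctionFieldBar (M * p))) := hcoe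
    rw [map_zsmul, Finsupp.smul_apply, smul_eq_mul, ← hcoe'] at h1
    rw [IsUnit.unit_spec]
    exact h1
  · rw [IsUnit.unit_spec, hred']
    exact hord Δ (fun Q' => by rw [hΔ Q', hured]) Q

/-- the second reduction of the frame is the standard one (`red₂ = red₁ ∘ w_p`) -/
def RedStd2 (F : ChartFrame hA hpM) : Prop :=
  ∀ (y : ↥(modularFunctionFieldBar (M * p))) (h1 : y ∈ F.X.N.R2.O) (h2 : y ∈ V₂ hA hpM),
    F.X.N.R2.red ⟨y, h1⟩ = red₂ hA hpM ⟨y, h2⟩

theorem mem_V₂_of_mem (F : ChartFrame hA hpM) {y : ↥(modularFunctionFieldBar (M * p))}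
    (h1 : y ∈ F.X.N.R2.O) : y ∈ V₂ hA hpM := by
  rw [← Fermat.Agent.S34.GaussPairBridge.V2X0_eq, ← F.X.O2_eq]
  exact h1

theorem mem_of_mem_V₂ (F : ChartFrame hA hpM) {y : ↥(modularFunctionFieldBar (M * p))}
    (h2 : y ∈ V₂ hA hpM) : y ∈ F.X.N.R2.O := by
  rw [F.X.O2_eq, Fermat.Agent.S34.GaussPairBridge.V2X0_eq]
  exact h2

set_option maxHeartbeats 1600000 in
/-- **A chart frame with both standard reductions exists** (the frame built by
`S33.X0.Frame.nonempty_chartFrame`). -/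
theorem exists_chartFrame_redStd₂ (hA : A.LiesOverPrime p) (hpM : ¬ p ∣ M) :
    ∃ F : ChartFrame hA hpM, RedStd F ∧ RedStd2 F := by
  haveI := Fermat.Agent.S18.ResidueBasics.charP_residueField A hA
  obtain ⟨gM, HM⟩ := Fermat.Agent.S18.A.RiemannFk.exists_riemannHyp_Fk' (ResidueField ↥A) M
    (Fermat.Agent.S18.B.SeparableFk.isSeparable_jk (ResidueField ↥A) M)
  have hgen : Fermat.Agent.S34.CoreZX0OfGeneric.GenericX0 hA hpM
      (Fermat.Agent.S34.CoreZX0OfGeneric.HX0 hA hpM HM) :=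
    Fermat.Agent.S34.CoreZX0.genericX0 hA hpM (Fermat.Agent.S34.CoreZX0OfGeneric.HX0 hA hpM HM)
  obtain ⟨Y, hY⟩ := exists_nodesX0_eq HM hgen
  refine ⟨{ X := Fermat.Agent.S34.CoreZX0Build.x0DatumOf
                (Fermat.Agent.S34.CoreZX0OfGeneric.inputsX0 hgen) Y
            genus_eq := hY
            x1_fixed := fun σ => smul_alpha_jgen σ
            x2_fixed := fun σ => smul_beta_jgen σ }, ?_, ?_⟩
  · intro y h1 h2
    rfl
  · intro y h1 h2
    have hw : Fermat.Agent.S34.WqGalois.wq M p hp.out hpM y = wq hpM y := by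
      rw [Fermat.Agent.S34.GaussPairBridge.wq_eq]
    rw [red₂_apply]
    show red₁ hA hpM ⟨Fermat.Agent.S34.WqGalois.wq M p hp.out hpM y, _⟩ = _
    congr 1
    exact Subtype.ext hw

end Frame

end Fermat.Agent.S44.Eis.HeckeNode
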