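import Mathlib
import Fermat.Agent.S44.Eis.HeckeNode
import Fermat.Agent.S34.WqGalois
import Fermat.Agent.S34.GaussPairBridge

/-!
# PROJECT P (S44), brick [EIS], part 4 (helper16): `T_r` commutes with the Atkin-Lehner involution
`w_p` at the level of functions, and the `V₂`-twin of `(E1)`

* `castLevel` : the identification `ℚ̄(X₀(N)) = ℚ̄(X₀(N'))` for `N = N'`;
* `Wp` : the Atkin-Lehner involution `w_p` of `ℚ̄(X₀(M p r))`, with `Wp ∘ α_r = α_r ∘ w_p`,
  `Wp ∘ β_r = β_r ∘ w_p`;
* `normBeta_wq` : `N_α (β (w_p x)) = w_p (N_α (β x))`;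
* `exists_red₂_normBeta`, `exists_hecke_red₂` : the twins of `HeckeNode.exists_red₁_normBeta` and
  `HeckeNode.exists_hecke_red` for the second Gauss ring.
-/

set_option autoImplicit false
set_option linter.unusedSectionVars false
set_option linter.style.haveILetI false
set_option synthInstance.maxHeartbeats 400000

noncomputable section

namespace Fermat.Agent.S44.Eis.HeckeWq

open ModularCurve HahnSeries AlgebraicCurve IsLocalRing
open Fermat.Agent.S37.ES.NormRed
open Fermat.Agent.S34.GaussPairX0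
open Fermat.Agent.S44.Eis.HeckeK Fermat.Agent.S44.Eis.HeckeNode

local notation "Kb" => AlgebraicClosure ℚ

local instance instNeZeroMul (M q : ℕ) [NeZero M] [NeZero q] : NeZero (M * q) :=
  ⟨Nat.mul_ne_zero (NeZero.ne M) (NeZero.ne q)⟩

/-! ### identification of equal levels -/

section Cast

/-- `ℚ̄(X₀(N)) = ℚ̄(X₀(N'))` for `N = N'` -/
def castLevel {N N' : ℕ} [NeZero N] [NeZero N'] (h : N = N') :
    ↥(modularFunctionFieldBar N) ≃ₐ[Kb] ↥(modularFunctionFieldBar N') :=
  IntermediateField.equivOfEq (by subst h; rfl)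

@[simp] theorem coe_castLevel {N N' : ℕ} [NeZero N] [NeZero N'] (h : N = N')
    (x : ↥(modularFunctionFieldBar N)) :
    ((castLevel h x : ↥(modularFunctionFieldBar N')) : LaurentSeries Kb) = x := by
  subst h
  rfl

@[simp] theorem coe_castLevel_symm {N N' : ℕ} [NeZero N] [NeZero N'] (h : N = N')
    (x : ↥(modularFunctionFieldBar N')) :
    (((castLevel h).symm x : ↥(modularFunctionFieldBar N)) : LaurentSeries Kb) = x := by
  subst h
  rfl

end Cast

/-! ### the Atkin-Lehner involution `w_p` at level `M p r` -/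

section Wp

open Fermat.Agent.S34.WqGalois

variable {p : ℕ} {M : ℕ} [NeZero M] [NeZero p] {r : ℕ} [NeZero r]

/-- the Atkin-Lehner involution `w_p` of `ℚ̄(X₀(M p r))` -/
def Wp (hp : p.Prime) (hpMr : ¬ p ∣ M * r) :
    ↥(modularFunctionFieldBar (M * p * r)) ≃ₐ[Kb] ↥(modularFunctionFieldBar (M * p * r)) :=
  ((castLevel (Nat.mul_right_comm M p r)).trans
    (Fermat.Agent.S34.WqGalois.wq (M * r) p hp hpMr)).trans
      (castLevel (Nat.mul_right_comm M p r)).symm

theorem Wp_apply (hp : p.Prime) (hpMr : ¬ p ∣ M * r)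
    (x : ↥(modularFunctionFieldBar (M * p * r))) :
    Wp hp hpMr x = (castLevel (Nat.mul_right_comm M p r)).symm
      (Fermat.Agent.S34.WqGalois.wq (M * r) p hp hpMr
        (castLevel (Nat.mul_right_comm M p r) x)) := rfl

variable (hp : p.Prime) (hpM : ¬ p ∣ M) (hpMr : ¬ p ∣ M * r)

/-- **`Wp ∘ α_r = α_r ∘ w_p`** -/
theorem Wp_alpha (x : ↥(modularFunctionFieldBar (M * p))) :
    Wp hp hpMr (heckeAlphaBar Kb (M * p) r x) =
      heckeAlphaBar Kb (M * p) r (Fermat.Agent.S34.WqGalois.wq M p hp hpM x) := by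
  have h := ringHom_ext_alpha_beta (N := M) (ℓ := p) hp
    (((Wp hp hpMr : ↥(modularFunctionFieldBar (M * p * r)) ≃ₐ[Kb]
        ↥(modularFunctionFieldBar (M * p * r))) :
        ↥(modularFunctionFieldBar (M * p * r)) →+* ↥(modularFunctionFieldBar (M * p * r))).comp
      (heckeAlphaBar Kb (M * p) r).toRingHom)
    ((heckeAlphaBar Kb (M * p) r).toRingHom.comp
      ((Fermat.Agent.S34.WqGalois.wq M p hp hpM : ↥(modularFunctionFieldBar (M * p)) ≃ₐ[Kb]
        ↥(modularFunctionFieldBar (M * p))) :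
        ↥(modularFunctionFieldBar (M * p)) →+* ↥(modularFunctionFieldBar (M * p))))
    (fun c => by
      show Wp hp hpMr (heckeAlphaBar Kb (M * p) r (algebraMap Kb _ c)) =
        heckeAlphaBar Kb (M * p) r (Fermat.Agent.S34.WqGalois.wq M p hp hpM (algebraMap Kb _ c))
      rw [AlgHom.commutes, AlgEquiv.commutes, AlgEquiv.commutes, AlgHom.commutes])
    (fun g => by
      show Wp hp hpMr (heckeAlphaBar Kb (M * p) r (heckeAlphaBar Kb M p g)) =
        heckeAlphaBar Kb (M * p) r
          (Fermat.Agent.S34.WqGalois.wq M p hp hpM (heckeAlphaBar Kb M p g))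
      rw [Fermat.Agent.S34.WqGalois.wq_alpha, Wp_apply]
      have h1 : castLevel (Nat.mul_right_comm M p r)
          (heckeAlphaBar Kb (M * p) r (heckeAlphaBar Kb M p g)) =
          heckeAlphaBar Kb (M * r) p (heckeAlphaBar Kb M r g) :=
        Subtype.ext (by
          rw [coe_castLevel, coe_heckeAlphaBar, coe_heckeAlphaBar, coe_heckeAlphaBar,
            coe_heckeAlphaBar])
      rw [h1, Fermat.Agent.S34.WqGalois.wq_alpha]
      exact Subtype.ext (by
        rw [coe_castLevel_symm, coe_heckeBetaBar, coe_heckeAlphaBar, coe_heckeAlphaBar,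
          coe_heckeBetaBar]))
    (fun g => by
      show Wp hp hpMr (heckeAlphaBar Kb (M * p) r (heckeBetaBar Kb M p g)) =
        heckeAlphaBar Kb (M * p) r
          (Fermat.Agent.S34.WqGalois.wq M p hp hpM (heckeBetaBar Kb M p g))
      rw [Fermat.Agent.S34.WqGalois.wq_beta, Wp_apply]
      have h1 : castLevel (Nat.mul_right_comm M p r)
          (heckeAlphaBar Kb (M * p) r (heckeBetaBar Kb M p g)) =
          heckeBetaBar Kb (M * r) p (heckeAlphaBar Kb M r g) :=
        Subtype.ext (by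
          rw [coe_castLevel, coe_heckeAlphaBar, coe_heckeBetaBar, coe_heckeBetaBar,
            coe_heckeAlphaBar])
      rw [h1, Fermat.Agent.S34.WqGalois.wq_beta]
      exact Subtype.ext (by
        rw [coe_castLevel_symm, coe_heckeAlphaBar, coe_heckeAlphaBar, coe_heckeAlphaBar,
          coe_heckeAlphaBar]))
  exact DFunLike.congr_fun h x

theorem qExpand_congr {R : Type*} [CommRing R] {m n : ℕ} [NeZero m] [NeZero n] (h : m = n)
    (f : LaurentSeries R) : qExpand R m f = qExpand R n f := by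
  subst h
  rfl

theorem qExpand_comm {R : Type*} [CommRing R] (m n : ℕ) [NeZero m] [NeZero n]
    (f : LaurentSeries R) : qExpand R m (qExpand R n f) = qExpand R n (qExpand R m f) := by
  haveI : NeZero (m * n) := ⟨Nat.mul_ne_zero (NeZero.ne m) (NeZero.ne n)⟩
  haveI : NeZero (n * m) := ⟨Nat.mul_ne_zero (NeZero.ne n) (NeZero.ne m)⟩
  rw [qExpand_qExpand, qExpand_qExpand]
  exact qExpand_congr (Nat.mul_comm m n) f

/-- **`Wp ∘ β_r = β_r ∘ w_p`** -/
theorem Wp_beta (x : ↥(modularFunctionFieldBar (M * p))) :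
    Wp hp hpMr (heckeBetaBar Kb (M * p) r x) =
      heckeBetaBar Kb (M * p) r (Fermat.Agent.S34.WqGalois.wq M p hp hpM x) := by
  have h := ringHom_ext_alpha_beta (N := M) (ℓ := p) hp
    (((Wp hp hpMr : ↥(modularFunctionFieldBar (M * p * r)) ≃ₐ[Kb]
        ↥(modularFunctionFieldBar (M * p * r))) :
        ↥(modularFunctionFieldBar (M * p * r)) →+* ↥(modularFunctionFieldBar (M * p * r))).comp
      (heckeBetaBar Kb (M * p) r).toRingHom)
    ((heckeBetaBar Kb (M * p) r).toRingHom.comp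
      ((Fermat.Agent.S34.WqGalois.wq M p hp hpM : ↥(modularFunctionFieldBar (M * p)) ≃ₐ[Kb]
        ↥(modularFunctionFieldBar (M * p))) :
        ↥(modularFunctionFieldBar (M * p)) →+* ↥(modularFunctionFieldBar (M * p))))
    (fun c => by
      show Wp hp hpMr (heckeBetaBar Kb (M * p) r (algebraMap Kb _ c)) =
        heckeBetaBar Kb (M * p) r (Fermat.Agent.S34.WqGalois.wq M p hp hpM (algebraMap Kb _ c))
      rw [AlgHom.commutes, AlgEquiv.commutes, AlgEquiv.commutes, AlgHom.commutes])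
    (fun g => by
      show Wp hp hpMr (heckeBetaBar Kb (M * p) r (heckeAlphaBar Kb M p g)) =
        heckeBetaBar Kb (M * p) r
          (Fermat.Agent.S34.WqGalois.wq M p hp hpM (heckeAlphaBar Kb M p g))
      rw [Fermat.Agent.S34.WqGalois.wq_alpha, Wp_apply]
      have h1 : castLevel (Nat.mul_right_comm M p r)
          (heckeBetaBar Kb (M * p) r (heckeAlphaBar Kb M p g)) =
          heckeAlphaBar Kb (M * r) p (heckeBetaBar Kb M r g) :=
        Subtype.ext (by
          rw [coe_castLevel, coe_heckeBetaBar, coe_heckeAlphaBar, coe_heckeAlphaBar,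
            coe_heckeBetaBar])
      rw [h1, Fermat.Agent.S34.WqGalois.wq_alpha]
      exact Subtype.ext (by
        rw [coe_castLevel_symm, coe_heckeBetaBar, coe_heckeBetaBar, coe_heckeBetaBar,
          coe_heckeBetaBar, qExpand_comm]))
    (fun g => by
      show Wp hp hpMr (heckeBetaBar Kb (M * p) r (heckeBetaBar Kb M p g)) =
        heckeBetaBar Kb (M * p) r
          (Fermat.Agent.S34.WqGalois.wq M p hp hpM (heckeBetaBar Kb M p g))
      rw [Fermat.Agent.S34.WqGalois.wq_beta, Wp_apply]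
      have h1 : castLevel (Nat.mul_right_comm M p r)
          (heckeBetaBar Kb (M * p) r (heckeBetaBar Kb M p g)) =
          heckeBetaBar Kb (M * r) p (heckeBetaBar Kb M r g) :=
        Subtype.ext (by
          rw [coe_castLevel, coe_heckeBetaBar, coe_heckeBetaBar, coe_heckeBetaBar,
            coe_heckeBetaBar, qExpand_comm])
      rw [h1, Fermat.Agent.S34.WqGalois.wq_beta]
      exact Subtype.ext (by
        rw [coe_castLevel_symm, coe_heckeAlphaBar, coe_heckeBetaBar, coe_heckeBetaBar,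
          coe_heckeAlphaBar]))
  exact DFunLike.congr_fun h x

/-- **`T_r` commutes with `w_p` at the level of functions**:
`N_α (β (w_p x)) = w_p (N_α (β x))`. -/
theorem normBeta_wq (hr : r.Prime) (hrp : r ≠ p) (x : ↥(modularFunctionFieldBar (M * p))) :
    normBeta (M * p) r (Fermat.Agent.S34.WqGalois.wq M p hp hpM x) =
      Fermat.Agent.S34.WqGalois.wq M p hp hpM (normBeta (M * p) r x) := by
  have hpMr : ¬ p ∣ M * r := fun hd => by
    rcases (Nat.Prime.dvd_mul hp).mp hd with h1 | h1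
    · exact hpM h1
    · exact hrp ((Nat.prime_dvd_prime_iff_eq hp hr).mp h1).symm
  letI := algebraAlong (heckeAlphaBar Kb (M * p) r)
  have he : RingHom.comp
      (algebraMap ↥(modularFunctionFieldBar (M * p)) ↥(modularFunctionFieldBar (M * p * r)))
      (((Fermat.Agent.S34.WqGalois.wq M p hp hpM).toRingEquiv :
        ↥(modularFunctionFieldBar (M * p)) ≃+* ↥(modularFunctionFieldBar (M * p))) :
        ↥(modularFunctionFieldBar (M * p)) →+* ↥(modularFunctionFieldBar (M * p))) =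
      RingHom.comp
        (((Wp hp hpMr).toRingEquiv : ↥(modularFunctionFieldBar (M * p * r)) ≃+*
          ↥(modularFunctionFieldBar (M * p * r))) :
          ↥(modularFunctionFieldBar (M * p * r)) →+* ↥(modularFunctionFieldBar (M * p * r)))
        (algebraMap ↥(modularFunctionFieldBar (M * p)) ↥(modularFunctionFieldBar (M * p * r))) :=
    RingHom.ext fun y => (Wp_alpha hp hpM hpMr y).symm
  have h := Algebra.norm_eq_of_equiv_equiv
    ((Fermat.Agent.S34.WqGalois.wq M p hp hpM).toRingEquiv)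
    ((Wp hp hpMr).toRingEquiv) he (heckeBetaBar Kb (M * p) r x)
  have h2 : Fermat.Agent.S34.WqGalois.wq M p hp hpM
      (Algebra.norm ↥(modularFunctionFieldBar (M * p)) (heckeBetaBar Kb (M * p) r x)) =
      Algebra.norm ↥(modularFunctionFieldBar (M * p))
        (Wp hp hpMr (heckeBetaBar Kb (M * p) r x)) := by
    rw [h]
    exact RingEquiv.apply_symm_apply (Fermat.Agent.S34.WqGalois.wq M p hp hpM).toRingEquiv _
  rw [Wp_beta hp hpM hpMr] at h2
  exact h2.symm

end Wp

/-! ### the second Gauss ring -/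

section Level

variable {p : ℕ} [hp : Fact p.Prime] {M : ℕ} [NeZero M] {A : ValuationSubring Kb} [NeZero p]
variable (hA : A.LiesOverPrime p) (hpM : ¬ p ∣ M) {r : ℕ} [NeZero r]

include hpM in
/-- `normBeta_wq` for the involution of `S34/GaussPairX0` -/
theorem normBeta_wq' (hr : r.Prime) (hrp : r ≠ p) (x : ↥(modularFunctionFieldBar (M * p))) :
    normBeta (M * p) r (wq hpM x) = wq hpM (normBeta (M * p) r x) := by
  rw [Fermat.Agent.S34.GaussPairBridge.wq_eq]
  exact normBeta_wq hp.out hpM hr hrp x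

include hA hpM in
/-- **`N_α (β h)` of a unit `h` of the second Gauss ring `V₂` of `ℚ̄(X₀(M p))` is a unit of `V₂`,
and the divisor of its reduction is `T_r` of the divisor of the reduction of `h`.** -/
theorem exists_red₂_normBeta (hr : r.Prime) (hrp : r ≠ p) (hrM : ¬ r ∣ M)
    (h : ↥(V₂ hA hpM)) (hh : red₂ hA hpM h ≠ 0) :
    ∃ hmem : normBeta (M * p) r (h : ↥(modularFunctionFieldBar (M * p))) ∈ V₂ hA hpM,
      red₂ hA hpM ⟨_, hmem⟩ ≠ 0 ∧
      ∀ Δ : Divisor (ResidueField ↥A) ↥(modularFunctionFieldFullC (ResidueField ↥A) M),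
        (∀ Q, Δ Q = Q.ord (red₂ hA hpM h)) →
        ∀ Q, Q.ord (red₂ hA hpM ⟨_, hmem⟩) = heckeDivK M hpM A hA r Δ Q := by
  have hh' : red₁ hA hpM (wqV hA hpM h) ≠ 0 := hh
  obtain ⟨hmem', hne, hord⟩ := exists_red₁_normBeta hA hpM hr hrp hrM (wqV hA hpM h) hh'
  have hcoe : normBeta (M * p) r ((wqV hA hpM h : ↥(V₁ hA hpM)) :
      ↥(modularFunctionFieldBar (M * p))) =
      wq hpM (normBeta (M * p) r (h : ↥(modularFunctionFieldBar (M * p)))) := by
    rw [coe_wqV]
    exact normBeta_wq' hpM hr hrp _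
  have hmem : normBeta (M * p) r (h : ↥(modularFunctionFieldBar (M * p))) ∈ V₂ hA hpM := by
    rw [mem_V₂_iff, ← hcoe]
    exact hmem'
  have hred : red₂ hA hpM ⟨_, hmem⟩ = red₁ hA hpM ⟨_, hmem'⟩ := by
    rw [red₂_apply]
    congr 1
    exact Subtype.ext hcoe.symm
  refine ⟨hmem, hred ▸ hne, fun Δ hΔ Q => ?_⟩
  rw [hred]
  exact hord Δ hΔ Q

end Level

/-! ### constants, and the two Gauss valuations of `N_α (β h)` -/

section Const

variable (N r : ℕ) [NeZero N] [NeZero r]

/-- `N_α (β c) = c ^ (r + 1)` for a constant `c` -/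
theorem normBeta_algebraMap (hr : r.Prime) (hrN : ¬ r ∣ N) (c : Kb) :
    normBeta N r (algebraMap Kb ↥(modularFunctionFieldBar N) c) =
      algebraMap Kb ↥(modularFunctionFieldBar N) c ^ (r + 1) := by
  letI := algebraAlong (heckeAlphaBar Kb N r)
  have h1 : heckeBetaBar Kb N r (algebraMap Kb ↥(modularFunctionFieldBar N) c) =
      algebraMap ↥(modularFunctionFieldBar N) ↥(modularFunctionFieldBar (N * r))
        (algebraMap Kb ↥(modularFunctionFieldBar N) c) := by
    rw [AlgHom.commutes]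
    exact ((heckeAlphaBar Kb N r).commutes c).symm
  rw [normBeta_def, h1, Algebra.norm_algebraMap]
  congr 1
  exact Fermat.Agent.S37.ES.DegreeBeta.finrankAlong_alpha N hr hrN

theorem normBeta_one : normBeta N r (1 : ↥(modularFunctionFieldBar N)) = 1 := by
  unfold normBeta
  rw [map_one, map_one]

theorem normBeta_div (f : ↥(modularFunctionFieldBar N)) {g : ↥(modularFunctionFieldBar N)}
    (hg : g ≠ 0) : normBeta N r (f / g) = normBeta N r f / normBeta N r g := by
  have h1 : normBeta N r g * normBeta N r g⁻¹ = 1 := by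
    rw [← normBeta_mul, mul_inv_cancel₀ hg, normBeta_one]
  have hne : normBeta N r g ≠ 0 := left_ne_zero_of_mul_eq_one h1
  rw [eq_div_iff hne, ← normBeta_mul, div_mul_cancel₀ _ hg]

end Const

section Val

variable {p : ℕ} [hp : Fact p.Prime] {M : ℕ} [NeZero M] {A : ValuationSubring Kb} [NeZero p]
variable (hA : A.LiesOverPrime p) (hpM : ¬ p ∣ M) {r : ℕ} [NeZero r]

include hA hpM in
/-- `N_α (β h)` of a `V₁`-unit is a `V₁`-unit -/
theorem valuation_V₁_normBeta (hr : r.Prime) (hrp : r ≠ p) (hrM : ¬ r ∣ M)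
    {h : ↥(modularFunctionFieldBar (M * p))} (hv : (V₁ hA hpM).valuation h = 1) :
    (V₁ hA hpM).valuation (normBeta (M * p) r h) = 1 := by
  have hmem : h ∈ V₁ hA hpM := (ValuationSubring.valuation_le_one_iff _ _).mp hv.le
  have hunit : IsUnit (⟨h, hmem⟩ : ↥(V₁ hA hpM)) :=
    (ValuationSubring.valuation_eq_one_iff _ ⟨h, hmem⟩).mpr hv
  have hh : red₁ hA hpM ⟨h, hmem⟩ ≠ 0 := fun h0 => ((red₁_eq_zero_iff hA hpM _).mp h0) hunit
  obtain ⟨hmem', hne, -⟩ := exists_red₁_normBeta hA hpM hr hrp hrM ⟨h, hmem⟩ hh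
  have hunit' : IsUnit (⟨_, hmem'⟩ : ↥(V₁ hA hpM)) := by
    by_contra hnu
    exact hne ((red₁_eq_zero_iff hA hpM _).mpr hnu)
  exact (ValuationSubring.valuation_eq_one_iff _ ⟨_, hmem'⟩).mp hunit'

include hA hpM in
/-- `N_α (β h)` of a `V₂`-unit is a `V₂`-unit -/
theorem valuation_V₂_normBeta (hr : r.Prime) (hrp : r ≠ p) (hrM : ¬ r ∣ M)
    {h : ↥(modularFunctionFieldBar (M * p))} (hv : (V₂ hA hpM).valuation h = 1) :
    (V₂ hA hpM).valuation (normBeta (M * p) r h) = 1 := by
  have hmem : h ∈ V₂ hA hpM := (ValuationSubring.valuation_le_one_iff _ _).mp hv.le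
  have hunit : IsUnit (⟨h, hmem⟩ : ↥(V₂ hA hpM)) :=
    (ValuationSubring.valuation_eq_one_iff _ ⟨h, hmem⟩).mpr hv
  have hh : red₂ hA hpM ⟨h, hmem⟩ ≠ 0 := fun h0 => ((red₂_eq_zero_iff hA hpM _).mp h0) hunit
  obtain ⟨hmem', hne, -⟩ := exists_red₂_normBeta hA hpM hr hrp hrM ⟨h, hmem⟩ hh
  have hunit' : IsUnit (⟨_, hmem'⟩ : ↥(V₂ hA hpM)) := by
    by_contra hnu
    exact hne ((red₂_eq_zero_iff hA hpM _).mpr hnu)
  exact (ValuationSubring.valuation_eq_one_iff _ ⟨_, hmem'⟩).mp hunit'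

include hA hpM in
/-- **the `V₂`-slope of `T_r h`**: if `h / c` is a `V₂`-unit (`c` a constant), then
`N_α (β h) / c ^ (r + 1)` is a `V₂`-unit. -/
theorem valuation_V₂_normBeta_div (hr : r.Prime) (hrp : r ≠ p) (hrM : ¬ r ∣ M)
    {h : ↥(modularFunctionFieldBar (M * p))} (c : Kb)
    (hv : (V₂ hA hpM).valuation
      (h / algebraMap Kb ↥(modularFunctionFieldBar (M * p)) c) = 1) :
    (V₂ hA hpM).valuation (normBeta (M * p) r h /
      algebraMap Kb ↥(modularFunctionFieldBar (M * p)) c ^ (r + 1)) = 1 := by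
  have hrMp : ¬ r ∣ M * p := fun hd => by
    rcases (Nat.Prime.dvd_mul hr).mp hd with h1 | h1
    · exact hrM h1
    · exact hrp ((Nat.prime_dvd_prime_iff_eq hr hp.out).mp h1)
  have hc : algebraMap Kb ↥(modularFunctionFieldBar (M * p)) c ≠ 0 := by
    intro h0
    rw [h0, div_zero, map_zero] at hv
    exact zero_ne_one hv
  have h1 := valuation_V₂_normBeta hA hpM hr hrp hrM hv
  rwa [normBeta_div _ _ _ hc, normBeta_algebraMap (M * p) r hr hrMp] at h1

end Val

/-! ### the chart frame, second component -/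

section Frame

open Fermat.Agent.S33.X0.Frame Fermat.Agent.S34.CoreZX0Datum
open Fermat.Agent.S37.Hecke.Principal

attribute [local instance] Fermat.Agent.S18.A.Instances.hasPrincipalDivisors_bar

attribute [local instance 2000] Fermat.Agent.S34.EulerX0.algResFk

local instance instPDFk (A : ValuationSubring Kb) (N : ℕ) [NeZero N] :
    HasPrincipalDivisors (ResidueField ↥A) ↥(modularFunctionFieldFullC (ResidueField ↥A) N) :=
  Fermat.Agent.S37.ReductionInputs.hasPrincipalDivisors_Fk A N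

variable {p : ℕ} [hp : Fact p.Prime] {M : ℕ} [NeZero M] {A : ValuationSubring Kb} [NeZero p]
variable {hA : A.LiesOverPrime p} {hpM : ¬ p ∣ M}

set_option maxHeartbeats 1600000 in
/-- **(E1') `T_r` and the second reduction**: the twin of `HeckeNode.exists_hecke_red` for the
second Gauss ring. -/
theorem exists_hecke_red₂ (F : ChartFrame hA hpM) (hF : RedStd2 F) (r : Nat.Primes)
    (hrp : (r : ℕ) ≠ p) (hrM : ¬ (r : ℕ) ∣ M)
    (D : Divisor.degZero (K := Kb) (F := ↥(modularFunctionFieldBar (M * p))))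
    (u : (F.X.N.R2.O)ˣ)
    (hD : ∀ P : Place Kb ↥(modularFunctionFieldBar (M * p)),
      (p : ℤ) * (D : Divisor Kb ↥(modularFunctionFieldBar (M * p))) P =
        P.ord (((u : F.X.N.R2.O)) : ↥(modularFunctionFieldBar (M * p)))) :
    haveI : NeZero (r : ℕ) := ⟨r.2.ne_zero⟩
    ∃ (D' : Divisor.degZero (K := Kb) (F := ↥(modularFunctionFieldBar (M * p))))
      (u' : (F.X.N.R2.O)ˣ),
      Pic0.mk D' = heckeOperatorBar (M * p) r (Pic0.mk D) ∧
      (∀ P : Place Kb ↥(modularFunctionFieldBar (M * p)),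
        (p : ℤ) * (D' : Divisor Kb ↥(modularFunctionFieldBar (M * p))) P =
          P.ord (((u' : F.X.N.R2.O)) : ↥(modularFunctionFieldBar (M * p)))) ∧
      ∀ Δ : Divisor (ResidueField ↥A) ↥(modularFunctionFieldFullC (ResidueField ↥A) M),
        (∀ Q, Δ Q = Q.ord (F.X.N.R2.red u)) →
        ∀ Q, Q.ord (F.X.N.R2.red u') = heckeDivK M hpM A hA r Δ Q := by
  haveI : NeZero (r : ℕ) := ⟨r.2.ne_zero⟩
  obtain ⟨D', hD', hcoe⟩ :=
    Fermat.Agent.S35.DegeneracyHecke.coe_degZero_of_hecke_mk (N := M * p) r D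
  have hu2 : ((u : F.X.N.R2.O) : ↥(modularFunctionFieldBar (M * p))) ∈ V₂ hA hpM :=
    mem_V₂_of_mem F (u : F.X.N.R2.O).2
  have hured : F.X.N.R2.red (u : F.X.N.R2.O) = red₂ hA hpM ⟨_, hu2⟩ := hF _ _ hu2
  have hu0 : F.X.N.R2.red (u : F.X.N.R2.O) ≠ 0 := by
    intro h0
    exact ((F.X.N.R2.red_eq_zero_iff _).mp h0) u.isUnit
  have hh : red₂ hA hpM ⟨_, hu2⟩ ≠ 0 := hured ▸ hu0
  obtain ⟨hmem, hne, hord⟩ := exists_red₂_normBeta hA hpM (r := (r : ℕ)) r.2 hrp hrM ⟨_, hu2⟩ hh
  have hmem1 : normBeta (M * p) r ((u : F.X.N.R2.O) : ↥(modularFunctionFieldBar (M * p))) ∈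
      F.X.N.R2.O := mem_of_mem_V₂ F hmem
  have hred' : F.X.N.R2.red ⟨_, hmem1⟩ = red₂ hA hpM ⟨_, hmem⟩ := hF _ _ hmem
  have hunit : IsUnit (⟨_, hmem1⟩ : F.X.N.R2.O) := by
    by_contra hnu
    exact hne (hred' ▸ (F.X.N.R2.red_eq_zero_iff _).mpr hnu)
  refine ⟨D', hunit.unit, hD'.symm, fun P => ?_, fun Δ hΔ Q => ?_⟩
  · have hune : ((u : F.X.N.R2.O) : ↥(modularFunctionFieldBar (M * p))) ≠ 0 := by
      intro h0
      apply hu0
      have : (u : F.X.N.R2.O) = 0 := Subtype.ext h0
      rw [this, map_zero]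
    have hpD : ∀ v : Place Kb ↥(modularFunctionFieldBar (M * p)),
        ((p : ℤ) • (D : Divisor Kb ↥(modularFunctionFieldBar (M * p)))) v =
          v.ord ((u : F.X.N.R2.O) : ↥(modularFunctionFieldBar (M * p))) := fun v => by
      rw [Finsupp.smul_apply, smul_eq_mul]
      exact hD v
    have h1 := heckeDiv_principal (M * p) (r : ℕ) hune hpD P
    have hcoe' : (D' : Divisor Kb ↥(modularFunctionFieldBar (M * p))) =
        Fermat.Agent.S37.Hecke.Principal.heckeDiv (M * p) (r : ℕ)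
          (D : Divisor Kb ↥(modularFunctionFieldBar (M * p))) := hcoe
    rw [map_zsmul, Finsupp.smul_apply, smul_eq_mul, ← hcoe'] at h1
    rw [IsUnit.unit_spec]
    exact h1
  · rw [IsUnit.unit_spec, hred']
    exact hord Δ (fun Q' => by rw [hΔ Q', hured]) Q

end Frame

end Fermat.Agent.S44.Eis.HeckeWq
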