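/-
PROJECT P (S44), leaf EIS / UnitVal (helper12): **the modular unit `u = Δ(z)/Δ(q z)` at the two
Gauss valuations of `E = ℚ̄(X₀(M q))`**, `q` prime, `q ∤ M`, `A` a valuation subring of `ℚ̄` over `q`.

Part (a), the first Gauss valuation (`t`-expansions):
* `exists_unitZ` : `modularUnitSeries q = U ⊗ ℚ` for an INTEGRAL series `U ∈ ℤ((t))` with leading
  coefficient `1` at `t^(1-q)`;
* `exists_isUnit_uBar_V₁` : `uBar (M q) hd = Δ(z)/Δ(d z)`, `d ∣ M q`, is a UNIT of the Gauss ring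
  `V₁` and its reduction is the coefficientwise reduction of `U` (`exists_isUnit_uE_V₁` : `d = q`,
  `uE M q := uBar (M q) (q ∣ M q)`);
* **`valuation_V1X0_uE`** : `V1X0.valuation (uE M q) = 1`.

Part (b), the Atkin-Lehner involution (the one analytic input: `Δ ∣ γ = Δ`):
* `exists_gamma` : `γ = (1 *; M q*) ∈ Γ₀(M)` with `diag(q, 1) γ = γ₂ diag(1, q)`, `γ₂ ∈ Γ₀(M)`;
* `dil_slash` : `(z ↦ a (q z)) ∣[k] γ = q^(-k) • (z ↦ a (z / q))` for `a` of level `M`;
* `cuspExp_con_level` : the `q_{Mq}`-expansion of `z ↦ a (z / q)` is `(qExp a)(t^M)`;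
* **`Lc_eq_wq`** : `w_q` is `x ↦ x ∘ γ ∘ (q ·)` on expansions:
  `Lc (M q) γ x = (ι-expansion of w_q x)(t^M)` (both sides are ring homomorphisms that agree on
  constants, on `α F` and on `β F`: `S34/WqGalois.ringHom_ext_alpha_beta`);
* **`wq_uBar`** : `w_q u = q^12 · u⁻¹`;
* **`valuation_V2X0_uE_div`** : `V2X0.valuation (uE M q / q^12) = 1`;
  `valuation_V2X0_uE` : `V2X0.valuation (uE M q) = V2X0.valuation q ^ 12`.

The FULL unit `U = uBar (M q) (dvd_refl _) = Δ(z)/Δ(M q z)` (the one with cuspidal divisor,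
`S15/G/UnitDiv.ord_uBar_of_jgen_mem`): `uBar_full_eq : U = u · β (Δ(z)/Δ(M z))`,
* **`valuation_V1X0_uBar`** : `V1X0.valuation (uBar (M q) hd) = 1` for EVERY `d ∣ M q`;
* **`valuation_V2X0_uBar_full`** : `V2X0.valuation U = V2X0.valuation q ^ 12`
  (`valuation_V2X0_uBar_full_div`, `wq_uBar_full_div : w_q (U / q^12) = u⁻¹ · α (Δ(z)/Δ(M z))`).
-/
import Mathlib
import Fermat.Agent.S34.ModularUnit
import Fermat.Agent.S34.GaussPairX0
import Fermat.Agent.S34.GaussPairBridge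
import Fermat.Agent.S34.WqGalois
import Fermat.Agent.S36.GaussUnit
import Fermat.Agent.S37.Cusps.CuspFamily
import Fermat.Agent.S30.Hecke.BetaAnalytic
import Fermat.Agent.S24.OrbitsCuspAlt

set_option autoImplicit false
set_option linter.unusedSectionVars false
set_option linter.style.haveILetI false

noncomputable section

namespace Fermat.Agent.S44.Eis.UnitVal

open ModularCurve AlgebraicCurve IsLocalRing
open Fermat.Agent.S18.GaussFromH
open Fermat.Agent.S37.Gauss.Datum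
open Fermat.Agent.S34.GaussPairX0
open Fermat.Agent.S34.ModularUnit

local notation "Kb" => AlgebraicClosure ℚ

/-! ### the integral expansion of the modular unit -/

theorem deltaSeries_eq : deltaSeries = HahnSeries.single (1 : ℤ) (1 : ℚ) *
    HahnSeries.ofPowerSeries ℤ ℚ (dedekindEtaUnit.map (Int.castRingHom ℚ)) := rfl

theorem deltaSeriesN_eq (p : ℕ) [NeZero p] : deltaSeriesN p = qExpand ℚ p deltaSeries := rfl

theorem modularUnitSeries_eq (p : ℕ) [NeZero p] :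
    modularUnitSeries p = deltaSeries * (deltaSeriesN p)⁻¹ := rfl

/-- **the modular unit has an integral expansion** with leading coefficient `1` at `t^(1-p)`. -/
theorem exists_unitZ (p : ℕ) [NeZero p] :
    ∃ U : LaurentSeries ℤ, coeffMap (Int.castRingHom ℚ) U = modularUnitSeries p ∧
      U.coeff (1 - (p : ℤ)) = 1 := by
  set U : LaurentSeries ℤ := HahnSeries.single (1 - (p : ℤ)) (1 : ℤ) *
    HahnSeries.ofPowerSeries ℤ ℤ dedekindEtaUnit *
      qExpand ℤ p (HahnSeries.ofPowerSeries ℤ ℤ dedekindEtaUnitInv) with hU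
  have hmap : coeffMap (Int.castRingHom ℚ) U = modularUnitSeries p := by
    rw [modularUnitSeries_eq, eq_mul_inv_iff_mul_eq₀ (deltaSeriesN_ne_zero p), hU, map_mul,
      map_mul, coeffMap_single, coeffMap_ofPowerSeries, coeffMap_qExpand, coeffMap_ofPowerSeries,
      map_one, deltaSeriesN_eq, deltaSeries_eq, map_mul, qExpand_single, mul_one]
    set η : LaurentSeries ℚ :=
      HahnSeries.ofPowerSeries ℤ ℚ (dedekindEtaUnit.map (Int.castRingHom ℚ)) with hη
    set ηi : LaurentSeries ℚ :=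
      HahnSeries.ofPowerSeries ℤ ℚ (dedekindEtaUnitInv.map (Int.castRingHom ℚ)) with hηi
    have h1 : η * ηi = 1 := by
      rw [hη, hηi, ← map_mul, ← map_mul, dedekindEtaUnit_mul_inv, map_one, map_one]
    have h2 : qExpand ℚ p ηi * qExpand ℚ p η = 1 := by
      rw [← map_mul, mul_comm, h1, map_one]
    have h3 : (HahnSeries.single (1 - (p : ℤ)) (1 : ℚ) : LaurentSeries ℚ) *
        HahnSeries.single (p : ℤ) (1 : ℚ) = HahnSeries.single (1 : ℤ) (1 : ℚ) := by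
      rw [HahnSeries.single_mul_single, mul_one, sub_add_cancel]
    calc HahnSeries.single (1 - (p : ℤ)) (1 : ℚ) * η * qExpand ℚ p ηi *
          (HahnSeries.single (p : ℤ) (1 : ℚ) * qExpand ℚ p η)
        = (HahnSeries.single (1 - (p : ℤ)) (1 : ℚ) * HahnSeries.single (p : ℤ) (1 : ℚ)) * η *
            (qExpand ℚ p ηi * qExpand ℚ p η) := by ring
      _ = HahnSeries.single (1 : ℤ) (1 : ℚ) * η := by rw [h2, h3, mul_one]
  refine ⟨U, hmap, ?_⟩
  have h : (Int.castRingHom ℚ) (U.coeff (1 - (p : ℤ))) = 1 := by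
    rw [← coeffMap_coeff, hmap, coeff_modularUnitSeries_self]
  have h' : ((U.coeff (1 - (p : ℤ)) : ℤ) : ℚ) = ((1 : ℤ) : ℚ) := by
    rw [Int.cast_one]; exact h
  exact Int.cast_injective h'

/-! ### the modular unit is a unit of `V₁` -/

section Unit

variable {q : ℕ} [hq : Fact q.Prime] {M : ℕ} [NeZero M] {A : ValuationSubring Kb}
variable (hA : A.LiesOverPrime q) (hqM : ¬ q ∣ M) [NeZero q]

/-- the modular unit of level `M q` -/
abbrev uE (M q : ℕ) [NeZero M] [NeZero q] : ↥(modularFunctionFieldBar (M * q)) :=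
  uBar (M * q) (Dvd.intro_left M rfl)

/-- **(a)** every modular unit `Δ(z)/Δ(d z)`, `d ∣ M q`, is a unit of the Gauss ring `V₁`; its
reduction is the coefficientwise reduction of its integral expansion. -/
theorem exists_isUnit_uBar_V₁ {d : ℕ} [NeZero d] (hd : d ∣ M * q) {U : LaurentSeries ℤ}
    (hU : coeffMap (Int.castRingHom ℚ) U = modularUnitSeries d)
    (hU1 : U.coeff (1 - (d : ℤ)) = 1) :
    ∃ hu : uBar (M * q) hd ∈ V₁ hA hqM, IsUnit (⟨uBar (M * q) hd, hu⟩ : ↥(V₁ hA hqM)) ∧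
      ((red₁ hA hqM ⟨uBar (M * q) hd, hu⟩ : ↥(modularFunctionFieldFullC (ResidueField ↥A) M)) :
          LaurentSeries (ResidueField ↥A)) =
        coeffMap (Int.castRingHom (ResidueField ↥A)) U := by
  set y : LaurentSeries ↥A := coeffMap (Int.castRingHom ↥A) U with hy
  have hyL : coeffMap A.subtype y = coeffMap (Int.castRingHom Kb) U := by
    rw [hy, coeffMap_coeffMap]
    exact coeffMap_congr (RingHom.ext_int _ _) U
  have hyk : coeffMap (residue ↥A) y = coeffMap (Int.castRingHom (ResidueField ↥A)) U := by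
    rw [hy, coeffMap_coeffMap]
    exact coeffMap_congr (RingHom.ext_int _ _) U
  have hfy : coeffMap A.subtype y = ((uBar (M * q) hd : ↥(modularFunctionFieldBar (M * q))) :
      LaurentSeries Kb) := by
    rw [hyL, coe_uBar, ← hU, coeffEmb, coeffMap_coeffMap]
    exact coeffMap_congr (RingHom.ext_int _ _) U
  have hne : coeffMap (residue ↥A) y ≠ 0 := by
    rw [hyk]
    intro h0
    have h1 := congrArg (fun x : LaurentSeries (ResidueField ↥A) => x.coeff (1 - (d : ℤ))) h0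
    simp only [coeffMap_coeff, hU1, map_one, HahnSeries.coeff_zero] at h1
    exact one_ne_zero h1
  obtain ⟨hf, hunit, hred⟩ := Fermat.Agent.S36.GaussUnit.isUnit_of_integral_expansion
    (hasRepMul hA hqM) (residue_eq_zero_of_not_isUnit A) (uBar (M * q) hd) hfy hne
  refine ⟨hf, hunit, ?_⟩
  rw [red₁, RingHom.comp_apply, coe_castK, ← hyk]
  exact hred

/-- every modular unit `Δ(z)/Δ(d z)`, `d ∣ M q`, and its inverse lie in `V₁` -/
theorem uBar_mem_V₁ {d : ℕ} [NeZero d] (hd : d ∣ M * q) :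
    uBar (M * q) hd ∈ V₁ hA hqM ∧ (uBar (M * q) hd)⁻¹ ∈ V₁ hA hqM := by
  obtain ⟨U, hU, hU1⟩ := exists_unitZ d
  obtain ⟨hu, hunit, -⟩ := exists_isUnit_uBar_V₁ hA hqM hd hU hU1
  have hv1 : (V₁ hA hqM).valuation (uBar (M * q) hd) = 1 :=
    (ValuationSubring.valuation_eq_one_iff _ ⟨_, hu⟩).mp hunit
  refine ⟨hu, ?_⟩
  rw [← ValuationSubring.valuation_le_one_iff, map_inv₀, hv1, inv_one]

/-- **(a)** every modular unit `Δ(z)/Δ(d z)`, `d ∣ M q`, has valuation `1` at the first Gauss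
valuation of `ℚ̄(X₀(M q))`. -/
theorem valuation_V1X0_uBar {d : ℕ} [NeZero d] (hd : d ∣ M * q) :
    (Fermat.Agent.S34.Z1X0.V1X0 hA hqM).valuation (uBar (M * q) hd) = 1 := by
  rw [Fermat.Agent.S34.GaussPairBridge.V1X0_eq]
  obtain ⟨U, hU, hU1⟩ := exists_unitZ d
  obtain ⟨hu, hunit, -⟩ := exists_isUnit_uBar_V₁ hA hqM hd hU hU1
  exact (ValuationSubring.valuation_eq_one_iff _ ⟨_, hu⟩).mp hunit

/-- **(a)** `u = Δ(z)/Δ(q z)` is a unit of the Gauss ring `V₁`. -/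
theorem exists_isUnit_uE_V₁ {U : LaurentSeries ℤ}
    (hU : coeffMap (Int.castRingHom ℚ) U = modularUnitSeries q)
    (hU1 : U.coeff (1 - (q : ℤ)) = 1) :
    ∃ hu : uE M q ∈ V₁ hA hqM, IsUnit (⟨uE M q, hu⟩ : ↥(V₁ hA hqM)) ∧
      ((red₁ hA hqM ⟨uE M q, hu⟩ : ↥(modularFunctionFieldFullC (ResidueField ↥A) M)) :
          LaurentSeries (ResidueField ↥A)) =
        coeffMap (Int.castRingHom (ResidueField ↥A)) U :=
  exists_isUnit_uBar_V₁ hA hqM _ hU hU1

/-- **(a)** `u = Δ(z)/Δ(q z)` has valuation `1` at the first Gauss valuation of `ℚ̄(X₀(M q))`. -/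
theorem valuation_V1X0_uE :
    (Fermat.Agent.S34.Z1X0.V1X0 hA hqM).valuation (uE M q) = 1 :=
  valuation_V1X0_uBar hA hqM _

end Unit

/-! ## Part (b): the Atkin-Lehner involution on the modular unit -/

section Analytic

open UpperHalfPlane hiding I
open ModularForm CongruenceSubgroup ModularCurve Matrix.SpecialLinearGroup
open scoped MatrixGroups ModularForm Manifold
open Fermat.Agent.S20 Fermat.Agent.S24.RepHom Fermat.Agent.S24.LaurentCusp
open Fermat.Agent.S24.QRep (dil)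
open Fermat.Agent.S30.Hecke.BetaAnalytic

local notation "𝕢" => Function.Periodic.qParam

/-- `z ↦ F (z / p)` -/
def con (p : ℕ) (F : ℍ → ℂ) : ℍ → ℂ := fun τ => F (heckeMatrix p 0 • τ)

theorem con_apply (p : ℕ) (F : ℍ → ℂ) (τ : ℍ) : con p F τ = F (heckeMatrix p 0 • τ) := rfl

/-- a form of level `M` is invariant under `Γ₀(M)` -/
theorem slash_eq_of_mem {M : ℕ} {k : ℤ} {a : ℍ → ℂ} (ha : IsMF (G0 M) k a) {γ : SL(2, ℤ)}
    (hγ : γ ∈ Gamma0 M) : a ∣[k] γ = a := by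
  obtain ⟨A, rfl⟩ := ha
  rw [ModularForm.SL_slash]
  exact SlashInvariantFormClass.slash_action_eq A _ ⟨γ, hγ, rfl⟩

/-- the slash of `z ↦ a (p z)` by `γ` with `diag(p, 1) γ = γ₂ (1 0; 0 p)`, `γ₂ ∈ Γ₀(M)` -/
theorem dil_slash {M p : ℕ} [NeZero p] {k : ℤ} {a : ℍ → ℂ} (ha : IsMF (G0 M) k a)
    {γ γ₂ : SL(2, ℤ)} (hγ₂ : γ₂ ∈ Gamma0 M)
    (hmul : heckeDiagMatrix p * mapGL ℝ γ = mapGL ℝ γ₂ * heckeMatrix p 0) :
    dil p a ∣[k] γ = ((p : ℂ) ^ k)⁻¹ • con p a := by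
  have hp0 : p ≠ 0 := NeZero.ne p
  have hpC : (p : ℂ) ≠ 0 := by exact_mod_cast hp0
  have e : ∀ (f : ℍ → ℂ) (g : SL(2, ℤ)), f ∣[k] g = f ∣[k] (mapGL ℝ g) := fun f g =>
    ModularForm.SL_slash f g
  have h1 : (a ∣[k] heckeDiagMatrix p) ∣[k] γ = a ∣[k] heckeMatrix p 0 := by
    rw [e, ← SlashAction.slash_mul, hmul, SlashAction.slash_mul, ← e, slash_eq_of_mem ha hγ₂]
  funext τ
  have h2 := congrFun h1 τ
  rw [slash_heckeMatrix_apply k hp0, ModularForm.SL_slash_apply] at h2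
  rw [ModularForm.SL_slash_apply]
  rw [slash_heckeDiagMatrix_apply k hp0] at h2
  show dil p a (γ • τ) * _ = _
  rw [Pi.smul_apply, smul_eq_mul, con_apply]
  have h3 : dil p a (γ • τ) = a (heckeDiagMatrix p • (γ • τ)) := rfl
  rw [h3]
  have hk : (p : ℂ) ^ (k - 1) = (p : ℂ) ^ k * (p : ℂ)⁻¹ := by
    rw [zpow_sub_one₀ hpC]
  rw [hk] at h2
  have hpk : (p : ℂ) ^ k ≠ 0 := zpow_ne_zero _ hpC
  field_simp at h2 ⊢
  linear_combination h2

theorem coe_smul_zero {p : ℕ} (hp : p ≠ 0) (τ : ℍ) :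
    ((heckeMatrix p 0 • τ : ℍ) : ℂ) = (τ : ℂ) / p := by
  rw [coe_heckeMatrix_smul hp]
  simp

theorem qParam_con {p : ℕ} (hp : p ≠ 0) (τ : ℍ) :
    𝕢 (1 : ℝ) ((heckeMatrix p 0 • τ : ℍ) : ℂ) = 𝕢 (p : ℝ) (τ : ℂ) := by
  rw [coe_smul_zero hp]
  simp only [Function.Periodic.qParam]
  congr 1
  push_cast
  ring

/-- `z ↦ a (z / p)` is `p`-periodic if `a` is `1`-periodic -/
theorem periodic_con {p : ℕ} (hp : p ≠ 0) {a : ℍ → ℂ}
    (ha : Function.Periodic (a ∘ ofComplex) (1 : ℝ)) :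
    Function.Periodic (con p a ∘ ofComplex) (p : ℝ) := by
  have hpR : (0 : ℝ) < p := by exact_mod_cast Nat.pos_of_ne_zero hp
  have hpC : (p : ℂ) ≠ 0 := by exact_mod_cast hp
  intro z
  by_cases hz : 0 < Complex.im z
  · have hz' : 0 < Complex.im (z + ((p : ℝ) : ℂ)) := by simpa using hz
    have hzp : 0 < Complex.im (z / (p : ℂ)) := by
      rw [Complex.div_natCast_im]
      exact div_pos hz hpR
    simp only [Function.comp_apply, ofComplex_apply_of_im_pos hz', ofComplex_apply_of_im_pos hz,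
      con_apply]
    have h1 := ha (z / (p : ℂ))
    simp only [Function.comp_apply] at h1
    have hzp' : 0 < Complex.im (z / (p : ℂ) + ((1 : ℝ) : ℂ)) := by simpa using hzp
    rw [ofComplex_apply_of_im_pos hzp', ofComplex_apply_of_im_pos hzp] at h1
    have e1 : heckeMatrix p 0 • (⟨z + ((p : ℝ) : ℂ), hz'⟩ : ℍ) =
        ⟨z / (p : ℂ) + ((1 : ℝ) : ℂ), hzp'⟩ := by
      apply UpperHalfPlane.ext
      rw [coe_smul_zero hp]
      show (z + ((p : ℝ) : ℂ)) / (p : ℂ) = z / (p : ℂ) + ((1 : ℝ) : ℂ)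
      push_cast
      field_simp
    have e2 : heckeMatrix p 0 • (⟨z, hz⟩ : ℍ) = ⟨z / (p : ℂ), hzp⟩ := by
      apply UpperHalfPlane.ext
      rw [coe_smul_zero hp]
    rw [e1, e2]
    exact h1
  · have hz0 : Complex.im z ≤ 0 := not_lt.mp hz
    have hz' : Complex.im (z + ((p : ℝ) : ℂ)) ≤ 0 := by simpa using hz0
    show con p a (ofComplex (z + ((p : ℝ) : ℂ))) = con p a (ofComplex z)
    rw [ofComplex_apply_of_im_nonpos hz', ofComplex_apply_of_im_nonpos hz0]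

/-- the `q_p`-expansion of `z ↦ a (z / p)` is the `q`-expansion of `a` -/
theorem qExpansion_con {p : ℕ} [NeZero p] {a : ℍ → ℂ} (ha : IsCuspHol 1 a)
    (hc : IsCuspHol p (con p a)) :
    qExpansion (p : ℝ) (con p a) = qExpansion ((1 : ℕ) : ℝ) a := by
  ext m
  refine coeff_unique (c := fun m => (qExpansion ((1 : ℕ) : ℝ) a).coeff m)
    IsCuspHol.natCast_pos hc.analyticAt (fun τ => ?_) m
  have h := ha.hasSum (heckeMatrix p 0 • τ)
  rw [Nat.cast_one, qParam_con (NeZero.ne p)] at h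
  rw [Nat.cast_one]
  exact h

theorem cuspExp_con {p : ℕ} [NeZero p] {a : ℍ → ℂ} (ha : IsCuspHol 1 a)
    (hc : IsCuspHol p (con p a)) : cuspExp p (con p a) = cuspExp 1 a := by
  rw [cuspExp_def, cuspExp_def, qExpansion_con ha hc]

/-- the `q_N`-expansion of a `w`-periodic function is its `q_w`-expansion in `q_w = q_N ^ (N / w)` -/
theorem cuspExp_of_period {N w d : ℕ} [NeZero N] [NeZero d] (hN : w * d = N) (hw : 0 < w)
    {f : ℍ → ℂ} (hf : MDiff f) (hper : Function.Periodic (f ∘ ofComplex) (w : ℝ))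
    (hbdd : IsBoundedAtImInfty f) :
    cuspExp N f = qExpand ℂ d (cuspExp w f) := by
  have hdpos : 0 < d := Nat.pos_of_ne_zero (NeZero.ne d)
  have hd' : (0 : ℤ) < d := by exact_mod_cast hdpos
  ext n
  by_cases hd : (d : ℤ) ∣ n
  · obtain ⟨m, rfl⟩ := hd
    rw [qExpand_coeff_mul, coeff_cuspExp, coeff_cuspExp]
    by_cases hm : m < 0
    · have : (d : ℤ) * m < 0 := mul_neg_of_pos_of_neg hd' hm
      rw [if_pos this, if_pos hm]
    · rw [not_lt] at hm
      have : ¬ ((d : ℤ) * m < 0) := not_lt.mpr (mul_nonneg hd'.le hm)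
      rw [if_neg this, if_neg (not_lt.mpr hm), qExpansion_coeff_of_period hN hw hf hper hbdd]
      have e : ((d : ℤ) * m).natAbs = d * m.natAbs := by
        rw [Int.natAbs_mul, Int.natAbs_natCast]
      rw [e, if_pos (Dvd.intro _ rfl), Nat.mul_div_cancel_left _ hdpos]
  · rw [qExpand_coeff_of_not_dvd d _ hd, coeff_cuspExp]
    split_ifs with hneg
    · rfl
    · rw [qExpansion_coeff_of_period hN hw hf hper hbdd, if_neg]
      intro hdn
      apply hd
      rw [not_lt] at hneg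
      have : (n.natAbs : ℤ) = n := Int.natAbs_of_nonneg hneg
      rw [← this]
      exact_mod_cast hdn

/-! ### the matrix -/

open P2MW.S_ModularForm_heckeT_slash_eq_self_of_mem_Gamma0.ModularForm.HeckeSlashInvariance in
/-- for `q ∤ M` there is `γ = (1 *; M q*) ∈ Γ₀(M)` with `diag(q, 1) γ = γ₂ diag(1, q)`,
`γ₂ ∈ Γ₀(M)` -/
theorem exists_gamma {q M : ℕ} (hq : q.Prime) (hqM : ¬ q ∣ M) :
    ∃ γ γ₂ : SL(2, ℤ), γ ∈ Gamma0 M ∧ γ₂ ∈ Gamma0 M ∧
      heckeDiagMatrix q * mapGL ℝ γ = mapGL ℝ γ₂ * heckeMatrix q 0 := by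
  have hcop : IsCoprime (q : ℤ) (M : ℤ) :=
    Nat.isCoprime_iff_coprime.mpr ((Nat.Prime.coprime_iff_not_dvd hq).mpr hqM)
  obtain ⟨x, y, hxy⟩ := hcop
  set γ : SL(2, ℤ) := ⟨!![1, -y; (M : ℤ), x * q], by
    rw [Matrix.det_fin_two_of]
    linear_combination hxy⟩ with hγ
  have h10 : γ 1 0 = (M : ℤ) := rfl
  have h11 : γ 1 1 = x * q := rfl
  obtain ⟨γ₂, hγ₂, hmul⟩ := heckeDiagMatrix_mul_of_eq hq.ne_zero γ 0 x (by
    rw [h10, h11]
    push_cast
    ring)
  refine ⟨γ, γ₂, ?_, ?_, hmul⟩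
  · rw [Gamma0_mem, h10]
    simp
  · rw [Gamma0_mem, hγ₂, h10]
    simp

/-! ### expansions of `Lc` on forms of level `M` and on their dilations -/

section Expansions

open Fermat.Agent.S24.OrbitsCuspAlt Fermat.Agent.S24.OrbitDefs Fermat.Agent.S24.RepAll
open Fermat.Agent.S37.Cusps.CuspFamily (cuspExp_eq_qExpand cuspExp_one_eq)
open Fermat.Agent.S23.QRing (qx)

variable {M q : ℕ} [NeZero M] [NeZero q]

theorem isCuspHol_one_of_isMF {N : ℕ} [NeZero N] {k : ℤ} {a : ℍ → ℂ} (h : IsMF (G0 N) k a) :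
    IsCuspHol 1 a := by
  have h1 := isQ_of_isMF h
  exact ⟨h1.holo, by simpa using h1.periodic, h1.bdd⟩

theorem cuspExp_of_isMF (N : ℕ) [NeZero N] {N' : ℕ} [NeZero N'] {k : ℤ} {a : ℍ → ℂ}
    (h : IsMF (G0 N') k a) : cuspExp N a = qExpand ℂ N (ofPS (qx a)) := by
  rw [cuspExp_eq_qExpand N (isCuspHol_one_of_isMF h), cuspExp_one_eq]

theorem quot_eq {N : ℕ} [NeZero N] {G : LaurentSeries ℂ} {k : ℤ} {a b : ℍ → ℂ}
    (h : IsRepOf N G k a b) : ofPS (qx a) / ofPS (qx b) = G := by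
  rw [h.eq, mul_div_cancel_right₀ _ h.qx_b_ne_zero]

/-- `Lc` at `γ ∈ Γ₀(M)` on a quotient of forms of level `M` -/
theorem Lc_of_level {γ : SL(2, ℤ)} (hγ : γ ∈ Gamma0 M) {G : LaurentSeries ℂ} {k : ℤ}
    {a b : ℍ → ℂ} (h : IsRepOf M G k a b) (x : repField (M * q))
    (hx : IsRepOf (M * q) (x : LaurentSeries ℂ) k a b) :
    Lc (M * q) γ x = qExpand ℂ (M * q) G := by
  show Lmap (cuspHolHom (M * q)) γ (slashP_cusp (M * q) γ) x = _
  rw [Lmap_eq_div (slashP_cusp (M * q) γ) x hx, slash_eq_of_mem h.ha hγ, slash_eq_of_mem h.hb hγ]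
  show cuspExp (M * q) a / cuspExp (M * q) b = _
  rw [cuspExp_of_isMF _ h.ha, cuspExp_of_isMF _ h.hb, ← map_div₀, quot_eq h]

theorem isCuspHol_con {γ γ₂ : SL(2, ℤ)} (hγ₂ : γ₂ ∈ Gamma0 M)
    (hmul : heckeDiagMatrix q * mapGL ℝ γ = mapGL ℝ γ₂ * heckeMatrix q 0) {k : ℤ} {a : ℍ → ℂ}
    (ha : IsMF (G0 M) k a) : IsCuspHol (M * q) (con q a) := by
  have hqC : (q : ℂ) ≠ 0 := by exact_mod_cast NeZero.ne q
  have hc : ((q : ℂ) ^ k)⁻¹ ≠ 0 := inv_ne_zero (zpow_ne_zero _ hqC)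
  have h1 := slashP_cusp (M * q) γ k (dil q a) (isMF_dil M q ha)
  rw [dil_slash ha hγ₂ hmul] at h1
  have h2 := h1.smul (((q : ℂ) ^ k)⁻¹)⁻¹
  rwa [inv_smul_smul₀ hc] at h2

theorem cuspExp_con_level {γ γ₂ : SL(2, ℤ)} (hγ₂ : γ₂ ∈ Gamma0 M)
    (hmul : heckeDiagMatrix q * mapGL ℝ γ = mapGL ℝ γ₂ * heckeMatrix q 0) {k : ℤ} {a : ℍ → ℂ}
    (ha : IsMF (G0 M) k a) : cuspExp (M * q) (con q a) = qExpand ℂ M (ofPS (qx a)) := by
  have h1 := isCuspHol_con hγ₂ hmul ha
  have ha1 := isCuspHol_one_of_isMF ha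
  have hper : Function.Periodic (con q a ∘ ofComplex) (q : ℝ) :=
    periodic_con (NeZero.ne q) (by simpa using ha1.per)
  have hq : IsCuspHol q (con q a) := ⟨h1.hol, hper, h1.bdd⟩
  rw [cuspExp_of_period (N := M * q) (w := q) (d := M) (Nat.mul_comm q M)
    (Nat.pos_of_ne_zero (NeZero.ne q)) h1.hol hper h1.bdd, cuspExp_con ha1 hq, cuspExp_one_eq]

/-- `Lc` at `γ` on a quotient of dilations of forms of level `M` -/
theorem Lc_of_dil {γ γ₂ : SL(2, ℤ)} (hγ₂ : γ₂ ∈ Gamma0 M)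
    (hmul : heckeDiagMatrix q * mapGL ℝ γ = mapGL ℝ γ₂ * heckeMatrix q 0)
    {G : LaurentSeries ℂ} {k : ℤ} {a b : ℍ → ℂ} (h : IsRepOf M G k a b) (x : repField (M * q))
    (hx : IsRepOf (M * q) (x : LaurentSeries ℂ) k (dil q a) (dil q b)) :
    Lc (M * q) γ x = qExpand ℂ M G := by
  have hqC : (q : ℂ) ≠ 0 := by exact_mod_cast NeZero.ne q
  have hc : ((q : ℂ) ^ k)⁻¹ ≠ 0 := inv_ne_zero (zpow_ne_zero _ hqC)
  have hC : (HahnSeries.C ((q : ℂ) ^ k)⁻¹ : LaurentSeries ℂ) ≠ 0 :=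
    (map_ne_zero_iff _ HahnSeries.C_injective).mpr hc
  show Lmap (cuspHolHom (M * q)) γ (slashP_cusp (M * q) γ) x = _
  rw [Lmap_eq_div (slashP_cusp (M * q) γ) x hx, dil_slash h.ha hγ₂ hmul,
    dil_slash h.hb hγ₂ hmul]
  show cuspExp (M * q) (((q : ℂ) ^ k)⁻¹ • con q a) /
    cuspExp (M * q) (((q : ℂ) ^ k)⁻¹ • con q b) = _
  rw [cuspExp_smul _ (isCuspHol_con hγ₂ hmul h.ha), cuspExp_smul _ (isCuspHol_con hγ₂ hmul h.hb),
    mul_div_mul_left _ _ hC, cuspExp_con_level hγ₂ hmul h.ha, cuspExp_con_level hγ₂ hmul h.hb,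
    ← map_div₀, quot_eq h]

end Expansions

/-! ### the Atkin-Lehner involution on expansions -/

section Main

open Fermat.Agent.S24.OrbitsCuspAlt Fermat.Agent.S24.OrbitDefs Fermat.Agent.S24.RepAll
open Fermat.Agent.S34.GaussPairX0 (wq wq_alpha wq_beta)
open Fermat.Agent.S23.QRing (qx)


variable {q : ℕ} [hq : Fact q.Prime] {M : ℕ} [NeZero M] (hqM : ¬ q ∣ M) [NeZero q]

/-- the `ι`-expansion of a function of level `N` -/
def expC (N : ℕ) [NeZero N] : ↥(modularFunctionFieldBar N) →+* LaurentSeries ℂ :=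
  (repField N).subtype.comp (toRepField N ι)

theorem expC_apply (N : ℕ) [NeZero N] (f : ↥(modularFunctionFieldBar N)) :
    expC N f = coeffMap ι (f : LaurentSeries Kb) := rfl

/-- **the Atkin-Lehner involution is `z ↦ γ (q z)` on expansions**: the `q_{Mq}`-expansion of
`x ∘ γ` is the `ι`-expansion of `w_q x` in `t = q_{Mq}^M`. -/
theorem Lc_eq_wq {γ γ₂ : SL(2, ℤ)} (hγ : γ ∈ Gamma0 M) (hγ₂ : γ₂ ∈ Gamma0 M)
    (hmul : heckeDiagMatrix q * mapGL ℝ γ = mapGL ℝ γ₂ * heckeMatrix q 0)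
    (x : ↥(modularFunctionFieldBar (M * q))) :
    Lc (M * q) γ (toRepField (M * q) ι x) = qExpand ℂ M (expC (M * q) (wq hqM x)) := by
  have key : (Lc (M * q) γ).comp (toRepField (M * q) ι) =
      (qExpand ℂ M).comp ((expC (M * q)).comp
        ((wq hqM : ↥(modularFunctionFieldBar (M * q)) ≃ₐ[Kb] ↥(modularFunctionFieldBar (M * q))) :
          ↥(modularFunctionFieldBar (M * q)) →+* ↥(modularFunctionFieldBar (M * q)))) := by
    refine Fermat.Agent.S34.WqGalois.ringHom_ext_alpha_beta (N := M) hq.out _ _ ?_ ?_ ?_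
    · intro c
      show Lc (M * q) γ (toRepField (M * q) ι (algebraMap Kb _ c)) =
        qExpand ℂ M (expC (M * q) (wq hqM (algebraMap Kb _ c)))
      rw [toRepField_algebraMap, Lc_crep, AlgEquiv.commutes, expC_apply]
      show _ = qExpand ℂ M (coeffMap ι (algebraMap Kb (LaurentSeries Kb) c))
      rw [Fermat.Agent.S24.DegreeLowerFormal.coeffMap_algebraMap, algebraMap_eq_C, qExpand_C]
    · intro g
      obtain ⟨k, a, b, h⟩ := (toRepField M ι g).2
      show Lc (M * q) γ (toRepField (M * q) ι (heckeAlphaBar Kb M q g)) =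
        qExpand ℂ M (expC (M * q) (wq hqM (heckeAlphaBar Kb M q g)))
      rw [Lc_of_level hγ h _ (isRepOf_alpha M q ι g h), wq_alpha, expC_apply, coe_heckeBetaBar,
        coeffMap_qExpand, qExpand_qExpand, coe_toRepField]
    · intro g
      obtain ⟨k, a, b, h⟩ := (toRepField M ι g).2
      show Lc (M * q) γ (toRepField (M * q) ι (heckeBetaBar Kb M q g)) =
        qExpand ℂ M (expC (M * q) (wq hqM (heckeBetaBar Kb M q g)))
      rw [Lc_of_dil hγ₂ hmul h _ (isRepOf_beta M q ι g h), wq_beta, expC_apply, coe_heckeAlphaBar,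
        coe_toRepField]
  exact DFunLike.congr_fun key x

open Fermat.Agent.S34.ModularUnit Fermat.Agent.S24.LevelRaise in
/-- **(b)** `w_q u = q ^ 12 / u` for the modular unit `u = Δ(z) / Δ(q z)` -/
theorem wq_uBar :
    wq hqM (uBar (M * q) (Dvd.intro_left M rfl)) =
      (q : ↥(modularFunctionFieldBar (M * q))) ^ 12 * (uBar (M * q) (Dvd.intro_left M rfl))⁻¹ := by
  obtain ⟨γ, γ₂, hγ, hγ₂, hmul⟩ := exists_gamma hq.out hqM
  set u : ↥(modularFunctionFieldBar (M * q)) := uBar (M * q) (Dvd.intro_left M rfl) with hu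
  have h1 := Lc_eq_wq hqM hγ hγ₂ hmul u
  -- the expansion of `u`
  set uC : LaurentSeries ℂ := coeffEmb ℂ (modularUnitSeries q) with huC
  set D : LaurentSeries ℂ := ofPS (qx (⇑DeltaMF)) with hD
  have hRu : expC (M * q) u = uC := by
    rw [expC_apply, hu, coe_uBar]
    exact Fermat.Agent.S24.DegreeLowerFormal.coeffMap_coeffEmb ι _
  have hrep : IsRepOf (M * q) ((toRepField (M * q) ι u : repField (M * q)) : LaurentSeries ℂ) 12
      (⇑DeltaMF) (dil q (⇑DeltaMF)) := by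
    have h := isRepOf_unit M q
    have e : ((toRepField (M * q) ι u : repField (M * q)) : LaurentSeries ℂ) = uC := hRu
    rw [e]
    exact h
  have hrel : uC * qExpand ℂ q D = D := by
    have h := congrArg (coeffEmb ℂ) (modularUnitSeries_mul_deltaSeriesN q)
    rw [map_mul] at h
    have e : coeffEmb ℂ (deltaSeriesN q) = qExpand ℂ q (coeffEmb ℂ deltaSeries) := by
      show coeffMap (algebraMap ℚ ℂ) (qExpand ℚ q deltaSeries) = _
      rw [coeffMap_qExpand]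
      rfl
    rw [e, ← ofPS_qx_DeltaMF] at h
    exact h
  have hD0 : D ≠ 0 := by
    rw [hD, ofPS_qx_DeltaMF]
    exact (map_ne_zero _).mpr deltaSeries_ne_zero
  -- the left hand side
  have hqC : (q : ℂ) ≠ 0 := by exact_mod_cast NeZero.ne q
  have hΔ := isMF_Delta M
  have hL : Lc (M * q) γ (toRepField (M * q) ι u) =
      qExpand ℂ (M * q) D / (HahnSeries.C ((q : ℂ) ^ (12 : ℤ))⁻¹ * qExpand ℂ M D) := by
    show Lmap (cuspHolHom (M * q)) γ (slashP_cusp (M * q) γ) _ = _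
    rw [Lmap_eq_div (slashP_cusp (M * q) γ) _ hrep, slash_eq_of_mem hΔ hγ,
      dil_slash hΔ hγ₂ hmul]
    show cuspExp (M * q) (⇑DeltaMF) /
      cuspExp (M * q) (((q : ℂ) ^ (12 : ℤ))⁻¹ • con q (⇑DeltaMF)) = _
    rw [cuspExp_smul _ (isCuspHol_con hγ₂ hmul hΔ), cuspExp_con_level hγ₂ hmul hΔ,
      cuspExp_of_isMF _ hΔ]
  -- conclusion
  have hinj : Function.Injective ((qExpand ℂ M).comp (expC (M * q))) := RingHom.injective _
  apply hinj
  have hR : qExpand ℂ M (expC (M * q) ((q : ↥(modularFunctionFieldBar (M * q))) ^ 12 * u⁻¹)) =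
      (q : LaurentSeries ℂ) ^ 12 * (qExpand ℂ M uC)⁻¹ := by
    rw [map_mul, map_pow, map_natCast, map_inv₀, hRu, map_mul, map_pow, map_natCast, map_inv₀]
  rw [RingHom.comp_apply, RingHom.comp_apply, ← h1, hL, hR]
  have hrel' : qExpand ℂ M uC * qExpand ℂ (M * q) D = qExpand ℂ M D := by
    rw [← qExpand_qExpand, ← map_mul, hrel]
  have hX : qExpand ℂ (M * q) D ≠ 0 := (map_ne_zero _).mpr hD0
  have hY : qExpand ℂ M D ≠ 0 := (map_ne_zero _).mpr hD0
  have hU : qExpand ℂ M uC ≠ 0 := by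
    intro h0
    rw [h0, zero_mul] at hrel'
    exact hY hrel'.symm
  have hC : (HahnSeries.C ((q : ℂ) ^ (12 : ℤ))⁻¹ : LaurentSeries ℂ) =
      ((q : LaurentSeries ℂ) ^ 12)⁻¹ := by
    rw [map_inv₀, zpow_ofNat, map_pow, map_natCast]
  have hQ : (q : LaurentSeries ℂ) ^ 12 ≠ 0 := by
    rw [← map_natCast (HahnSeries.C : ℂ →+* LaurentSeries ℂ), ← map_pow]
    exact (map_ne_zero_iff _ HahnSeries.C_injective).mpr (pow_ne_zero _ hqC)
  rw [hC, ← hrel']
  field_simp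

end Main

end Analytic

/-! ## The second Gauss valuation of the modular unit -/

section Val2

variable {q : ℕ} [hq : Fact q.Prime] {M : ℕ} [NeZero M] {A : ValuationSubring Kb}
variable (hA : A.LiesOverPrime q) (hqM : ¬ q ∣ M) [NeZero q]

theorem valuation_eq_one_of_mem {K : Type*} [Field K] (V : ValuationSubring K) {x : K}
    (hx0 : x ≠ 0) (hx : x ∈ V) (hx' : x⁻¹ ∈ V) : V.valuation x = 1 := by
  have h1 : V.valuation x ≤ 1 := (V.valuation_le_one_iff x).mpr hx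
  have h2 : V.valuation x⁻¹ ≤ 1 := (V.valuation_le_one_iff x⁻¹).mpr hx'
  rw [map_inv₀] at h2
  have hpos : 0 < V.valuation x := zero_lt_iff.mpr ((Valuation.ne_zero_iff _).mpr hx0)
  exact le_antisymm h1 ((inv_le_one₀ hpos).mp h2)

theorem uE_ne_zero : uE M q ≠ 0 := uBar_ne_zero _ _

/-- `w_q (u / q^12) = u⁻¹` -/
theorem wq_uE_div :
    wq hqM (uE M q / (q : ↥(modularFunctionFieldBar (M * q))) ^ 12) = (uE M q)⁻¹ := by
  have hq0 : (q : ↥(modularFunctionFieldBar (M * q))) ^ 12 ≠ 0 :=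
    pow_ne_zero _ (Nat.cast_ne_zero.mpr hq.out.ne_zero)
  rw [map_div₀, map_pow, map_natCast, wq_uBar hqM, mul_div_cancel_left₀ _ hq0]

/-- **(b)** `u / q^12` is a unit of the second Gauss ring `V₂ = w_q⁻¹ V₁`. -/
theorem valuation_V₂_uE_div :
    (V₂ hA hqM).valuation (uE M q / (q : ↥(modularFunctionFieldBar (M * q))) ^ 12) = 1 := by
  obtain ⟨U, hU, hU1⟩ := exists_unitZ q
  obtain ⟨hu, hunit, -⟩ := exists_isUnit_uE_V₁ hA hqM hU hU1
  have hv1 : (V₁ hA hqM).valuation (uE M q) = 1 :=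
    (ValuationSubring.valuation_eq_one_iff _ ⟨_, hu⟩).mp hunit
  have hinv : (uE M q)⁻¹ ∈ V₁ hA hqM := by
    rw [← ValuationSubring.valuation_le_one_iff, map_inv₀, hv1, inv_one]
  have hq0 : (q : ↥(modularFunctionFieldBar (M * q))) ^ 12 ≠ 0 :=
    pow_ne_zero _ (Nat.cast_ne_zero.mpr hq.out.ne_zero)
  refine valuation_eq_one_of_mem _ (div_ne_zero uE_ne_zero hq0) ?_ ?_
  · rw [mem_V₂_iff, wq_uE_div hqM]
    exact hinv
  · rw [mem_V₂_iff, map_inv₀, wq_uE_div hqM, inv_inv]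
    exact hu

/-- **(b)** `u / q^12` has valuation `1` at the second Gauss valuation of `ℚ̄(X₀(M q))`. -/
theorem valuation_V2X0_uE_div :
    (Fermat.Agent.S34.Z1X0.V2X0 hA hqM).valuation
      (uE M q / (q : ↥(modularFunctionFieldBar (M * q))) ^ 12) = 1 := by
  rw [Fermat.Agent.S34.GaussPairBridge.V2X0_eq]
  exact valuation_V₂_uE_div hA hqM

/-- **(b)** the second Gauss valuation of the modular unit is that of `q ^ 12`. -/
theorem valuation_V2X0_uE :
    (Fermat.Agent.S34.Z1X0.V2X0 hA hqM).valuation (uE M q) =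
      (Fermat.Agent.S34.Z1X0.V2X0 hA hqM).valuation
        (q : ↥(modularFunctionFieldBar (M * q))) ^ 12 := by
  have hq0 : (q : ↥(modularFunctionFieldBar (M * q))) ^ 12 ≠ 0 :=
    pow_ne_zero _ (Nat.cast_ne_zero.mpr hq.out.ne_zero)
  have h := valuation_V2X0_uE_div hA hqM
  rw [map_div₀, map_pow] at h
  have hne : (Fermat.Agent.S34.Z1X0.V2X0 hA hqM).valuation
      (q : ↥(modularFunctionFieldBar (M * q))) ^ 12 ≠ 0 := by
    rw [← map_pow]
    exact (Valuation.ne_zero_iff _).mpr hq0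
  rw [div_eq_one_iff_eq hne] at h
  exact h

/-! ### the full modular unit `Δ(z)/Δ(M q z)` (cuspidal divisor: `S15/G/UnitDiv`) -/

theorem modularUnitSeries_congr {a b : ℕ} [NeZero a] [NeZero b] (h : a = b) :
    modularUnitSeries a = modularUnitSeries b := by
  subst h
  rfl

/-- `Δ(z)/Δ(M q z) = (Δ(z)/Δ(q z)) · β (Δ(z)/Δ(M z))` -/
theorem uBar_full_eq :
    uBar (M * q) (dvd_refl (M * q)) = uE M q * heckeBetaBar Kb M q (uBar M (dvd_refl M)) := by
  apply Subtype.ext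
  haveI : NeZero (q * M) := ⟨Nat.mul_ne_zero (NeZero.ne q) (NeZero.ne M)⟩
  rw [MulMemClass.coe_mul, coe_uBar, coe_uBar, coe_heckeBetaBar, coe_uBar,
    modularUnitSeries_congr (Nat.mul_comm M q), modularUnitSeries_mul q M, map_mul, coeffEmb,
    coeffMap_qExpand]

/-- `α (Δ(z)/Δ(M z))` is the modular unit `Δ(z)/Δ(M z)` of level `M q` -/
theorem alpha_uBar :
    heckeAlphaBar Kb M q (uBar M (dvd_refl M)) = uBar (M * q) (Dvd.intro q rfl) := by
  apply Subtype.ext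
  rw [coe_heckeAlphaBar, coe_uBar, coe_uBar]

/-- `w_q (Δ(z)/Δ(M q z) / q^12) = (Δ(z)/Δ(q z))⁻¹ · (Δ(z)/Δ(M z))` -/
theorem wq_uBar_full_div :
    wq hqM (uBar (M * q) (dvd_refl (M * q)) / (q : ↥(modularFunctionFieldBar (M * q))) ^ 12) =
      (uE M q)⁻¹ * uBar (M * q) (Dvd.intro q rfl) := by
  rw [uBar_full_eq, mul_div_right_comm, map_mul, wq_uE_div hqM, wq_beta, alpha_uBar]

/-- **(b)** `Δ(z)/Δ(M q z) / q^12` is a unit of the second Gauss ring `V₂`. -/
theorem valuation_V₂_uBar_full_div :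
    (V₂ hA hqM).valuation
      (uBar (M * q) (dvd_refl (M * q)) / (q : ↥(modularFunctionFieldBar (M * q))) ^ 12) = 1 := by
  obtain ⟨h1, h1'⟩ := uBar_mem_V₁ hA hqM (Dvd.intro_left M rfl : q ∣ M * q)
  obtain ⟨h2, h2'⟩ := uBar_mem_V₁ hA hqM (Dvd.intro q rfl : M ∣ M * q)
  have hq0 : (q : ↥(modularFunctionFieldBar (M * q))) ^ 12 ≠ 0 :=
    pow_ne_zero _ (Nat.cast_ne_zero.mpr hq.out.ne_zero)
  refine valuation_eq_one_of_mem _ (div_ne_zero (uBar_ne_zero _ _) hq0) ?_ ?_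
  · rw [mem_V₂_iff, wq_uBar_full_div hqM]
    exact mul_mem h1' h2
  · rw [mem_V₂_iff, map_inv₀, wq_uBar_full_div hqM, mul_inv, inv_inv]
    exact mul_mem h1 h2'

/-- **(b)** `Δ(z)/Δ(M q z) / q^12` has valuation `1` at the second Gauss valuation. -/
theorem valuation_V2X0_uBar_full_div :
    (Fermat.Agent.S34.Z1X0.V2X0 hA hqM).valuation
      (uBar (M * q) (dvd_refl (M * q)) / (q : ↥(modularFunctionFieldBar (M * q))) ^ 12) = 1 := by
  rw [Fermat.Agent.S34.GaussPairBridge.V2X0_eq]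
  exact valuation_V₂_uBar_full_div hA hqM

/-- **(b)** the second Gauss valuation of `Δ(z)/Δ(M q z)` is that of `q ^ 12`. -/
theorem valuation_V2X0_uBar_full :
    (Fermat.Agent.S34.Z1X0.V2X0 hA hqM).valuation (uBar (M * q) (dvd_refl (M * q))) =
      (Fermat.Agent.S34.Z1X0.V2X0 hA hqM).valuation
        (q : ↥(modularFunctionFieldBar (M * q))) ^ 12 := by
  have hq0 : (q : ↥(modularFunctionFieldBar (M * q))) ^ 12 ≠ 0 :=
    pow_ne_zero _ (Nat.cast_ne_zero.mpr hq.out.ne_zero)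
  have h := valuation_V2X0_uBar_full_div hA hqM
  rw [map_div₀, map_pow] at h
  have hne : (Fermat.Agent.S34.Z1X0.V2X0 hA hqM).valuation
      (q : ↥(modularFunctionFieldBar (M * q))) ^ 12 ≠ 0 := by
    rw [← map_pow]
    exact (Valuation.ne_zero_iff _).mpr hq0
  rw [div_eq_one_iff_eq hne] at h
  exact h

end Val2

end Fermat.Agent.S44.Eis.UnitVal
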