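/-
PROJECT P (S44), brick [EIS] (helper22): THE SLOPE OF THE MODULAR UNIT AT THE NODES OF `X₀(M p)`.

`E = ℚ̄(X₀(M p))`, `F` a chart frame with its local node hypotheses `Y : NodeHyp F`, and per node `e`
a coordinate `ξ e` (a unit of the first Gauss ring whose first reduction has a simple zero at
`e1 e`, without zero or pole on the tube of `e`, of second Gauss valuation `|p| ^ w e`).

* `tubeRing Y e`, `nodeZero F e` : the subring `S` and the set `q` of `S44/Core/Slope`;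
* `mem_nodeZero_of_nonunits` : the weak gluing `hG` of `S44/Core/Slope`, from `NodeHyp.glue_node`;
* `mul_ord_eq_of_tubeUnit` : **the slope of a tube unit**: for a unit `h` of the first Gauss ring
  without zero or pole on the tube of `e` and of second Gauss valuation `|p| ^ m`,
  `w e * ord_{e1 e} (red₁ h) = m`;
* `mul_ord_U` : `w e * ord_{e1 e} (red₁ U) = 12` for the modular unit `U = Δ(z)/Δ(M p z)`;
* `mul_ord_hecke_U` : `w e * (T_r (div (red₁ U))) (e1 e) = 12 (r + 1)`.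
-/
import Fermat.Agent.S44.Core.FrameHyp
import Fermat.Agent.S44.Core.NodeOrd
import Fermat.Agent.S44.Core.Slope
import Fermat.Agent.S44.Eis.UnitVal
import Fermat.Agent.S44.Eis.HeckeWq
import Fermat.Agent.S44.Eis.HeckeCusp
import Fermat.Agent.S15.G.UnitDiv

set_option autoImplicit false
set_option linter.unusedSectionVars false
set_option linter.unusedVariables false
set_option linter.style.haveILetI false
set_option synthInstance.maxHeartbeats 400000

noncomputable section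

namespace Fermat.Agent.S44.Eis.UnitSlope

open ModularCurve AlgebraicCurve IsLocalRing
open Fermat.Agent.S34.NodalDefs Fermat.Agent.S34.CoreZX0Datum
open Fermat.Agent.S33.X0.Frame
open Fermat.Agent.S44.Core.FrameHyp Fermat.Agent.S44.Core.NodeOrd

local notation "Qbar" => AlgebraicClosure ℚ

attribute [local instance 2000] Fermat.Agent.S34.EulerX0.algResFk

/-- local instance: principal divisors on `E` -/
local instance instPDBar (N : ℕ) [NeZero N] :
    HasPrincipalDivisors Qbar ↥(modularFunctionFieldBar N) :=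
  Fermat.Agent.S18.A.Instances.hasPrincipalDivisors_bar N

/-- local instance: principal divisors on the components -/
local instance instPDFk (A : ValuationSubring Qbar) (N : ℕ) [NeZero N] :
    HasPrincipalDivisors (ResidueField ↥A) ↥(modularFunctionFieldFullC (ResidueField ↥A) N) :=
  Fermat.Agent.S37.ReductionInputs.hasPrincipalDivisors_Fk A N

/-- local instance: the residue field is algebraically closed -/
local instance instACk (A : ValuationSubring Qbar) : IsAlgClosed (ResidueField ↥A) :=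
  Fermat.Agent.S18.ResidueBasics.isAlgClosed_residueField A

/-! ### Abstract part: integer powers of Gauss units, constants of `𝔪_A` -/

section Abstract

variable {L : Type*} [Field L] {FL : Type*} [Field FL] [Algebra L FL]
variable {k : Type*} [Field k] {Fk : Type*} [Field Fk] [Algebra k Fk]
variable {A' : ValuationSubring L} {π : A' →+* k}

/-- the coercion of an integer power of a Gauss unit -/
theorem coe_zpow_unit (R : Branch A' π FL Fk) (v : R.Oˣ) (n : ℤ) :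
    (((v ^ n : R.Oˣ) : R.O) : FL) = ((v : R.O) : FL) ^ n := by
  cases n with
  | ofNat n =>
    rw [Int.ofNat_eq_natCast, zpow_natCast, zpow_natCast, Units.val_pow_eq_pow_val,
      SubmonoidClass.coe_pow]
  | negSucc n =>
    rw [zpow_negSucc, zpow_negSucc, Fermat.Agent.S34.NodalDisc.coe_inv_unit,
      Units.val_pow_eq_pow_val, SubmonoidClass.coe_pow]

/-- the reduction of an integer power of a Gauss unit -/
theorem red_zpow_unit (R : Branch A' π FL Fk) (v : R.Oˣ) (n : ℤ) :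
    R.red ((v ^ n : R.Oˣ) : R.O) = R.red (v : R.O) ^ n := by
  cases n with
  | ofNat n =>
    rw [Int.ofNat_eq_natCast, zpow_natCast, zpow_natCast, Units.val_pow_eq_pow_val, map_pow]
  | negSucc n =>
    rw [zpow_negSucc, zpow_negSucc, Fermat.Agent.S34.NodalDisc.red_inv_unit,
      Units.val_pow_eq_pow_val, map_pow]

/-- the quotient of a Gauss unit by an integer power of a Gauss unit -/
theorem exists_div_zpow_unit (R : Branch A' π FL Fk) (h v : R.Oˣ) (n : ℤ) :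
    ∃ g : R.Oˣ, (((g : R.O)) : FL) = ((h : R.O) : FL) / ((v : R.O) : FL) ^ n ∧
      R.red (g : R.O) = R.red (h : R.O) * (R.red (v : R.O) ^ n)⁻¹ := by
  refine ⟨h * (v ^ n)⁻¹, ?_, ?_⟩
  · rw [Units.val_mul, MulMemClass.coe_mul, Fermat.Agent.S34.NodalDisc.coe_inv_unit,
      coe_zpow_unit, div_eq_mul_inv]
  · rw [Units.val_mul, map_mul, Fermat.Agent.S34.NodalDisc.red_inv_unit, red_zpow_unit]

/-- a natural number which is a non-unit of `A` is a non-unit of the Gauss ring -/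
theorem natCast_mem_nonunits (R : Branch A' π FL Fk) {n : ℕ} (hn : (n : L) ∈ A'.nonunits) :
    (n : FL) ∈ R.O.nonunits := by
  have ha : ((n : ℕ) : A') ∈ IsLocalRing.maximalIdeal A' := by
    rw [← ValuationSubring.coe_mem_nonunits_iff]
    exact_mod_cast hn
  have hπ : π ((n : ℕ) : A') = 0 := (Fermat.Agent.S34.NodalDisc.pi_eq_zero_iff R _).mpr ha
  have hred : R.red (Fermat.Agent.S34.NodalDisc.constHom R ((n : ℕ) : A')) = 0 := by
    rw [Fermat.Agent.S34.NodalDisc.red_constHom, hπ, map_zero]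
  have hnu : ¬ IsUnit (Fermat.Agent.S34.NodalDisc.constHom R ((n : ℕ) : A')) :=
    (R.red_eq_zero_iff _).mp hred
  have hmem : Fermat.Agent.S34.NodalDisc.constHom R ((n : ℕ) : A') ∈
      IsLocalRing.maximalIdeal R.O := hnu
  have h1 := (ValuationSubring.coe_mem_nonunits_iff (A := R.O)).mpr hmem
  have h2 : ((Fermat.Agent.S34.NodalDisc.constHom R ((n : ℕ) : A') : R.O) : FL) = (n : FL) := by
    rw [map_natCast]
    rfl
  rw [h2] at h1
  exact h1

end Abstract

variable {p : ℕ} [hp : Fact p.Prime] {M : ℕ} [NeZero M] {A : ValuationSubring Qbar} [NeZero p]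
variable {hA : A.LiesOverPrime p} {hpM : ¬ p ∣ M}

local instance instNeZeroMul : NeZero (M * p) :=
  ⟨Nat.mul_ne_zero (NeZero.ne M) (NeZero.ne p)⟩

variable {F : ChartFrame hA hpM}

/-! ### the ring `S` and the set `q` of the slope lemma -/

/-- the functions integral at the first Gauss valuation and regular on the tube of the node `e` -/
def tubeRing (Y : NodeHyp F) (e : Node F) : Subring ↥(modularFunctionFieldBar (M * p)) where
  carrier := {f | f ∈ F.X.N.R1.O ∧ ∀ P ∈ Y.tube e, f ∈ P.toValuationSubring}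
  mul_mem' := fun {a b} ha hb => ⟨mul_mem ha.1 hb.1, fun P hP => mul_mem (ha.2 P hP) (hb.2 P hP)⟩
  one_mem' := ⟨one_mem _, fun P _ => one_mem _⟩
  add_mem' := fun {a b} ha hb => ⟨add_mem ha.1 hb.1, fun P hP => add_mem (ha.2 P hP) (hb.2 P hP)⟩
  zero_mem' := ⟨zero_mem _, fun P _ => zero_mem _⟩
  neg_mem' := fun {a} ha => ⟨neg_mem ha.1, fun P hP => neg_mem (ha.2 P hP)⟩

theorem mem_tubeRing {Y : NodeHyp F} {e : Node F} {f : ↥(modularFunctionFieldBar (M * p))} :
    f ∈ tubeRing Y e ↔ f ∈ F.X.N.R1.O ∧ ∀ P ∈ Y.tube e, f ∈ P.toValuationSubring := Iff.rfl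

/-- the functions whose first reduction vanishes at the node `e1 e` -/
def nodeZero (F : ChartFrame hA hpM) (e : Node F) : Set ↥(modularFunctionFieldBar (M * p)) :=
  {f | ∃ h : f ∈ F.X.N.R1.O, F.X.N.R1.red ⟨f, h⟩ = 0 ∨ 0 < (F.X.N.e1 e).ord (F.X.N.R1.red ⟨f, h⟩)}

/-- a function regular at a place has no pole there -/
theorem not_ord_neg_of_mem {K E' : Type*} [Field K] [Field E'] [Algebra K E'] (P : Place K E')
    {f : E'} (hf : f ∈ P.toValuationSubring) : ¬ P.ord f < 0 := by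
  rcases eq_or_ne f 0 with rfl | hf0
  · rw [Place.ord_zero]
    exact lt_irrefl 0
  · exact not_lt.mpr ((Fermat.Agent.S24.Ord.ord_nonneg_iff P hf0).mpr
      ((Fermat.Agent.S24.Ord.mem_iff P f).mp hf))

/-- **the weak gluing**: a function of `S` which is a non-unit of the second Gauss ring has a first
reduction which vanishes at the node -/
theorem mem_nodeZero_of_nonunits (Y : NodeHyp F) (e : Node F)
    (f : ↥(modularFunctionFieldBar (M * p))) (hf : f ∈ tubeRing Y e)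
    (hf2 : f ∈ F.X.N.R2.O.nonunits) : f ∈ nodeZero F e := by
  obtain ⟨hf1, hft⟩ := mem_tubeRing.mp hf
  obtain ⟨h2, hred2⟩ := red_eq_zero_of_mem_nonunits F.X.N.R2.toBranch hf2
  obtain ⟨γ, hγ1, hγ2⟩ := Y.glue_node ⟨f, hf1⟩ ⟨f, h2⟩ rfl e
    (fun P hP hPt => not_ord_neg_of_mem P (hft P hPt) hP)
  rw [hred2] at hγ2
  have hγ0 : γ = 0 := by
    by_contra hne
    rcases hγ2 with h | h
    · exact hne ((map_eq_zero_iff _ (algebraMap _ _).injective).mp h.symm)
    · rw [zero_sub, ← map_neg, Fermat.Agent.S24.Ord.ord_algebraMap] at h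
      exact lt_irrefl 0 h
  subst hγ0
  refine ⟨hf1, ?_⟩
  rcases hγ1 with h | h
  · left
    rw [h, map_zero]
  · right
    rw [map_zero, sub_zero] at h
    exact h

/-! ### units of the tube which are units at the node -/

/-- the order at a place where the function and its inverse are regular -/
theorem mem_of_ord_eq_zero {K E' : Type*} [Field K] [Field E'] [Algebra K E'] (P : Place K E')
    {f : E'} (hf : P.ord f = 0) : f ∈ P.toValuationSubring := by
  rcases eq_or_ne f 0 with rfl | hf0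
  · exact zero_mem _
  · exact (Fermat.Agent.S24.Ord.mem_iff P f).mpr
      ((Fermat.Agent.S24.Ord.ord_nonneg_iff P hf0).mp hf.ge)

/-- a unit `g` of the first Gauss ring without zero or pole on the tube of `e`, whose first
reduction has order `0` at `e1 e`: the four membership facts of the slope lemma -/
theorem tubeUnit_facts (Y : NodeHyp F) (e : Node F) (g : (F.X.N.R1.O)ˣ)
    (hgt : ∀ P ∈ Y.tube e, P.ord (((g : F.X.N.R1.O)) : ↥(modularFunctionFieldBar (M * p))) = 0)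
    (hg0 : (F.X.N.e1 e).ord (F.X.N.R1.red (g : F.X.N.R1.O)) = 0) :
    (((g : F.X.N.R1.O)) : ↥(modularFunctionFieldBar (M * p))) ∈ tubeRing Y e ∧
      (((g : F.X.N.R1.O)) : ↥(modularFunctionFieldBar (M * p)))⁻¹ ∈ tubeRing Y e ∧
      (((g : F.X.N.R1.O)) : ↥(modularFunctionFieldBar (M * p))) ∉ nodeZero F e ∧
      (((g : F.X.N.R1.O)) : ↥(modularFunctionFieldBar (M * p)))⁻¹ ∉ nodeZero F e := by
  have hinv := Fermat.Agent.S34.NodalDisc.coe_inv_unit F.X.N.R1.toBranch g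
  refine ⟨⟨(g : F.X.N.R1.O).2, fun P hP => mem_of_ord_eq_zero P (hgt P hP)⟩,
    ⟨?_, fun P hP => mem_of_ord_eq_zero P ?_⟩, ?_, ?_⟩
  · rw [← hinv]
    exact ((g⁻¹ : (F.X.N.R1.O)ˣ) : F.X.N.R1.O).2
  · rw [Place.ord_inv, hgt P hP, neg_zero]
  · rintro ⟨h, h0 | h0⟩
    · exact Fermat.Agent.S34.NodalDisc.red_unit_ne_zero F.X.N.R1.toBranch g h0
    · have : (⟨_, h⟩ : F.X.N.R1.O) = (g : F.X.N.R1.O) := rfl
      rw [this, hg0] at h0
      exact lt_irrefl 0 h0
  · rintro ⟨h, h0 | h0⟩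
    · have e1 : (⟨_, h⟩ : F.X.N.R1.O) = ((g⁻¹ : (F.X.N.R1.O)ˣ) : F.X.N.R1.O) :=
        Subtype.ext hinv.symm
      rw [e1] at h0
      exact Fermat.Agent.S34.NodalDisc.red_unit_ne_zero F.X.N.R1.toBranch g⁻¹ h0
    · have e1 : (⟨_, h⟩ : F.X.N.R1.O) = ((g⁻¹ : (F.X.N.R1.O)ˣ) : F.X.N.R1.O) :=
        Subtype.ext hinv.symm
      rw [e1, Fermat.Agent.S34.NodalDisc.red_inv_unit, Place.ord_inv, hg0, neg_zero] at h0
      exact lt_irrefl 0 h0

set_option maxHeartbeats 1600000 in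
/-- **The slope of a tube unit.**  `ξ` a coordinate of the node `e` (a function of the first Gauss
ring whose first reduction has a simple zero at `e1 e`, without zero or pole on the tube of `e`,
of second Gauss valuation `|p| ^ w`), `h` a unit of the first Gauss ring without zero or pole on
the tube of `e` and of second Gauss valuation `|p| ^ m`.  Then `w * ord_{e1 e} (red₁ h) = m`. -/
theorem mul_ord_eq_of_tubeUnit (Y : NodeHyp F) (e : Node F)
    {ξ : ↥(modularFunctionFieldBar (M * p))} {w : ℕ}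
    (hξ1 : ∃ h : ξ ∈ F.X.N.R1.O, (F.X.N.e1 e).ord (F.X.N.R1.red ⟨ξ, h⟩) = 1)
    (hξt : ∀ P ∈ Y.tube e, P.ord ξ = 0)
    (hξ2 : F.X.N.R2.O.valuation ξ =
      F.X.N.R2.O.valuation ((p : ↥(modularFunctionFieldBar (M * p))) ^ w))
    (h : (F.X.N.R1.O)ˣ)
    (ht : ∀ P ∈ Y.tube e, P.ord (((h : F.X.N.R1.O)) : ↥(modularFunctionFieldBar (M * p))) = 0)
    {m : ℕ}
    (h2 : F.X.N.R2.O.valuation (((h : F.X.N.R1.O)) : ↥(modularFunctionFieldBar (M * p))) =
      F.X.N.R2.O.valuation (p : ↥(modularFunctionFieldBar (M * p))) ^ m) :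
    (w : ℤ) * (F.X.N.e1 e).ord (F.X.N.R1.red (h : F.X.N.R1.O)) = m := by
  obtain ⟨hξmem, hξord⟩ := hξ1
  -- `ξ` is a unit of the first Gauss ring
  have hξred : F.X.N.R1.red ⟨ξ, hξmem⟩ ≠ 0 := by
    intro h0
    rw [h0, Place.ord_zero] at hξord
    exact zero_ne_one hξord
  obtain ⟨ξu, hξu⟩ : ∃ ξu : (F.X.N.R1.O)ˣ, (ξu : F.X.N.R1.O) = ⟨ξ, hξmem⟩ :=
    ⟨Fermat.Agent.S34.NodalDisc.unitOfRed F.X.N.R1.toBranch ⟨ξ, hξmem⟩ hξred,
      Fermat.Agent.S34.NodalDisc.coe_unitOfRed _ _ _⟩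
  have hξcoe : (((ξu : F.X.N.R1.O)) : ↥(modularFunctionFieldBar (M * p))) = ξ := by rw [hξu]
  have hξ0 : ξ ≠ 0 := hξcoe ▸ Fermat.Agent.S34.NodalDisc.coe_unit_ne_zero F.X.N.R1.toBranch ξu
  have hh0 := Fermat.Agent.S34.NodalDisc.coe_unit_ne_zero F.X.N.R1.toBranch h
  -- the exponent and the quotient
  obtain ⟨n, hn⟩ : ∃ n : ℤ, n = (F.X.N.e1 e).ord (F.X.N.R1.red (h : F.X.N.R1.O)) := ⟨_, rfl⟩
  obtain ⟨g, hgcoe, hgred⟩ := exists_div_zpow_unit F.X.N.R1.toBranch h ξu n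
  rw [hξcoe] at hgcoe
  rw [hξu] at hgred
  have hgt : ∀ P ∈ Y.tube e,
      P.ord (((g : F.X.N.R1.O)) : ↥(modularFunctionFieldBar (M * p))) = 0 := by
    intro P hP
    rw [hgcoe, div_eq_mul_inv, P.ord_mul hh0 (inv_ne_zero (zpow_ne_zero n hξ0)), P.ord_inv,
      Place.ord_zpow, ht P hP, hξt P hP, mul_zero, neg_zero, add_zero]
  have hhred : F.X.N.R1.red (h : F.X.N.R1.O) ≠ 0 :=
    Fermat.Agent.S34.NodalDisc.red_unit_ne_zero F.X.N.R1.toBranch h
  have hξn : (F.X.N.R1.red ⟨ξ, hξmem⟩ ^ n)⁻¹ ≠ 0 := inv_ne_zero (zpow_ne_zero n hξred)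
  have hg0 : (F.X.N.e1 e).ord (F.X.N.R1.red (g : F.X.N.R1.O)) = 0 := by
    have e1 := (F.X.N.e1 e).ord_mul hhred hξn
    have e2 := (F.X.N.e1 e).ord_inv (F.X.N.R1.red ⟨ξ, hξmem⟩ ^ n)
    have e3 := (F.X.N.e1 e).ord_zpow (F.X.N.R1.red ⟨ξ, hξmem⟩) n
    rw [hgred, e1, e2, e3, hξord, ← hn]
    ring
  obtain ⟨f1, f2, f3, f4⟩ := tubeUnit_facts Y e g hgt hg0
  rw [hgcoe] at f1 f2 f3 f4
  -- the prime `p`
  have hp0 : (p : ↥(modularFunctionFieldBar (M * p))) ≠ 0 := Nat.cast_ne_zero.mpr hp.out.ne_zero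
  have hpnon : (p : ↥(modularFunctionFieldBar (M * p))) ∈ F.X.N.R2.O.nonunits :=
    natCast_mem_nonunits F.X.N.R2.toBranch hA
  rw [← hn]
  exact Fermat.Agent.S44.Core.Slope.mul_eq_of_slope F.X.N.R2.O (tubeRing Y e) (nodeZero F e)
    (mem_nodeZero_of_nonunits Y e) hpnon hp0 hξ0 hξ2 h2 f1 f2 f3 f4

/-! ### the tube points have `j` integral -/

/-- **the places of the tube of a node are not cusps**: `j` is regular there -/
theorem jgen_mem_of_mem_tube (Y : NodeHyp F)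
    (hpole : ∀ P : Place Qbar ↥(modularFunctionFieldBar (M * p)),
      P.ord (Fermat.Agent.S24.DegreeAlg.jgen (M * p)) < 0 →
        (Y.sp1 P).ord (Fermat.Agent.S18.B.FkBasics.jk (ResidueField ↥A) M) < 0)
    (hnode : ∀ e : Node F,
      0 ≤ (F.X.N.e1 e).ord (Fermat.Agent.S18.B.FkBasics.jk (ResidueField ↥A) M))
    (e : Node F) {P : Place Qbar ↥(modularFunctionFieldBar (M * p))} (hP : P ∈ Y.tube e) :
    Fermat.Agent.S24.DegreeAlg.jgen (M * p) ∈ P.toValuationSubring := by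
  by_contra hj
  have hj0 : Fermat.Agent.S24.DegreeAlg.jgen (M * p) ≠ 0 := by
    rintro h0
    rw [h0] at hj
    exact hj (zero_mem _)
  have h1 : P.ord (Fermat.Agent.S24.DegreeAlg.jgen (M * p)) < 0 := by
    rw [Fermat.Agent.S24.Ord.ord_neg_iff P hj0]
    exact not_le.mp (fun hle => hj ((Fermat.Agent.S24.Ord.mem_iff P _).mpr hle))
  have h2 := hpole P h1
  rw [(Y.mem_tube_iff e P).mp hP] at h2
  exact absurd (hnode e) (not_le.mpr h2)

/-! ### the modular unit `U = Δ(z)/Δ(M p z)` -/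

/-- the modular unit of level `M p` with cuspidal divisor -/
abbrev U (M p : ℕ) [NeZero M] [NeZero p] : ↥(modularFunctionFieldBar (M * p)) :=
  Fermat.Agent.S34.ModularUnit.uBar (M * p) (dvd_refl (M * p))

/-- the modular unit is a unit of the first Gauss ring of the frame -/
theorem exists_unit_U (F : ChartFrame hA hpM) :
    ∃ U1 : (F.X.N.R1.O)ˣ,
      (((U1 : F.X.N.R1.O)) : ↥(modularFunctionFieldBar (M * p))) = U M p := by
  have hv := Fermat.Agent.S44.Eis.UnitVal.valuation_V1X0_uBar hA hpM (dvd_refl (M * p))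
  rw [← F.X.O1_eq] at hv
  have hmem : U M p ∈ F.X.N.R1.O := (ValuationSubring.valuation_le_one_iff _ _).mp hv.le
  have hunit : IsUnit (⟨U M p, hmem⟩ : F.X.N.R1.O) :=
    (ValuationSubring.valuation_eq_one_iff _ ⟨U M p, hmem⟩).mpr hv
  exact ⟨hunit.unit, by rw [IsUnit.unit_spec]⟩

/-- the modular unit, as a unit of the first Gauss ring of the frame -/
def unitU (F : ChartFrame hA hpM) : (F.X.N.R1.O)ˣ := Classical.choose (exists_unit_U F)

theorem coe_unitU (F : ChartFrame hA hpM) :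
    (((unitU F : F.X.N.R1.O)) : ↥(modularFunctionFieldBar (M * p))) = U M p :=
  Classical.choose_spec (exists_unit_U F)

/-- the second Gauss valuation of the modular unit -/
theorem valuation_R2_U (F : ChartFrame hA hpM) :
    F.X.N.R2.O.valuation (U M p) =
      F.X.N.R2.O.valuation (p : ↥(modularFunctionFieldBar (M * p))) ^ 12 := by
  rw [F.X.O2_eq]
  exact Fermat.Agent.S44.Eis.UnitVal.valuation_V2X0_uBar_full hA hpM

/-- **`w e * ord_{e1 e} (red₁ U) = 12`** -/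
theorem mul_ord_U (Y : NodeHyp F)
    (hpole : ∀ P : Place Qbar ↥(modularFunctionFieldBar (M * p)),
      P.ord (Fermat.Agent.S24.DegreeAlg.jgen (M * p)) < 0 →
        (Y.sp1 P).ord (Fermat.Agent.S18.B.FkBasics.jk (ResidueField ↥A) M) < 0)
    (hnode : ∀ e : Node F,
      0 ≤ (F.X.N.e1 e).ord (Fermat.Agent.S18.B.FkBasics.jk (ResidueField ↥A) M))
    (w : Node F → ℕ) (ξ : Node F → ↥(modularFunctionFieldBar (M * p)))
    (hξ1 : ∀ e, ∃ h : ξ e ∈ F.X.N.R1.O, (F.X.N.e1 e).ord (F.X.N.R1.red ⟨ξ e, h⟩) = 1)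
    (hξt : ∀ e, ∀ P ∈ Y.tube e, P.ord (ξ e) = 0)
    (hξ2 : ∀ e, F.X.N.R2.O.valuation (ξ e) =
      F.X.N.R2.O.valuation ((p : ↥(modularFunctionFieldBar (M * p))) ^ w e))
    (U1 : (F.X.N.R1.O)ˣ)
    (hU1 : (((U1 : F.X.N.R1.O)) : ↥(modularFunctionFieldBar (M * p))) = U M p) (e : Node F) :
    (w e : ℤ) * (F.X.N.e1 e).ord (F.X.N.R1.red (U1 : F.X.N.R1.O)) = 12 := by
  have h := mul_ord_eq_of_tubeUnit Y e (hξ1 e) (hξt e) (hξ2 e) U1 (fun P hP => by
    rw [hU1]
    exact Fermat.Agent.S15.G.UnitDiv.ord_uBar_of_jgen_mem (N := M * p) P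
      (jgen_mem_of_mem_tube Y hpole hnode e hP)) (m := 12) (by rw [hU1]; exact valuation_R2_U F)
  exact_mod_cast h

/-! ### `T_r` of a cuspidal divisor is cuspidal (characteristic zero, linear form) -/

/-- `T_r` of a divisor supported on the poles of `j` vanishes at the places where `j` is regular -/
theorem heckeDiv_apply_eq_zero_of_cuspidal (N r : ℕ) [NeZero N] [NeZero r] (hr : r.Prime)
    {D : Divisor Qbar ↥(modularFunctionFieldBar N)}
    (hD : ∀ P, D P ≠ 0 → P.ord (Fermat.Agent.S24.DegreeAlg.jgen N) < 0)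
    {P' : Place Qbar ↥(modularFunctionFieldBar N)}
    (hP' : 0 ≤ P'.ord (Fermat.Agent.S24.DegreeAlg.jgen N)) :
    Fermat.Agent.S37.Hecke.Principal.heckeDiv N r D P' = 0 := by
  classical
  have hsum : D = ∑ P ∈ D.support, Finsupp.single P (D P) := (Finsupp.sum_single D).symm
  have h1 : Fermat.Agent.S37.Hecke.Principal.heckeDiv N r D =
      ∑ P ∈ D.support, Fermat.Agent.S37.Hecke.Principal.heckeDiv N r (Finsupp.single P (D P)) := by
    conv_lhs => rw [hsum]
    rw [map_sum]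
  rw [h1, Finsupp.finsetSum_apply]
  refine Finset.sum_eq_zero fun P hP => ?_
  have h2 : Finsupp.single P (D P) = (D P) • Finsupp.single P (1 : ℤ) := by
    rw [Finsupp.smul_single, smul_eq_mul, mul_one]
  rw [h2, map_zsmul, Finsupp.smul_apply, smul_eq_mul]
  by_contra hne
  have h3 : Fermat.Agent.S37.Hecke.Principal.heckeDiv N r (Finsupp.single P 1) P' ≠ 0 :=
    fun h0 => hne (by rw [h0, mul_zero])
  have := Fermat.Agent.S44.Eis.HeckeCusp.ord_jgen_neg_of_heckeDiv N r hr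
    (hD P (Finsupp.mem_support_iff.mp hP)) h3
  exact absurd hP' (not_le.mpr this)

/-- `T_r` of the modular unit has neither zero nor pole where `j` is regular -/
theorem ord_normBeta_U_of_jgen_mem {r : ℕ} [NeZero r] (hr : r.Prime)
    (P : Place Qbar ↥(modularFunctionFieldBar (M * p)))
    (hj : Fermat.Agent.S24.DegreeAlg.jgen (M * p) ∈ P.toValuationSubring) :
    P.ord (Fermat.Agent.S37.ES.NormRed.normBeta (M * p) r (U M p)) = 0 := by
  have hU0 : U M p ≠ 0 := Fermat.Agent.S34.ModularUnit.uBar_ne_zero _ _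
  obtain ⟨D, hD, -⟩ := HasPrincipalDivisors.exists_divisor (K := Qbar) (U M p) hU0
  rw [← Fermat.Agent.S37.Hecke.Principal.heckeDiv_principal (M * p) r hU0 hD P]
  have hj0 : Fermat.Agent.S24.DegreeAlg.jgen (M * p) ≠ 0 :=
    (Fermat.Agent.S18.A.Instances.isFF_jgen (M * p)).ne_zero
  refine heckeDiv_apply_eq_zero_of_cuspidal (M * p) r hr (fun P0 hP0 => ?_)
    ((Fermat.Agent.S24.Ord.ord_nonneg_iff P hj0).mpr ((Fermat.Agent.S24.Ord.mem_iff P _).mp hj))
  by_contra hcon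
  apply hP0
  rw [hD P0]
  refine Fermat.Agent.S15.G.UnitDiv.ord_uBar_of_jgen_mem (N := M * p) P0 ?_
  exact (Fermat.Agent.S24.Ord.mem_iff P0 _).mpr
    ((Fermat.Agent.S24.Ord.ord_nonneg_iff P0 hj0).mp (not_lt.mp hcon))

/-- the second Gauss valuation of `T_r U` -/
theorem valuation_R2_normBeta_U (F : ChartFrame hA hpM) {r : ℕ} [NeZero r] (hr : r.Prime)
    (hrp : r ≠ p) (hrM : ¬ r ∣ M) :
    F.X.N.R2.O.valuation (Fermat.Agent.S37.ES.NormRed.normBeta (M * p) r (U M p)) =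
      F.X.N.R2.O.valuation (p : ↥(modularFunctionFieldBar (M * p))) ^ (12 * (r + 1)) := by
  rw [F.X.O2_eq, Fermat.Agent.S34.GaussPairBridge.V2X0_eq]
  have e : algebraMap Qbar ↥(modularFunctionFieldBar (M * p)) ((p : Qbar) ^ 12) =
      (p : ↥(modularFunctionFieldBar (M * p))) ^ 12 := by rw [map_pow, map_natCast]
  have hv := Fermat.Agent.S44.Eis.UnitVal.valuation_V₂_uBar_full_div hA hpM
  rw [← e] at hv
  have h1 := Fermat.Agent.S44.Eis.HeckeWq.valuation_V₂_normBeta_div hA hpM hr hrp hrM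
    ((p : Qbar) ^ 12) hv
  rw [e, map_div₀] at h1
  have hp0 : (p : ↥(modularFunctionFieldBar (M * p))) ≠ 0 := Nat.cast_ne_zero.mpr hp.out.ne_zero
  have hne : (Fermat.Agent.S34.GaussPairX0.V₂ hA hpM).valuation
      (((p : ↥(modularFunctionFieldBar (M * p))) ^ 12) ^ (r + 1)) ≠ 0 :=
    (Valuation.ne_zero_iff _).mpr (pow_ne_zero _ (pow_ne_zero _ hp0))
  rw [div_eq_one_iff_eq hne] at h1
  rw [h1, ← pow_mul, map_pow]

set_option maxHeartbeats 1600000 in
/-- **`w e * (T_r (div (red₁ U))) (e1 e) = 12 (r + 1)`** -/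
theorem mul_ord_hecke_U (Y : NodeHyp F) (hstd : Fermat.Agent.S44.Eis.HeckeNode.RedStd F)
    (hpole : ∀ P : Place Qbar ↥(modularFunctionFieldBar (M * p)),
      P.ord (Fermat.Agent.S24.DegreeAlg.jgen (M * p)) < 0 →
        (Y.sp1 P).ord (Fermat.Agent.S18.B.FkBasics.jk (ResidueField ↥A) M) < 0)
    (hnode : ∀ e : Node F,
      0 ≤ (F.X.N.e1 e).ord (Fermat.Agent.S18.B.FkBasics.jk (ResidueField ↥A) M))
    (w : Node F → ℕ) (ξ : Node F → ↥(modularFunctionFieldBar (M * p)))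
    (hξ1 : ∀ e, ∃ h : ξ e ∈ F.X.N.R1.O, (F.X.N.e1 e).ord (F.X.N.R1.red ⟨ξ e, h⟩) = 1)
    (hξt : ∀ e, ∀ P ∈ Y.tube e, P.ord (ξ e) = 0)
    (hξ2 : ∀ e, F.X.N.R2.O.valuation (ξ e) =
      F.X.N.R2.O.valuation ((p : ↥(modularFunctionFieldBar (M * p))) ^ w e))
    (U1 : (F.X.N.R1.O)ˣ)
    (hU1 : (((U1 : F.X.N.R1.O)) : ↥(modularFunctionFieldBar (M * p))) = U M p)
    {r : ℕ} [NeZero r] (hr : r.Prime) (hrp : r ≠ p) (hrM : ¬ r ∣ M)
    (Δ : Divisor (ResidueField ↥A) ↥(modularFunctionFieldFullC (ResidueField ↥A) M))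
    (hΔ : ∀ Q, Δ Q = Q.ord (F.X.N.R1.red (U1 : F.X.N.R1.O))) (e : Node F) :
    (w e : ℤ) * Fermat.Agent.S44.Eis.HeckeK.heckeDivK M hpM A hA r Δ (F.X.N.e1 e) =
      12 * ((r : ℤ) + 1) := by
  -- the unit, in `V₁`
  have hu2 : U M p ∈ Fermat.Agent.S34.GaussPairX0.V₁ hA hpM := by
    rw [← hU1]
    exact Fermat.Agent.S44.Eis.HeckeNode.mem_V₁_of_mem F (U1 : F.X.N.R1.O).2
  have hsub : (U1 : F.X.N.R1.O) = ⟨U M p, hU1 ▸ (U1 : F.X.N.R1.O).2⟩ := Subtype.ext hU1
  have hured : F.X.N.R1.red (U1 : F.X.N.R1.O) =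
      Fermat.Agent.S34.GaussPairX0.red₁ hA hpM ⟨U M p, hu2⟩ := by
    rw [hsub]
    exact hstd _ _ hu2
  have hh : Fermat.Agent.S34.GaussPairX0.red₁ hA hpM ⟨U M p, hu2⟩ ≠ 0 :=
    hured ▸ Fermat.Agent.S34.NodalDisc.red_unit_ne_zero F.X.N.R1.toBranch U1
  obtain ⟨hmem, hne, hord⟩ :=
    Fermat.Agent.S44.Eis.HeckeNode.exists_red₁_normBeta hA hpM hr hrp hrM ⟨U M p, hu2⟩ hh
  have hmem1 : Fermat.Agent.S37.ES.NormRed.normBeta (M * p) r (U M p) ∈ F.X.N.R1.O :=
    Fermat.Agent.S44.Eis.HeckeNode.mem_of_mem_V₁ F hmem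
  have hred' : F.X.N.R1.red ⟨_, hmem1⟩ = Fermat.Agent.S34.GaussPairX0.red₁ hA hpM ⟨_, hmem⟩ :=
    hstd _ _ hmem
  have hunit : IsUnit (⟨_, hmem1⟩ : F.X.N.R1.O) := by
    by_contra hnu
    exact hne (hred' ▸ (F.X.N.R1.red_eq_zero_iff _).mpr hnu)
  obtain ⟨T1, hT1⟩ : ∃ T1 : (F.X.N.R1.O)ˣ, (T1 : F.X.N.R1.O) = ⟨_, hmem1⟩ :=
    ⟨hunit.unit, IsUnit.unit_spec _⟩
  have hT1coe : (((T1 : F.X.N.R1.O)) : ↥(modularFunctionFieldBar (M * p))) =
      Fermat.Agent.S37.ES.NormRed.normBeta (M * p) r (U M p) := by rw [hT1]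
  have h := mul_ord_eq_of_tubeUnit Y e (hξ1 e) (hξt e) (hξ2 e) T1 (fun P hP => by
    rw [hT1coe]
    exact ord_normBeta_U_of_jgen_mem hr P (jgen_mem_of_mem_tube Y hpole hnode e hP))
    (m := 12 * (r + 1)) (by rw [hT1coe]; exact valuation_R2_normBeta_U F hr hrp hrM)
  rw [hT1, hred', hord Δ (fun Q => by rw [hΔ Q, hured]) (F.X.N.e1 e)] at h
  rw [h]
  push_cast
  ring

end Fermat.Agent.S44.Eis.UnitSlope
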