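/-
PROJECT P (S44), brick [EIS] (helper22): THE UNIT SIDE OF BLOCK (iv).

The statement `UnitSide F w` of `Top/Block4` (the slope data of the modular unit
`U = Δ(z)/Δ(M p z)` for the thickness exponents `w`), proved from `Eis/UnitSlope`:

* `unitSide_of`           : for node coordinates `(w, ξ)` given by their three views;
* `unitSide_of_nodeFrame` : for a node frame `NF : NodeFrame F Y` of `X0/NodeFrameDef`, `w := NF.w`.

The conclusion is the LITERAL body of `Top/Block4.UnitSide` (this file does not import `Top/Block4`).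
The only hypothesis which is not a frame hypothesis is `hoff`: the reduction of `U` has order
divisible by `p` at the places of the first component which are neither nodes nor cusps
(`Eis/UnitOff`).
-/
import Fermat.Agent.S44.Eis.UnitSlope
import Fermat.Agent.S44.X0.NodeFrameDef

set_option autoImplicit false
set_option linter.unusedSectionVars false
set_option linter.unusedVariables false
set_option linter.style.haveILetI false
set_option synthInstance.maxHeartbeats 400000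

noncomputable section

namespace Fermat.Agent.S44.Eis.UnitSide

open ModularCurve AlgebraicCurve IsLocalRing
open Fermat.Agent.S34.NodalDefs Fermat.Agent.S34.CoreZX0Datum
open Fermat.Agent.S33.X0.Frame
open Fermat.Agent.S44.Core.FrameHyp Fermat.Agent.S44.Core.NodeOrd
open Fermat.Agent.S44.Eis.UnitSlope Fermat.Agent.S44.Eis.HeckeK
open Fermat.Agent.S44.X0.NodeFrameDef
open Fermat.Agent.S18.B.FkBasics (jk)
open Fermat.Agent.S24.DegreeAlg (jgen)

local notation "Qbar" => AlgebraicClosure ℚ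

attribute [local instance 2000] Fermat.Agent.S34.EulerX0.algResFk

/-- local instance: principal divisors on `E` -/
local instance instPDBar (N : ℕ) [NeZero N] :
    HasPrincipalDivisors Qbar ↥(modularFunctionFieldBar N) :=
  Fermat.Agent.S18.A.Instances.hasPrincipalDivisors_bar N

/-- local instance: principal divisors on the components -/
local instance instPDFk (A : ValuationSubring Qbar) (N : ℕ) [NeZero N] :
    HasPrincipalDivisors (ResidueField ↥A) ↥(modularFunctionFieldFullC (ResidueField ↥A) N) :=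
  Fermat.Agent.S37.ReductionInputs.hasPrincipalDivisors_Fk A N

variable {p : ℕ} [hp : Fact p.Prime] {M : ℕ} [NeZero M] {A : ValuationSubring Qbar} [NeZero p]
variable {hA : A.LiesOverPrime p} {hpM : ¬ p ∣ M}

local instance instNeZeroMul : NeZero (M * p) :=
  ⟨Nat.mul_ne_zero (NeZero.ne M) (NeZero.ne p)⟩

variable {F : ChartFrame hA hpM}

set_option maxHeartbeats 1600000 in
/-- **The unit side**, for node coordinates given by their three views. -/
theorem unitSide_of (Y : NodeHyp F) (hstd : Fermat.Agent.S44.Eis.HeckeNode.RedStd F)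
    (hpole : ∀ P : Place Qbar ↥(modularFunctionFieldBar (M * p)),
      P.ord (jgen (M * p)) < 0 → (Y.sp1 P).ord (jk (ResidueField ↥A) M) < 0)
    (hnode : ∀ e : Node F, 0 ≤ (F.X.N.e1 e).ord (jk (ResidueField ↥A) M))
    (w : Node F → ℕ) (ξ : Node F → ↥(modularFunctionFieldBar (M * p)))
    (hξ1 : ∀ e, ∃ h : ξ e ∈ F.X.N.R1.O, (F.X.N.e1 e).ord (F.X.N.R1.red ⟨ξ e, h⟩) = 1)
    (hξt : ∀ e, ∀ P ∈ Y.tube e, P.ord (ξ e) = 0)
    (hξ2 : ∀ e, F.X.N.R2.O.valuation (ξ e) =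
      F.X.N.R2.O.valuation ((p : ↥(modularFunctionFieldBar (M * p))) ^ w e))
    (hoff : ∀ Q, (∀ e, Q ≠ F.X.N.e1 e) → 0 ≤ Q.ord (jk (ResidueField ↥A) M) →
      (p : ℤ) ∣ Q.ord (F.X.N.R1.red (unitU F : F.X.N.R1.O))) :
    ∃ U1 : (F.X.N.R1.O)ˣ,
      (∀ e, (w e : ℤ) * (F.X.N.e1 e).ord (F.X.N.R1.red U1) = 12) ∧
      (∀ e, 0 ≤ (F.X.N.e1 e).ord (jk (ResidueField ↥A) M)) ∧
      (∀ Q, (∀ e, Q ≠ F.X.N.e1 e) → 0 ≤ Q.ord (jk (ResidueField ↥A) M) →
        (p : ℤ) ∣ Q.ord (F.X.N.R1.red U1)) ∧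
      ∀ (r : Nat.Primes), (r : ℕ) ≠ p → ¬ (r : ℕ) ∣ M →
        haveI : NeZero (r : ℕ) := ⟨r.2.ne_zero⟩
        ∀ Δ : Divisor (ResidueField ↥A) ↥(modularFunctionFieldFullC (ResidueField ↥A) M),
        (∀ Q, Δ Q = Q.ord (F.X.N.R1.red U1)) →
        ∀ e, (w e : ℤ) * heckeDivK M hpM A hA (r : ℕ) Δ (F.X.N.e1 e) = 12 * (((r : ℕ) : ℤ) + 1) := by
  refine ⟨unitU F, fun e => mul_ord_U Y hpole hnode w ξ hξ1 hξt hξ2 (unitU F) (coe_unitU F) e,
    hnode, hoff, fun r hrp hrM => ?_⟩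
  haveI : NeZero (r : ℕ) := ⟨r.2.ne_zero⟩
  intro Δ hΔ e
  exact mul_ord_hecke_U Y hstd hpole hnode w ξ hξ1 hξt hξ2 (unitU F) (coe_unitU F) r.2 hrp hrM
    Δ hΔ e

set_option maxHeartbeats 1600000 in
/-- **The unit side for a node frame**: `w := NF.w`. -/
theorem unitSide_of_nodeFrame (Y : NodeHyp F) (NF : NodeFrame F Y)
    (hstd : Fermat.Agent.S44.Eis.HeckeNode.RedStd F)
    (hpole : ∀ P : Place Qbar ↥(modularFunctionFieldBar (M * p)),
      P.ord (jgen (M * p)) < 0 → (Y.sp1 P).ord (jk (ResidueField ↥A) M) < 0)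
    (hnode : ∀ b ∈ F.X.S, 0 ≤ (Y.Fr b).ord (jk (ResidueField ↥A) M))
    (hoff : ∀ Q, (∀ e, Q ≠ F.X.N.e1 e) → 0 ≤ Q.ord (jk (ResidueField ↥A) M) →
      (p : ℤ) ∣ Q.ord (F.X.N.R1.red (unitU F : F.X.N.R1.O))) :
    ∃ U1 : (F.X.N.R1.O)ˣ,
      (∀ e, (NF.w e : ℤ) * (F.X.N.e1 e).ord (F.X.N.R1.red U1) = 12) ∧
      (∀ e, 0 ≤ (F.X.N.e1 e).ord (jk (ResidueField ↥A) M)) ∧
      (∀ Q, (∀ e, Q ≠ F.X.N.e1 e) → 0 ≤ Q.ord (jk (ResidueField ↥A) M) →
        (p : ℤ) ∣ Q.ord (F.X.N.R1.red U1)) ∧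
      ∀ (r : Nat.Primes), (r : ℕ) ≠ p → ¬ (r : ℕ) ∣ M →
        haveI : NeZero (r : ℕ) := ⟨r.2.ne_zero⟩
        ∀ Δ : Divisor (ResidueField ↥A) ↥(modularFunctionFieldFullC (ResidueField ↥A) M),
        (∀ Q, Δ Q = Q.ord (F.X.N.R1.red U1)) →
        ∀ e, (NF.w e : ℤ) * heckeDivK M hpM A hA (r : ℕ) Δ (F.X.N.e1 e) =
          12 * (((r : ℕ) : ℤ) + 1) := by
  have hnode' : ∀ e : Node F, 0 ≤ (F.X.N.e1 e).ord (jk (ResidueField ↥A) M) := by
    intro e
    rw [Y.e1_eq e]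
    exact hnode e.1 e.2
  exact unitSide_of Y hstd hpole hnode' NF.w NF.ξ NF.ord_one NF.ord_eq_zero NF.val_two hoff

end Fermat.Agent.S44.Eis.UnitSide
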