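/-
PROJECT P (S44), brick [EIS] (helper22): THE `u`-CLAUSE OF THE MODULAR UNIT AND THE COMPLETE UNIT SIDE.

`hy` = the separating functions of the first component (`X0/SepY.exists_y_1`): at every place `Q`
of the component which is not a node there is `y ∈ O₁ ∩ O₂` with `red₂ y = 0`, `red₁ y` a unit at
`Q`, and `y` without pole on the fibre over `Q`.

* `dvd_ord_red_unitU` : given `hy`, the reduction of the modular unit `U = Δ(z)/Δ(M p z)` has
  order `0` (in particular divisible by `p`) at every place which is neither a node nor a cusp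
  (helper16's `Fin/PoleUnitX0.ord_red₁_uBar_eq_zero` at `U1 := unitU F`);
* `unitSide` : the LITERAL body of `Top/Block4.UnitSide F NF.w` for a node frame `NF`, from the
  frame hypotheses and `hy` alone.
-/
import Fermat.Agent.S44.Eis.UnitSide
import Fermat.Agent.S44.Fin.PoleUnitX0

set_option autoImplicit false
set_option linter.unusedSectionVars false
set_option linter.unusedVariables false
set_option linter.style.haveILetI false
set_option synthInstance.maxHeartbeats 400000

noncomputable section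

namespace Fermat.Agent.S44.Eis.UnitOff

open ModularCurve AlgebraicCurve IsLocalRing
open Fermat.Agent.S34.NodalDefs Fermat.Agent.S34.CoreZX0Datum
open Fermat.Agent.S33.X0.Frame
open Fermat.Agent.S44.Core.FrameHyp Fermat.Agent.S44.Core.NodeOrd
open Fermat.Agent.S44.Eis.UnitSlope Fermat.Agent.S44.Eis.HeckeK
open Fermat.Agent.S44.X0.NodeFrameDef
open Fermat.Agent.S18.B.FkBasics (jk)
open Fermat.Agent.S24.DegreeAlg (jgen)

local notation "Qbar" => AlgebraicClosure ℚ

attribute [local instance 2000] Fermat.Agent.S34.EulerX0.algResFk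

/-- local instance: principal divisors on `E` -/
local instance instPDBar (N : ℕ) [NeZero N] :
    HasPrincipalDivisors Qbar ↥(modularFunctionFieldBar N) :=
  Fermat.Agent.S18.A.Instances.hasPrincipalDivisors_bar N

/-- local instance: principal divisors on the components -/
local instance instPDFk (A : ValuationSubring Qbar) (N : ℕ) [NeZero N] :
    HasPrincipalDivisors (ResidueField ↥A) ↥(modularFunctionFieldFullC (ResidueField ↥A) N) :=
  Fermat.Agent.S37.ReductionInputs.hasPrincipalDivisors_Fk A N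

variable {p : ℕ} [hp : Fact p.Prime] {M : ℕ} [NeZero M] {A : ValuationSubring Qbar} [NeZero p]
variable {hA : A.LiesOverPrime p} {hpM : ¬ p ∣ M}

local instance instNeZeroMul : NeZero (M * p) :=
  ⟨Nat.mul_ne_zero (NeZero.ne M) (NeZero.ne p)⟩

variable {F : ChartFrame hA hpM}

/-- **the separating functions of the first component**: at every place `Q` which is not a node,
`y ∈ O₁ ∩ O₂` with `red₂ y = 0`, `red₁ y` a unit at `Q`, no pole of `y` on the fibre over `Q` -/
def HasSepY (F : ChartFrame hA hpM) (Y : NodeHyp F) : Prop :=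
  ∀ Q : Place (ResidueField ↥A) ↥(modularFunctionFieldFullC (ResidueField ↥A) M),
    (∀ e, Q ≠ F.X.N.e1 e) →
    ∃ y : ↥(modularFunctionFieldBar (M * p)),
      (∃ h : y ∈ F.X.N.R1.O, Q.ord (F.X.N.R1.red ⟨y, h⟩) = 0 ∧ F.X.N.R1.red ⟨y, h⟩ ≠ 0) ∧
      y ∈ F.X.N.R2.O.nonunits ∧
      ∀ P : Place Qbar ↥(modularFunctionFieldBar (M * p)), Y.sp1 P = Q → 0 ≤ P.ord y

set_option maxHeartbeats 1600000 in
/-- the reduction of the modular unit is a unit at every place which is neither a node nor a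
cusp -/
theorem ord_red_unitU_eq_zero (Y : NodeHyp F) (hy : HasSepY F Y)
    (Q : Place (ResidueField ↥A) ↥(modularFunctionFieldFullC (ResidueField ↥A) M))
    (hQn : ∀ e, Q ≠ F.X.N.e1 e) (hQ : 0 ≤ Q.ord (jk (ResidueField ↥A) M)) :
    Q.ord (F.X.N.R1.red (unitU F : F.X.N.R1.O)) = 0 := by
  obtain ⟨y, hy1, hy2, hyt⟩ := hy Q hQn
  exact Fermat.Agent.S44.Fin.PoleUnitX0.ord_red₁_uBar_eq_zero Y hQ hy1 hy2 hyt (unitU F)
    (coe_unitU F)

/-- **the `u`-clause of the Eisenstein step** -/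
theorem dvd_ord_red_unitU (Y : NodeHyp F) (hy : HasSepY F Y) :
    ∀ Q, (∀ e, Q ≠ F.X.N.e1 e) → 0 ≤ Q.ord (jk (ResidueField ↥A) M) →
      (p : ℤ) ∣ Q.ord (F.X.N.R1.red (unitU F : F.X.N.R1.O)) := by
  intro Q hQn hQ
  rw [ord_red_unitU_eq_zero Y hy Q hQn hQ]
  exact dvd_zero _

set_option maxHeartbeats 1600000 in
/-- **The unit side of block (iv)**, complete: the literal body of `Top/Block4.UnitSide F NF.w`. -/
theorem unitSide (Y : NodeHyp F) (NF : NodeFrame F Y)
    (hstd : Fermat.Agent.S44.Eis.HeckeNode.RedStd F) (hy : HasSepY F Y) :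
    ∃ U1 : (F.X.N.R1.O)ˣ,
      (∀ e, (NF.w e : ℤ) * (F.X.N.e1 e).ord (F.X.N.R1.red U1) = 12) ∧
      (∀ e, 0 ≤ (F.X.N.e1 e).ord (jk (ResidueField ↥A) M)) ∧
      (∀ Q, (∀ e, Q ≠ F.X.N.e1 e) → 0 ≤ Q.ord (jk (ResidueField ↥A) M) →
        (p : ℤ) ∣ Q.ord (F.X.N.R1.red U1)) ∧
      ∀ (r : Nat.Primes), (r : ℕ) ≠ p → ¬ (r : ℕ) ∣ M →
        haveI : NeZero (r : ℕ) := ⟨r.2.ne_zero⟩
        ∀ Δ : Divisor (ResidueField ↥A) ↥(modularFunctionFieldFullC (ResidueField ↥A) M),
        (∀ Q, Δ Q = Q.ord (F.X.N.R1.red U1)) →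
        ∀ e, (NF.w e : ℤ) * heckeDivK M hpM A hA (r : ℕ) Δ (F.X.N.e1 e) =
          12 * (((r : ℕ) : ℤ) + 1) :=
  Fermat.Agent.S44.Eis.UnitSide.unitSide_of_nodeFrame Y NF hstd Y.sp1_pole Y.node_reg
    (dvd_ord_red_unitU Y hy)

end Fermat.Agent.S44.Eis.UnitOff
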