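/-
PROJECT P (S44), brick [EIS] (helper22): THE UNIT SIDE OF BLOCK (iv), UNCONDITIONAL.

`Eis/UnitOff.unitSide` with its only hypothesis (the separating functions of the first component)
discharged by helper24's `X0/SepY.exists_y_1`: for every chart frame `F` with local node hypotheses
`Y`, standard first reduction `hstd` and node frame `NF`, the statement `UnitSide F NF.w` of
`Top/Block4` holds (the conclusion below is its literal body).
-/
import Fermat.Agent.S44.Eis.UnitOff
import Fermat.Agent.S44.X0.SepY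

set_option autoImplicit false
set_option linter.unusedSectionVars false
set_option linter.unusedVariables false
set_option linter.style.haveILetI false
set_option synthInstance.maxHeartbeats 400000

noncomputable section

namespace Fermat.Agent.S44.Eis.UnitFinal

open ModularCurve AlgebraicCurve IsLocalRing
open Fermat.Agent.S34.NodalDefs Fermat.Agent.S34.CoreZX0Datum
open Fermat.Agent.S33.X0.Frame
open Fermat.Agent.S44.Core.FrameHyp Fermat.Agent.S44.Core.NodeOrd
open Fermat.Agent.S44.Eis.UnitSlope Fermat.Agent.S44.Eis.HeckeK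
open Fermat.Agent.S44.X0.NodeFrameDef
open Fermat.Agent.S18.B.FkBasics (jk)

local notation "Qbar" => AlgebraicClosure ℚ

attribute [local instance 2000] Fermat.Agent.S34.EulerX0.algResFk

/-- local instance: principal divisors on `E` -/
local instance instPDBar (N : ℕ) [NeZero N] :
    HasPrincipalDivisors Qbar ↥(modularFunctionFieldBar N) :=
  Fermat.Agent.S18.A.Instances.hasPrincipalDivisors_bar N

/-- local instance: principal divisors on the components -/
local instance instPDFk (A : ValuationSubring Qbar) (N : ℕ) [NeZero N] :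
    HasPrincipalDivisors (ResidueField ↥A) ↥(modularFunctionFieldFullC (ResidueField ↥A) N) :=
  Fermat.Agent.S37.ReductionInputs.hasPrincipalDivisors_Fk A N

variable {p : ℕ} [hp : Fact p.Prime] {M : ℕ} [NeZero M] {A : ValuationSubring Qbar} [NeZero p]
variable {hA : A.LiesOverPrime p} {hpM : ¬ p ∣ M}

local instance instNeZeroMul : NeZero (M * p) :=
  ⟨Nat.mul_ne_zero (NeZero.ne M) (NeZero.ne p)⟩

variable {F : ChartFrame hA hpM}

/-- the separating functions of the first component exist at every chart frame -/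
theorem hasSepY (Y : NodeHyp F) : Fermat.Agent.S44.Eis.UnitOff.HasSepY F Y :=
  fun Q hQ => Fermat.Agent.S44.X0.SepY.exists_y_1 Y Q hQ

/-- the `u`-clause of the Eisenstein step, unconditional -/
theorem dvd_ord_red_unitU (Y : NodeHyp F) :
    ∀ Q, (∀ e, Q ≠ F.X.N.e1 e) → 0 ≤ Q.ord (jk (ResidueField ↥A) M) →
      (p : ℤ) ∣ Q.ord (F.X.N.R1.red (unitU F : F.X.N.R1.O)) :=
  Fermat.Agent.S44.Eis.UnitOff.dvd_ord_red_unitU Y (hasSepY Y)

set_option maxHeartbeats 1600000 in
/-- **The unit side of block (iv)**: the literal body of `Top/Block4.UnitSide F NF.w`. -/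
theorem unitSide (Y : NodeHyp F) (NF : NodeFrame F Y)
    (hstd : Fermat.Agent.S44.Eis.HeckeNode.RedStd F) :
    ∃ U1 : (F.X.N.R1.O)ˣ,
      (∀ e, (NF.w e : ℤ) * (F.X.N.e1 e).ord (F.X.N.R1.red U1) = 12) ∧
      (∀ e, 0 ≤ (F.X.N.e1 e).ord (jk (ResidueField ↥A) M)) ∧
      (∀ Q, (∀ e, Q ≠ F.X.N.e1 e) → 0 ≤ Q.ord (jk (ResidueField ↥A) M) →
        (p : ℤ) ∣ Q.ord (F.X.N.R1.red U1)) ∧
      ∀ (r : Nat.Primes), (r : ℕ) ≠ p → ¬ (r : ℕ) ∣ M →
        haveI : NeZero (r : ℕ) := ⟨r.2.ne_zero⟩
        ∀ Δ : Divisor (ResidueField ↥A) ↥(modularFunctionFieldFullC (ResidueField ↥A) M),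
        (∀ Q, Δ Q = Q.ord (F.X.N.R1.red U1)) →
        ∀ e, (NF.w e : ℤ) * heckeDivK M hpM A hA (r : ℕ) Δ (F.X.N.e1 e) =
          12 * (((r : ℕ) : ℤ) + 1) :=
  Fermat.Agent.S44.Eis.UnitOff.unitSide Y NF hstd (hasSepY Y)

end Fermat.Agent.S44.Eis.UnitFinal
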