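import Mathlib

/-!
# PROJECT P (S44), brick [EIS] (helper16): the Eisenstein algebra, in full-divisor form

`X` the places of the component `κ`, `node : ι → X` the nodes, `cusp` the cusps, `T` the reduction of
the Hecke correspondence `T_r` on `Div κ`, `Dx = div (red₁ u_x)` for the Kummer function `u_x` of a
`p`-torsion class `x`, `Du = div (red₁ u)` for the modular unit `u`.

If `T` maps cusp-supported divisors to divisors vanishing off the cusps, `Dx` and `Du` are divisible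
by `p` off the nodes and the cusps, `w_e · Du(e) = m`, `w_e · (T Du)(e) = m (r + 1)` (`m` prime
to `p`), `w_e · Dx(e) = c` in `𝔽_p` for all nodes `e`, and `(T Dx)(e) = a · Dx(e)` in `𝔽_p` with
`a ≠ r + 1`, then `Dx(e) = 0` in `𝔽_p` for all `e`.
-/

set_option autoImplicit false

namespace Fermat.Agent.S44.Eis.EisAlg

variable {X ι : Type*}

/-- a divisor whose values off `cusp` are divisible by `p` is `p` times a divisor plus a divisor
supported in `cusp` -/
theorem exists_decomp (cusp : Set X) (p : ℕ) (hp : p ≠ 0) (Ψ : X →₀ ℤ)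
    (hΨ : ∀ Q, Q ∉ cusp → (p : ℤ) ∣ Ψ Q) :
    ∃ Ψ₁ Ψc : X →₀ ℤ, Ψ = (p : ℤ) • Ψ₁ + Ψc ∧ ∀ Q, Ψc Q ≠ 0 → Q ∈ cusp := by
  classical
  have hp' : (p : ℤ) ≠ 0 := Int.natCast_ne_zero.mpr hp
  refine ⟨(Ψ.filter (· ∉ cusp)).mapRange (· / (p : ℤ)) (Int.zero_ediv _), Ψ.filter (· ∈ cusp),
    ?_, ?_⟩
  · ext Q
    rw [Finsupp.add_apply, Finsupp.smul_apply, Finsupp.mapRange_apply, Finsupp.filter_apply,
      Finsupp.filter_apply, smul_eq_mul]
    by_cases hQ : Q ∈ cusp
    · rw [if_neg (not_not.mpr hQ), if_pos hQ, Int.zero_ediv, mul_zero, zero_add]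
    · rw [if_pos hQ, if_neg hQ, add_zero, Int.mul_ediv_cancel' (hΨ Q hQ)]
  · intro Q hQ
    by_contra hcon
    exact hQ (by rw [Finsupp.filter_apply, if_neg hcon])

/-- **the Eisenstein algebra** -/
theorem forall_node_eq_zero (node : ι → X) (cusp : Set X) (T : (X →₀ ℤ) →+ (X →₀ ℤ))
    {p : ℕ} [hp : Fact p.Prime] (Dx Du : X →₀ ℤ) (m r : ℕ) (w : ι → ℤ) (c a : ZMod p)
    (h1 : ∀ Δ : X →₀ ℤ, (∀ Q, Δ Q ≠ 0 → Q ∈ cusp) → ∀ Q', Q' ∉ cusp → T Δ Q' = 0)
    (h2 : ∀ e, node e ∉ cusp)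
    (h3 : ∀ Q, Q ∉ Set.range node → Q ∉ cusp → (p : ℤ) ∣ Dx Q)
    (h4 : ∀ Q, Q ∉ Set.range node → Q ∉ cusp → (p : ℤ) ∣ Du Q)
    (h5 : ∀ e, w e * Du (node e) = m) (h5' : ∀ e, w e * T Du (node e) = m * (r + 1))
    (hm : (m : ZMod p) ≠ 0)
    (h6 : ∀ e, ((w e * Dx (node e) : ℤ) : ZMod p) = c)
    (h7 : ∀ e, ((T Dx (node e) : ℤ) : ZMod p) = a * ((Dx (node e) : ℤ) : ZMod p))
    (h8 : a ≠ (r : ZMod p) + 1) (e : ι) :
    ((Dx (node e) : ℤ) : ZMod p) = 0 := by
  obtain ⟨c', hc'⟩ := ZMod.intCast_surjective c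
  -- `Ψ = m Dx - c Du` is divisible by `p` off the cusps
  have hΨ : ∀ Q, Q ∉ cusp → (p : ℤ) ∣ ((m : ℤ) • Dx - c' • Du) Q := by
    intro Q hQ
    rw [Finsupp.sub_apply, Finsupp.smul_apply, Finsupp.smul_apply, smul_eq_mul, smul_eq_mul]
    by_cases hn : Q ∈ Set.range node
    · obtain ⟨e', rfl⟩ := hn
      rw [← (ZMod.intCast_zmod_eq_zero_iff_dvd _ p)]
      have e1 := h6 e'
      have e2 := congrArg (fun z : ℤ => (z : ZMod p)) (h5 e')
      simp only [Int.cast_mul, Int.cast_natCast] at e1 e2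
      rw [Int.cast_sub, Int.cast_mul, Int.cast_mul, Int.cast_natCast, hc', ← e2, ← e1]
      ring
    · exact dvd_sub (Dvd.dvd.mul_left (h3 Q hn hQ) _) (Dvd.dvd.mul_left (h4 Q hn hQ) _)
  obtain ⟨Ψ₁, Ψc, hdec, hΨc⟩ := exists_decomp cusp p hp.out.ne_zero _ hΨ
  -- apply `T` and evaluate at the node
  have hT : ((m : ℤ) • T Dx - c' • T Du) (node e) =
      (p : ℤ) * T Ψ₁ (node e) + T Ψc (node e) := by
    have := congrArg (fun D => T D (node e)) hdec
    simp only [map_sub, map_add, map_zsmul, Finsupp.add_apply, Finsupp.smul_apply,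
      smul_eq_mul] at this
    rw [Finsupp.sub_apply, Finsupp.smul_apply, Finsupp.smul_apply, smul_eq_mul, smul_eq_mul]
    rw [Finsupp.sub_apply, Finsupp.smul_apply, Finsupp.smul_apply, smul_eq_mul, smul_eq_mul]
      at this
    exact this
  rw [h1 Ψc hΨc (node e) (h2 e), add_zero, Finsupp.sub_apply, Finsupp.smul_apply,
    Finsupp.smul_apply, smul_eq_mul, smul_eq_mul] at hT
  have hT' := congrArg (fun z : ℤ => (z : ZMod p)) hT
  simp only [Int.cast_sub, Int.cast_mul, Int.cast_natCast, ZMod.natCast_self, zero_mul] at hT'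
  rw [hc', sub_eq_zero] at hT'
  -- multiply by `w e`
  have e5 := congrArg (fun z : ℤ => (z : ZMod p)) (h5 e)
  have e5' := congrArg (fun z : ℤ => (z : ZMod p)) (h5' e)
  have e6 := h6 e
  have e7 := h7 e
  simp only [Int.cast_mul, Int.cast_natCast, Int.cast_add, Int.cast_one] at e5 e5' e6
  have hmac : (m : ZMod p) * (a * c) = c * ((m : ZMod p) * ((r : ZMod p) + 1)) := by
    rw [← e5', ← e6]
    calc (m : ZMod p) * (a * ((w e : ZMod p) * ((Dx (node e) : ℤ) : ZMod p)))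
        = (w e : ZMod p) * ((m : ZMod p) * (a * ((Dx (node e) : ℤ) : ZMod p))) := by ring
      _ = (w e : ZMod p) * ((m : ZMod p) * ((T Dx (node e) : ℤ) : ZMod p)) := by rw [e7]
      _ = (w e : ZMod p) * (c * ((T Du (node e) : ℤ) : ZMod p)) := by rw [hT']
      _ = c * ((w e : ZMod p) * ((T Du (node e) : ℤ) : ZMod p)) := by ring
      _ = (w e : ZMod p) * ((Dx (node e) : ℤ) : ZMod p) *
            ((w e : ZMod p) * ((T Du (node e) : ℤ) : ZMod p)) := by rw [e6]
  have hc0 : c = 0 := by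
    have h9 : (m : ZMod p) * c * (a - ((r : ZMod p) + 1)) = 0 := by
      have : (m : ZMod p) * c * (a - ((r : ZMod p) + 1)) =
          (m : ZMod p) * (a * c) - c * ((m : ZMod p) * ((r : ZMod p) + 1)) := by ring
      rw [this, hmac, sub_self]
    rcases mul_eq_zero.mp h9 with h10 | h10
    · rcases mul_eq_zero.mp h10 with h11 | h11
      · exact absurd h11 hm
      · exact h11
    · exact absurd (sub_eq_zero.mp h10) h8
  have hw0 : (w e : ZMod p) ≠ 0 := by
    intro h0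
    apply hm
    rw [← e5, h0, zero_mul]
  rw [hc0] at e6
  rcases mul_eq_zero.mp e6 with h12 | h12
  · exact absurd h12 hw0
  · exact h12

end Fermat.Agent.S44.Eis.EisAlg
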