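import Mathlib
import Fermat.Agent.S44.Eis.EisAlg
import Fermat.Agent.S44.Eis.HeckeCusp
import Fermat.Agent.S44.Eis.HeckeNode
import Fermat.Agent.S44.Core.NodeOrd

/-!
# PROJECT P (S44), brick [EIS] (helper16): the Eisenstein algebra at the chart frame

The instance of `EisAlg.forall_node_eq_zero` at `T = heckeDivK`, `Dx = div (red₁ u_x)`,
`Du = div (red₁ u)`: all the geometric inputs (node orders of the modular unit and of `T_r u`, the
constant `w_e a_e(x)`, the bad smooth places) are hypotheses.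
-/

set_option autoImplicit false
set_option linter.unusedSectionVars false
set_option linter.style.haveILetI false
set_option synthInstance.maxHeartbeats 400000

noncomputable section

namespace Fermat.Agent.S44.Eis.EisInst

open ModularCurve AlgebraicCurve IsLocalRing
open Fermat.Agent.S37.ES.NormRed
open Fermat.Agent.S34.GaussPairX0
open Fermat.Agent.S33.X0.Frame Fermat.Agent.S34.CoreZX0Datum
open Fermat.Agent.S44.Eis.HeckeK Fermat.Agent.S44.Eis.HeckeNode Fermat.Agent.S44.Eis.HeckeCusp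
open Fermat.Agent.S44.Core.NodeOrd
open Fermat.Agent.S18.B.FkBasics (jk)

local notation "Kb" => AlgebraicClosure ℚ

attribute [local instance] Fermat.Agent.S18.A.Instances.hasPrincipalDivisors_bar

attribute [local instance 2000] Fermat.Agent.S34.EulerX0.algResFk

local instance instNeZeroMul (M q : ℕ) [NeZero M] [NeZero q] : NeZero (M * q) :=
  ⟨Nat.mul_ne_zero (NeZero.ne M) (NeZero.ne q)⟩

local instance instPDFk (A : ValuationSubring Kb) (N : ℕ) [NeZero N] :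
    HasPrincipalDivisors (ResidueField ↥A) ↥(modularFunctionFieldFullC (ResidueField ↥A) N) :=
  Fermat.Agent.S37.ReductionInputs.hasPrincipalDivisors_Fk A N

variable {p : ℕ} [hp : Fact p.Prime] {M : ℕ} [NeZero M] {A : ValuationSubring Kb} [NeZero p]
variable {hA : A.LiesOverPrime p} {hpM : ¬ p ∣ M}

/-- multiples of a class with node orders -/
theorem hasNodeOrd_zsmul {F : ChartFrame hA hpM} {x : JZero (M * p)} {a : Node F → ZMod p}
    (hx : HasNodeOrd F x a) (n : ℤ) : HasNodeOrd F (n • x) (n • a) := by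
  induction n using Int.induction_on with
  | zero =>
    rw [zero_zsmul, zero_zsmul]
    exact HasNodeOrd.zero F
  | succ k ih =>
    rw [add_zsmul, add_zsmul, one_zsmul, one_zsmul]
    exact ih.add hx
  | pred k ih =>
    rw [sub_zsmul, sub_zsmul, one_zsmul, one_zsmul]
    exact ih.add hx.neg

set_option maxHeartbeats 1600000 in
/-- **function level, in the frame**: `T_r h = N_α (β h)` of a unit `h` of the first Gauss ring of
the frame. -/
theorem exists_red_normBeta (F : ChartFrame hA hpM) (hF : RedStd F) {r : ℕ} [NeZero r]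
    (hr : r.Prime) (hrp : r ≠ p) (hrM : ¬ r ∣ M) (u : (F.X.N.R1.O)ˣ) :
    ∃ hmem : normBeta (M * p) r (((u : F.X.N.R1.O)) : ↥(modularFunctionFieldBar (M * p))) ∈
        F.X.N.R1.O,
      F.X.N.R1.red ⟨_, hmem⟩ ≠ 0 ∧
      ∀ Δ : Divisor (ResidueField ↥A) ↥(modularFunctionFieldFullC (ResidueField ↥A) M),
        (∀ Q, Δ Q = Q.ord (F.X.N.R1.red u)) →
        ∀ Q, Q.ord (F.X.N.R1.red ⟨_, hmem⟩) = heckeDivK M hpM A hA r Δ Q := by
  have hu2 : ((u : F.X.N.R1.O) : ↥(modularFunctionFieldBar (M * p))) ∈ V₁ hA hpM :=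
    mem_V₁_of_mem F (u : F.X.N.R1.O).2
  have hured : F.X.N.R1.red (u : F.X.N.R1.O) = red₁ hA hpM ⟨_, hu2⟩ := hF _ _ hu2
  have hu0 : F.X.N.R1.red (u : F.X.N.R1.O) ≠ 0 := by
    intro h0
    exact ((F.X.N.R1.red_eq_zero_iff _).mp h0) u.isUnit
  have hh : red₁ hA hpM ⟨_, hu2⟩ ≠ 0 := hured ▸ hu0
  obtain ⟨hmem, hne, hord⟩ := exists_red₁_normBeta hA hpM hr hrp hrM ⟨_, hu2⟩ hh
  have hmem1 : normBeta (M * p) r ((u : F.X.N.R1.O) : ↥(modularFunctionFieldBar (M * p))) ∈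
      F.X.N.R1.O := mem_of_mem_V₁ F hmem
  have hred' : F.X.N.R1.red ⟨_, hmem1⟩ = red₁ hA hpM ⟨_, hmem⟩ := hF _ _ hmem
  refine ⟨hmem1, hred' ▸ hne, fun Δ hΔ Q => ?_⟩
  rw [hred']
  exact hord Δ (fun Q' => by rw [hΔ Q', hured]) Q

set_option maxHeartbeats 1600000 in
/-- **The Eisenstein step at the chart frame.**  `x = [D]`, `p D = div u_x`, `T_r x = a x` with
`a ≠ r + 1` in `𝔽_p`; `u` a unit of the first Gauss ring (the modular unit) with
`w_e a_e(u) = m`, `w_e a_e(T_r u) = m (r + 1)`, `m` prime to `p`; `w_e a_e(x) = c` in `𝔽_p` for all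
nodes `e`; off the nodes and the cusps the orders of `red u_x` and `red u` are divisible by `p`.
Then all node orders of `x` vanish in `𝔽_p`. -/
theorem nodeOrd_eq_zero (F : ChartFrame hA hpM) (hF : RedStd F) (r : Nat.Primes)
    (hrp : (r : ℕ) ≠ p) (hrM : ¬ (r : ℕ) ∣ M)
    (D : Divisor.degZero (K := Kb) (F := ↥(modularFunctionFieldBar (M * p))))
    (ux : (F.X.N.R1.O)ˣ)
    (hD : ∀ P : Place Kb ↥(modularFunctionFieldBar (M * p)),
      (p : ℤ) * (D : Divisor Kb ↥(modularFunctionFieldBar (M * p))) P =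
        P.ord (((ux : F.X.N.R1.O)) : ↥(modularFunctionFieldBar (M * p))))
    (a : ℤ) (hx : heckeOperatorBar (M * p) r (Pic0.mk D) = a • Pic0.mk D)
    (ha : (a : ZMod p) ≠ ((r : ℕ) : ZMod p) + 1)
    (u : (F.X.N.R1.O)ˣ) (w : Node F → ℤ) (m : ℕ) (hm : (m : ZMod p) ≠ 0)
    (hwu : ∀ e, w e * (F.X.N.e1 e).ord (F.X.N.R1.red u) = m)
    (hwTu : haveI : NeZero (r : ℕ) := ⟨r.2.ne_zero⟩
      ∀ (hmem : normBeta (M * p) r (((u : F.X.N.R1.O)) : ↥(modularFunctionFieldBar (M * p))) ∈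
        F.X.N.R1.O) (e : Node F),
        w e * (F.X.N.e1 e).ord (F.X.N.R1.red ⟨_, hmem⟩) = m * ((r : ℕ) + 1))
    (c : ZMod p)
    (hc : ∀ e, ((w e * (F.X.N.e1 e).ord (F.X.N.R1.red ux) : ℤ) : ZMod p) = c)
    (hnc : ∀ e, 0 ≤ (F.X.N.e1 e).ord (jk (ResidueField ↥A) M))
    (hx_off : ∀ Q, Q ∉ Set.range F.X.N.e1 → 0 ≤ Q.ord (jk (ResidueField ↥A) M) →
      (p : ℤ) ∣ Q.ord (F.X.N.R1.red ux))
    (hu_off : ∀ Q, Q ∉ Set.range F.X.N.e1 → 0 ≤ Q.ord (jk (ResidueField ↥A) M) →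
      (p : ℤ) ∣ Q.ord (F.X.N.R1.red u))
    (e : Node F) :
    (((F.X.N.e1 e).ord (F.X.N.R1.red ux) : ℤ) : ZMod p) = 0 := by
  haveI : NeZero (r : ℕ) := ⟨r.2.ne_zero⟩
  have hux0 : F.X.N.R1.red (ux : F.X.N.R1.O) ≠ 0 := fun h0 =>
    ((F.X.N.R1.red_eq_zero_iff _).mp h0) ux.isUnit
  have hu0 : F.X.N.R1.red (u : F.X.N.R1.O) ≠ 0 := fun h0 =>
    ((F.X.N.R1.red_eq_zero_iff _).mp h0) u.isUnit
  obtain ⟨Dx, hDx, -⟩ := HasPrincipalDivisors.exists_divisor (K := ResidueField ↥A)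
    (F.X.N.R1.red (ux : F.X.N.R1.O)) hux0
  obtain ⟨Du, hDu, -⟩ := HasPrincipalDivisors.exists_divisor (K := ResidueField ↥A)
    (F.X.N.R1.red (u : F.X.N.R1.O)) hu0
  -- `T_r x`
  obtain ⟨D', ux', hD'x, hD', hord'⟩ := exists_hecke_red F hF r hrp hrM D ux hD
  -- `T_r u`
  obtain ⟨hmem, -, hordu⟩ := exists_red_normBeta F hF (r := (r : ℕ)) r.2 hrp hrM u
  -- node orders of `T_r x` in two ways
  have hN1 : HasNodeOrd F (heckeOperatorBar (M * p) r (Pic0.mk D))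
      (fun e' => (((F.X.N.e1 e').ord (F.X.N.R1.red (ux' : F.X.N.R1.O)) : ℤ) : ZMod p)) :=
    ⟨D', ux', hD'x, hD', fun _ => rfl⟩
  have hN0 : HasNodeOrd F (Pic0.mk D)
      (fun e' => (((F.X.N.e1 e').ord (F.X.N.R1.red (ux : F.X.N.R1.O)) : ℤ) : ZMod p)) :=
    ⟨D, ux, rfl, hD, fun _ => rfl⟩
  have hN2 := hasNodeOrd_zsmul hN0 a
  rw [hx] at hN1
  have huniq := hN1.unique hN2
  refine Fermat.Agent.S44.Eis.EisAlg.forall_node_eq_zero (p := p) F.X.N.e1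
    {Q | Q.ord (jk (ResidueField ↥A) M) < 0} (heckeDivK M hpM A hA (r : ℕ)) Dx Du m (r : ℕ) w c
    (a : ZMod p) ?_ ?_ ?_ ?_ ?_ ?_ hm ?_ ?_ ha e |> fun h => by rw [hDx] at h; exact h
  · intro Δ hΔ Q' hQ'
    exact heckeDivK_apply_eq_zero_of_cuspidal hpM hA r.2 hrM (fun Q hQ => hΔ Q hQ)
      (not_lt.mp hQ')
  · intro e' he'
    exact absurd (hnc e') (not_le.mpr he')
  · intro Q hQ hQc
    rw [hDx]
    exact hx_off Q hQ (not_lt.mp hQc)
  · intro Q hQ hQc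
    rw [hDu]
    exact hu_off Q hQ (not_lt.mp hQc)
  · intro e'
    rw [hDu]
    exact hwu e'
  · intro e'
    rw [← hordu Du hDu (F.X.N.e1 e')]
    exact hwTu hmem e'
  · intro e'
    rw [hDx]
    exact hc e'
  · intro e'
    rw [← hord' Dx hDx (F.X.N.e1 e'), hDx]
    have := congrFun huniq e'
    simp only [Pi.smul_apply, zsmul_eq_mul] at this
    exact this

set_option maxHeartbeats 1600000 in
/-- the same, with the conclusion in the vocabulary of `Core/NodeOrd`: `x` lies in the finite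
part -/
theorem mem_finPart (F : ChartFrame hA hpM) (hF : RedStd F) (r : Nat.Primes)
    (hrp : (r : ℕ) ≠ p) (hrM : ¬ (r : ℕ) ∣ M)
    (D : Divisor.degZero (K := Kb) (F := ↥(modularFunctionFieldBar (M * p))))
    (ux : (F.X.N.R1.O)ˣ)
    (hD : ∀ P : Place Kb ↥(modularFunctionFieldBar (M * p)),
      (p : ℤ) * (D : Divisor Kb ↥(modularFunctionFieldBar (M * p))) P =
        P.ord (((ux : F.X.N.R1.O)) : ↥(modularFunctionFieldBar (M * p))))
    (a : ℤ) (hx : heckeOperatorBar (M * p) r (Pic0.mk D) = a • Pic0.mk D)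
    (ha : (a : ZMod p) ≠ ((r : ℕ) : ZMod p) + 1)
    (u : (F.X.N.R1.O)ˣ) (w : Node F → ℤ) (m : ℕ) (hm : (m : ZMod p) ≠ 0)
    (hwu : ∀ e, w e * (F.X.N.e1 e).ord (F.X.N.R1.red u) = m)
    (hwTu : haveI : NeZero (r : ℕ) := ⟨r.2.ne_zero⟩
      ∀ (hmem : normBeta (M * p) r (((u : F.X.N.R1.O)) : ↥(modularFunctionFieldBar (M * p))) ∈
        F.X.N.R1.O) (e : Node F),
        w e * (F.X.N.e1 e).ord (F.X.N.R1.red ⟨_, hmem⟩) = m * ((r : ℕ) + 1))
    (c : ZMod p)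
    (hc : ∀ e, ((w e * (F.X.N.e1 e).ord (F.X.N.R1.red ux) : ℤ) : ZMod p) = c)
    (hnc : ∀ e, 0 ≤ (F.X.N.e1 e).ord (jk (ResidueField ↥A) M))
    (hx_off : ∀ Q, Q ∉ Set.range F.X.N.e1 → 0 ≤ Q.ord (jk (ResidueField ↥A) M) →
      (p : ℤ) ∣ Q.ord (F.X.N.R1.red ux))
    (hu_off : ∀ Q, Q ∉ Set.range F.X.N.e1 → 0 ≤ Q.ord (jk (ResidueField ↥A) M) →
      (p : ℤ) ∣ Q.ord (F.X.N.R1.red u)) :
    Pic0.mk D ∈ finPart F := by
  have hN0 : HasNodeOrd F (Pic0.mk D)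
      (fun e' => (((F.X.N.e1 e').ord (F.X.N.R1.red (ux : F.X.N.R1.O)) : ℤ) : ZMod p)) :=
    ⟨D, ux, rfl, hD, fun _ => rfl⟩
  refine (mem_finPart_iff_eq_zero hN0).mpr (funext fun e => ?_)
  exact nodeOrd_eq_zero F hF r hrp hrM D ux hD a hx ha u w m hm hwu hwTu c hc hnc hx_off hu_off e

set_option maxHeartbeats 1600000 in
/-- **The export of the Eisenstein step**, in the form consumed by the top level: the modular unit
`U1` with its slope data (`w_e a_e(U1) = 12`, `w_e a_e(T_r U1) = 12 (r + 1)`) enters as three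
hypotheses. -/
theorem hasNodeOrd_zero (F : ChartFrame hA hpM) (hstd : RedStd F) (w : Node F → ℕ)
    (h12 : ¬ p ∣ 12) (U1 : (F.X.N.R1.O)ˣ)
    (hwU : ∀ e, (w e : ℤ) * (F.X.N.e1 e).ord (F.X.N.R1.red U1) = 12)
    (hnc : ∀ e, 0 ≤ (F.X.N.e1 e).ord (jk (ResidueField ↥A) M))
    (hU : ∀ Q, (∀ e, Q ≠ F.X.N.e1 e) → 0 ≤ Q.ord (jk (ResidueField ↥A) M) →
      (p : ℤ) ∣ Q.ord (F.X.N.R1.red U1))
    (r : Nat.Primes) (hrp : (r : ℕ) ≠ p) (hrM : ¬ (r : ℕ) ∣ M)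
    (hwTU : haveI : NeZero (r : ℕ) := ⟨r.2.ne_zero⟩
      ∀ Δ : Divisor (ResidueField ↥A) ↥(modularFunctionFieldFullC (ResidueField ↥A) M),
      (∀ Q, Δ Q = Q.ord (F.X.N.R1.red U1)) →
      ∀ e, (w e : ℤ) * heckeDivK M hpM A hA (r : ℕ) Δ (F.X.N.e1 e) = 12 * (((r : ℕ) : ℤ) + 1))
    (ar : ℤ) (hne : (ar : ZMod p) ≠ ((r : ℕ) : ZMod p) + 1)
    (x : JZero (M * p)) (hx : heckeOperatorBar (M * p) r x = ar • x)
    (D : Divisor.degZero (K := Kb) (F := ↥(modularFunctionFieldBar (M * p))))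
    (u : (F.X.N.R1.O)ˣ) (hDx : Pic0.mk D = x)
    (hD : ∀ P : Place Kb ↥(modularFunctionFieldBar (M * p)),
      (p : ℤ) * (D : Divisor Kb ↥(modularFunctionFieldBar (M * p))) P =
        P.ord (((u : F.X.N.R1.O)) : ↥(modularFunctionFieldBar (M * p))))
    (hoff : ∀ Q, (∀ e, Q ≠ F.X.N.e1 e) → 0 ≤ Q.ord (jk (ResidueField ↥A) M) →
      (p : ℤ) ∣ Q.ord (F.X.N.R1.red u))
    (c : ZMod p)
    (hc : ∀ e, ((w e : ℕ) : ZMod p) *
      (((F.X.N.e1 e).ord (F.X.N.R1.red u) : ℤ) : ZMod p) = c) :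
    HasNodeOrd F x 0 := by
  haveI : NeZero (r : ℕ) := ⟨r.2.ne_zero⟩
  have hU0 : F.X.N.R1.red (U1 : F.X.N.R1.O) ≠ 0 := fun h0 =>
    ((F.X.N.R1.red_eq_zero_iff _).mp h0) U1.isUnit
  obtain ⟨Du, hDu, -⟩ := HasPrincipalDivisors.exists_divisor (K := ResidueField ↥A)
    (F.X.N.R1.red (U1 : F.X.N.R1.O)) hU0
  obtain ⟨hmem, -, hordu⟩ := exists_red_normBeta F hstd (r := (r : ℕ)) r.2 hrp hrM U1
  have hm : ((12 : ℕ) : ZMod p) ≠ 0 := by
    intro h0
    exact h12 ((ZMod.natCast_eq_zero_iff 12 p).mp h0)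
  have hrange : ∀ Q, Q ∉ Set.range F.X.N.e1 → ∀ e, Q ≠ F.X.N.e1 e := by
    intro Q hQ e he
    exact hQ ⟨e, he.symm⟩
  subst hDx
  refine mem_finPart F hstd r hrp hrM D u hD ar hx hne U1 (fun e => (w e : ℤ)) 12 hm
    (fun e => by rw [hwU e]; rfl) ?_ c ?_ hnc
    (fun Q hQ hQj => hoff Q (hrange Q hQ) hQj) (fun Q hQ hQj => hU Q (hrange Q hQ) hQj)
  · intro hmem' e
    rw [hordu Du hDu (F.X.N.e1 e), hwTU Du hDu e]
    push_cast
    rfl
  · intro e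
    rw [Int.cast_mul, Int.cast_natCast]
    exact hc e

end Fermat.Agent.S44.Eis.EisInst
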